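import Mathlib
import Fermat.Agent.ESJ.ParHom.Bound

/-!
# S41 / WP-A (HECKE-COH) : Hecke correspondences between two groups on `Hom(Γ, A)`

Setting: groups `Γ` (source of the arguments), `Γ'` (where the homomorphisms live), a common
overgroup `G` with `j : Γ →* G`, `j' : Γ' →* G` (`j'` injective) and a finite family `a : ι → G`
of representatives of pairwise distinct cosets `j'(Γ') a_i` whose union is stable under right
multiplication by `j(Γ)` (`IsHeckeSys j j' a`).  For `γ : Γ`, `i : ι` there are unique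
`h.perm γ i : ι` and `h.coc γ i : Γ'` with

  `a i * j γ = j' (h.coc γ i) * a (h.perm γ i)`,

and the operator `h.op : (Additive Γ' →+ A) → (Additive Γ →+ A)` is
`(h.op φ) γ = ∑ i, φ (h.coc γ i)`.

This is the two-group version of `Fermat.Agent.ESJ.ParHom.IsHeckeSystem` (restriction,
corestriction (transfer), conjugation and the Hecke operators are all instances).

Main results:
* `IsHeckeSys.op_apply_of`     : the formula for ANY witnesses `(π, γ')`;
* `IsHeckeSys.op_eq_of_reps`   : independence of the representatives (up to a central factor);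
* `IsHeckeSys.op_op_apply`     : composition: if `b k * a i = z * j'' (g (i,k)) * c (e (i,k))`
  (with `z` central) then `(op_a (op_b ψ)) γ = ∑ (i,k), ψ (coc_c γ (e (i,k)))`;
  `op_op_of_bijective`, `op_op_of_card_fiber` are the two corollaries used in practice;
* `IsHeckeSys.op_comp`         : compatibility with a change of coefficients;
* `IsHeckeSys.op_apply_eq_zero`: cycle argument (preservation of classes of homomorphisms
  killing a class of elements stable under powers and conjugation).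
-/

set_option autoImplicit false

namespace Fermat.Agent.S41.Coh

open Fermat.Agent.ESJ.ParHom

noncomputable section

/-- A finite system of coset representatives for a Hecke correspondence from `Γ` to `Γ'`. -/
structure IsHeckeSys {Γ Γ' G : Type*} [Group Γ] [Group Γ'] [Group G] (j : Γ →* G) (j' : Γ' →* G)
    {ι : Type*} (a : ι → G) : Prop where
  inj : Function.Injective j'
  sep : ∀ (i i' : ι) (γ' : Γ'), a i = j' γ' * a i' → i = i'
  stab : ∀ (γ : Γ) (i : ι), ∃ (i' : ι) (γ' : Γ'), a i * j γ = j' γ' * a i'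

namespace IsHeckeSys

variable {Γ Γ' G : Type*} [Group Γ] [Group Γ'] [Group G] {j : Γ →* G} {j' : Γ' →* G}
  {ι : Type*} {a : ι → G} (h : IsHeckeSys j j' a)

/-- The permutation of the cosets induced by right multiplication by `γ` (as a function). -/
def perm (γ : Γ) (i : ι) : ι := (h.stab γ i).choose

/-- The cocycle: `a i * j γ = j' (coc γ i) * a (perm γ i)`. -/
def coc (γ : Γ) (i : ι) : Γ' := (h.stab γ i).choose_spec.choose

theorem spec (γ : Γ) (i : ι) : a i * j γ = j' (h.coc γ i) * a (h.perm γ i) :=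
  (h.stab γ i).choose_spec.choose_spec

theorem perm_coc_unique {γ : Γ} {i i' : ι} {γ' : Γ'} (e : a i * j γ = j' γ' * a i') :
    h.perm γ i = i' ∧ h.coc γ i = γ' := by
  have e1 := h.spec γ i
  have e2 : a (h.perm γ i) = j' ((h.coc γ i)⁻¹ * γ') * a i' := by
    rw [map_mul, map_inv, mul_assoc, ← e, e1, inv_mul_cancel_left]
  have e3 := h.sep _ _ _ e2
  refine ⟨e3, ?_⟩
  rw [e3] at e1
  have e4 : j' (h.coc γ i) * a i' = j' γ' * a i' := by rw [← e1, e]
  exact h.inj (mul_right_cancel e4)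

theorem perm_eq {γ : Γ} {i i' : ι} {γ' : Γ'} (e : a i * j γ = j' γ' * a i') : h.perm γ i = i' :=
  (h.perm_coc_unique e).1

theorem coc_eq {γ : Γ} {i i' : ι} {γ' : Γ'} (e : a i * j γ = j' γ' * a i') : h.coc γ i = γ' :=
  (h.perm_coc_unique e).2

@[simp] theorem perm_one (i : ι) : h.perm 1 i = i :=
  h.perm_eq (γ' := 1) (by rw [map_one, mul_one, map_one, one_mul])

@[simp] theorem coc_one (i : ι) : h.coc 1 i = 1 :=
  h.coc_eq (i' := i) (by rw [map_one, mul_one, map_one, one_mul])

theorem spec_mul (γ δ : Γ) (i : ι) :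
    a i * j (γ * δ) = j' (h.coc γ i * h.coc δ (h.perm γ i)) * a (h.perm δ (h.perm γ i)) := by
  rw [map_mul, ← mul_assoc, h.spec γ i, mul_assoc, h.spec δ, ← mul_assoc, map_mul]

theorem perm_mul (γ δ : Γ) (i : ι) : h.perm (γ * δ) i = h.perm δ (h.perm γ i) :=
  h.perm_eq (h.spec_mul γ δ i)

theorem coc_mul (γ δ : Γ) (i : ι) :
    h.coc (γ * δ) i = h.coc γ i * h.coc δ (h.perm γ i) :=
  h.coc_eq (h.spec_mul γ δ i)

/-- The permutation of the cosets induced by `γ`. -/
def permEquiv (γ : Γ) : Equiv.Perm ι where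
  toFun := h.perm γ
  invFun := h.perm γ⁻¹
  left_inv i := by rw [← h.perm_mul, mul_inv_cancel, h.perm_one]
  right_inv i := by rw [← h.perm_mul, inv_mul_cancel, h.perm_one]

@[simp] theorem permEquiv_apply (γ : Γ) (i : ι) : h.permEquiv γ i = h.perm γ i := rfl

theorem perm_pow (γ : Γ) (n : ℕ) (i : ι) : h.perm (γ ^ n) i = (h.perm γ)^[n] i := by
  induction n generalizing i with
  | zero => simp
  | succ n ih => rw [pow_succ', h.perm_mul, ih, Function.iterate_succ_apply]

section Hom

variable {A : Type*} [AddCommGroup A]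

theorem map_coc_pow (φ : Additive Γ' →+ A) (γ : Γ) (n : ℕ) (i : ι) :
    φ (Additive.ofMul (h.coc (γ ^ n) i))
      = ∑ k ∈ Finset.range n, φ (Additive.ofMul (h.coc γ ((h.perm γ)^[k] i))) := by
  induction n with
  | zero => simp
  | succ n ih =>
    rw [pow_succ, h.coc_mul, ofMul_mul, map_add, ih, Finset.sum_range_succ, h.perm_pow]

variable [Fintype ι]

/-- The operator attached to the system `a`, from homomorphisms `Γ' → A` to homomorphisms
`Γ → A`. -/
def op (φ : Additive Γ' →+ A) : Additive Γ →+ A :=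
  AddMonoidHom.mk' (fun γ => ∑ i, φ (Additive.ofMul (h.coc (Additive.toMul γ) i))) (by
    intro γ δ
    simp only [toMul_add, h.coc_mul, ofMul_mul, map_add, Finset.sum_add_distrib]
    congr 1
    exact Equiv.sum_comp (h.permEquiv (Additive.toMul γ))
      (fun i => φ (Additive.ofMul (h.coc (Additive.toMul δ) i))))

theorem op_apply (φ : Additive Γ' →+ A) (γ : Γ) :
    h.op φ (Additive.ofMul γ) = ∑ i, φ (Additive.ofMul (h.coc γ i)) := rfl

/-- The formula for the operator, for arbitrary witnesses. -/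
theorem op_apply_of (φ : Additive Γ' →+ A) (γ : Γ) (π : ι → ι) (γ' : ι → Γ')
    (e : ∀ i, a i * j γ = j' (γ' i) * a (π i)) :
    h.op φ (Additive.ofMul γ) = ∑ i, φ (Additive.ofMul (γ' i)) := by
  rw [h.op_apply]
  exact Finset.sum_congr rfl fun i _ => by rw [h.coc_eq (e i)]

theorem op_add (φ ψ : Additive Γ' →+ A) : h.op (φ + ψ) = h.op φ + h.op ψ := by
  refine AddMonoidHom.ext fun γ => ?_
  obtain ⟨γ, rfl⟩ := Additive.ofMul.surjective γ
  simp only [AddMonoidHom.add_apply, op_apply, Finset.sum_add_distrib]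

theorem op_zero : h.op (0 : Additive Γ' →+ A) = 0 := by
  refine AddMonoidHom.ext fun γ => ?_
  obtain ⟨γ, rfl⟩ := Additive.ofMul.surjective γ
  simp only [AddMonoidHom.zero_apply, op_apply, Finset.sum_const_zero]

/-- Change of coefficients. -/
theorem op_comp {B : Type*} [AddCommGroup B] (u : A →+ B) (φ : Additive Γ' →+ A) :
    h.op (u.comp φ) = u.comp (h.op φ) := by
  refine AddMonoidHom.ext fun γ => ?_
  obtain ⟨γ, rfl⟩ := Additive.ofMul.surjective γ
  simp only [AddMonoidHom.comp_apply, op_apply, map_sum]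

theorem op_smul {R : Type*} [Semiring R] [Module R A] (c : R) (φ : Additive Γ' →+ A) :
    h.op (c • φ) = c • h.op φ := by
  refine AddMonoidHom.ext fun γ => ?_
  obtain ⟨γ, rfl⟩ := Additive.ofMul.surjective γ
  simp only [AddMonoidHom.smul_apply, op_apply, Finset.smul_sum]

/-- The operator as a linear map. -/
def opLin (R : Type*) [Semiring R] [Module R A] :
    (Additive Γ' →+ A) →ₗ[R] (Additive Γ →+ A) where
  toFun := h.op
  map_add' := h.op_add
  map_smul' c φ := h.op_smul c φ

@[simp] theorem opLin_apply (R : Type*) [Semiring R] [Module R A] (φ : Additive Γ' →+ A) :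
    h.opLin R φ = h.op φ := rfl

/-- **Composition.**  Let `a` be a system from `Γ` to `Γ'`, `b` a system from `Γ'` to `Γ''` and
`c` a system from `Γ` to `Γ''`.  If every product `b k * a i` lies in the coset of `c (e (i, k))`
up to a central factor `z`, then `op_a (op_b ψ)` is the sum of `ψ` over the `c`-cocycle, counted
along `e`. -/
theorem op_op_apply {Γ'' : Type*} [Group Γ''] {j'' : Γ'' →* G} {κ μ : Type*} [Fintype κ]
    {b : κ → G} {c : μ → G} (hb : IsHeckeSys j' j'' b) (hc : IsHeckeSys j j'' c)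
    (z : G) (hz : ∀ x, z * x = x * z) (e : ι × κ → μ) (g : ι × κ → Γ'')
    (hbac : ∀ p : ι × κ, b p.2 * a p.1 = z * j'' (g p) * c (e p))
    (ψ : Additive Γ'' →+ A) (γ : Γ) :
    h.op (hb.op ψ) (Additive.ofMul γ) = ∑ p : ι × κ, ψ (Additive.ofMul (hc.coc γ (e p))) := by
  classical
  -- the permutation of the pairs
  let Pm : Γ → ι × κ → ι × κ := fun δ p => (h.perm δ p.1, hb.perm (h.coc δ p.1) p.2)
  have hPmul : ∀ δ ε p, Pm (δ * ε) p = Pm ε (Pm δ p) := by
    intro δ ε p
    simp only [Pm, h.perm_mul, h.coc_mul, hb.perm_mul]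
  have hPone : ∀ p, Pm 1 p = p := by
    intro p
    simp only [Pm, h.perm_one, h.coc_one, hb.perm_one]
  let PmE : Equiv.Perm (ι × κ) :=
    { toFun := Pm γ
      invFun := Pm γ⁻¹
      left_inv := fun p => by rw [← hPmul, mul_inv_cancel, hPone]
      right_inv := fun p => by rw [← hPmul, inv_mul_cancel, hPone] }
  -- the key relation
  have key : ∀ p : ι × κ,
      c (e p) * j γ = j'' ((g p)⁻¹ * hb.coc (h.coc γ p.1) p.2 * g (Pm γ p)) * c (e (Pm γ p)) := by
    intro p
    have e1 : b p.2 * a p.1 * j γ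
        = j'' (hb.coc (h.coc γ p.1) p.2) * (b (hb.perm (h.coc γ p.1) p.2) * a (h.perm γ p.1)) := by
      rw [mul_assoc, h.spec γ p.1, ← mul_assoc, hb.spec, mul_assoc]
    have e2 := hbac (Pm γ p)
    have e2' : b (hb.perm (h.coc γ p.1) p.2) * a (h.perm γ p.1)
        = z * j'' (g (Pm γ p)) * c (e (Pm γ p)) := e2
    rw [e2', hbac p] at e1
    -- cancel the central factor
    have e3 : z * (j'' (g p) * c (e p) * j γ)
        = z * (j'' (hb.coc (h.coc γ p.1) p.2) * (j'' (g (Pm γ p)) * c (e (Pm γ p)))) := by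
      calc z * (j'' (g p) * c (e p) * j γ) = z * j'' (g p) * c (e p) * j γ := by
            simp only [mul_assoc]
        _ = j'' (hb.coc (h.coc γ p.1) p.2) * (z * j'' (g (Pm γ p)) * c (e (Pm γ p))) := e1
        _ = z * (j'' (hb.coc (h.coc γ p.1) p.2) * (j'' (g (Pm γ p)) * c (e (Pm γ p)))) := by
            rw [mul_assoc z, ← mul_assoc (j'' (hb.coc (h.coc γ p.1) p.2)) z, ← hz,
              mul_assoc z]
    have e4 := mul_left_cancel e3
    rw [map_mul, map_mul, map_inv, mul_assoc, mul_assoc, ← e4]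
    simp only [mul_assoc, inv_mul_cancel_left]
  have hcoc : ∀ p : ι × κ,
      hc.coc γ (e p) = (g p)⁻¹ * hb.coc (h.coc γ p.1) p.2 * g (Pm γ p) := fun p =>
    hc.coc_eq (key p)
  -- now compute
  have h1 : h.op (hb.op ψ) (Additive.ofMul γ)
      = ∑ p : ι × κ, ψ (Additive.ofMul (hb.coc (h.coc γ p.1) p.2)) := by
    rw [h.op_apply, Fintype.sum_prod_type]
    rfl
  rw [h1]
  have h2 : ∀ p : ι × κ, ψ (Additive.ofMul (hc.coc γ (e p)))
      = ψ (Additive.ofMul (hb.coc (h.coc γ p.1) p.2))
        + (ψ (Additive.ofMul (g (PmE p))) - ψ (Additive.ofMul (g p))) := by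
    intro p
    rw [hcoc p, ofMul_mul, ofMul_mul, ofMul_inv, map_add, map_add, map_neg]
    show _ = _ + (ψ (Additive.ofMul (g (Pm γ p))) - _)
    abel
  simp only [h2, Finset.sum_add_distrib, Finset.sum_sub_distrib]
  have h3 : ∑ p : ι × κ, ψ (Additive.ofMul (g (PmE p))) = ∑ p : ι × κ, ψ (Additive.ofMul (g p)) :=
    Equiv.sum_comp PmE (fun p => ψ (Additive.ofMul (g p)))
  rw [h3, sub_self, add_zero]

/-- Composition, bijective case: `op_a ∘ op_b = op_c`. -/
theorem op_op_of_bijective {Γ'' : Type*} [Group Γ''] {j'' : Γ'' →* G} {κ μ : Type*} [Fintype κ]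
    [Fintype μ] {b : κ → G} {c : μ → G} (hb : IsHeckeSys j' j'' b) (hc : IsHeckeSys j j'' c)
    (z : G) (hz : ∀ x, z * x = x * z) (e : ι × κ ≃ μ) (g : ι × κ → Γ'')
    (hbac : ∀ p : ι × κ, b p.2 * a p.1 = z * j'' (g p) * c (e p))
    (ψ : Additive Γ'' →+ A) : h.op (hb.op ψ) = hc.op ψ := by
  refine AddMonoidHom.ext fun γ => ?_
  obtain ⟨γ, rfl⟩ := Additive.ofMul.surjective γ
  rw [h.op_op_apply hb hc z hz e g hbac ψ γ, hc.op_apply]
  exact Equiv.sum_comp e (fun l => ψ (Additive.ofMul (hc.coc γ l)))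

/-- Composition, constant-fibre case: `op_a ∘ op_b = m • op_c` if every fibre of `e` has `m`
elements. -/
theorem op_op_of_card_fiber {Γ'' : Type*} [Group Γ''] {j'' : Γ'' →* G} {κ μ : Type*} [Fintype κ]
    [Fintype μ] [DecidableEq μ] {b : κ → G} {c : μ → G} (hb : IsHeckeSys j' j'' b)
    (hc : IsHeckeSys j j'' c)
    (z : G) (hz : ∀ x, z * x = x * z) (e : ι × κ → μ) (g : ι × κ → Γ'')
    (hbac : ∀ p : ι × κ, b p.2 * a p.1 = z * j'' (g p) * c (e p)) (m : ℕ)
    (hm : ∀ l : μ, (Finset.univ.filter fun p : ι × κ => e p = l).card = m)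
    (ψ : Additive Γ'' →+ A) : h.op (hb.op ψ) = m • hc.op ψ := by
  refine AddMonoidHom.ext fun γ => ?_
  obtain ⟨γ, rfl⟩ := Additive.ofMul.surjective γ
  rw [h.op_op_apply hb hc z hz e g hbac ψ γ, AddMonoidHom.nsmul_apply, hc.op_apply,
    Finset.smul_sum]
  rw [← Finset.sum_fiberwise (Finset.univ : Finset (ι × κ)) e
    (fun p => ψ (Additive.ofMul (hc.coc γ (e p))))]
  refine Finset.sum_congr rfl fun l _ => ?_
  rw [Finset.sum_congr rfl (fun p hp => by rw [(Finset.mem_filter.mp hp).2] :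
    ∀ p ∈ Finset.univ.filter (fun p : ι × κ => e p = l),
      ψ (Additive.ofMul (hc.coc γ (e p))) = ψ (Additive.ofMul (hc.coc γ l)))]
  rw [Finset.sum_const, hm l]

/-- Independence of the representatives (up to a central factor). -/
theorem op_eq_of_reps {κ : Type*} [Fintype κ] {b : κ → G} (hb : IsHeckeSys j j' b)
    (z : G) (hz : ∀ x, z * x = x * z)
    (σ : κ ≃ ι) (g : κ → Γ') (e : ∀ k, b k = z * j' (g k) * a (σ k)) (φ : Additive Γ' →+ A) :
    hb.op φ = h.op φ := by
  refine AddMonoidHom.ext fun γ => ?_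
  obtain ⟨γ, rfl⟩ := Additive.ofMul.surjective γ
  have key : ∀ k, b k * j γ
      = j' (g k * h.coc γ (σ k) * (g (σ.symm (h.perm γ (σ k))))⁻¹)
        * b (σ.symm (h.perm γ (σ k))) := by
    intro k
    rw [e k, e (σ.symm (h.perm γ (σ k))), Equiv.apply_symm_apply]
    have e1 : z * j' (g k) * a (σ k) * j γ
        = z * (j' (g k) * j' (h.coc γ (σ k)) * a (h.perm γ (σ k))) := by
      rw [mul_assoc, mul_assoc, h.spec γ (σ k)]
      simp only [mul_assoc]
    rw [e1]
    simp only [map_mul, map_inv]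
    rw [hz (j' (g (σ.symm (h.perm γ (σ k))))), ← mul_assoc z, hz (j' (g k) * j' (h.coc γ (σ k)))]
    simp only [mul_assoc, inv_mul_cancel_left]
  rw [hb.op_apply_of φ γ _ _ key, h.op_apply]
  simp only [ofMul_mul, ofMul_inv, map_add, map_neg, Finset.sum_add_distrib,
    Finset.sum_neg_distrib]
  have e1 : ∑ k, φ (Additive.ofMul (g (σ.symm (h.perm γ (σ k))))) = ∑ k, φ (Additive.ofMul (g k)) :=
    Equiv.sum_comp ((σ.trans (h.permEquiv γ)).trans σ.symm) (fun k => φ (Additive.ofMul (g k)))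
  have e2 : ∑ k, φ (Additive.ofMul (h.coc γ (σ k))) = ∑ i, φ (Additive.ofMul (h.coc γ i)) :=
    Equiv.sum_comp σ (fun i => φ (Additive.ofMul (h.coc γ i)))
  rw [e1, e2]
  abel

/-- **Cycle argument.** If `φ` kills a class `P'` of elements of `Γ'`, and every element of `Γ'`
which is `G`-conjugate to a power of an element of the class `P` of `Γ` lies in `P'`, then
`h.op φ` kills `P`. -/
theorem op_apply_eq_zero (P : Γ → Prop) (P' : Γ' → Prop)
    (hP : ∀ γ, P γ → ∀ (n : ℕ) (x : G) (γ' : Γ'), x * j γ ^ n = j' γ' * x → P' γ')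
    (φ : Additive Γ' →+ A) (hφ : ∀ γ', P' γ' → φ (Additive.ofMul γ') = 0) (γ : Γ) (hγ : P γ) :
    h.op φ (Additive.ofMul γ) = 0 := by
  classical
  rw [h.op_apply]
  obtain ⟨w, hw⟩ := exists_primitive_of_cycle_sums (h.perm γ)
    (fun i => φ (Additive.ofMul (h.coc γ i))) (by
      intro x
      refine ⟨orderOf (h.permEquiv γ), orderOf_pos _, ?_⟩
      have e : (h.perm γ)^[orderOf (h.permEquiv γ)] = ⇑((h.permEquiv γ) ^ orderOf (h.permEquiv γ)) := by
        rw [Equiv.Perm.coe_pow]
        rfl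
      rw [e, pow_orderOf_eq_one]
      rfl) (by
      intro x n hx
      rw [← h.map_coc_pow φ γ n x]
      refine hφ _ (hP γ hγ n (a x) _ ?_)
      have e := h.spec (γ ^ n) x
      rw [h.perm_pow, hx, map_pow] at e
      exact e)
  simp only [hw, Finset.sum_sub_distrib]
  rw [sub_eq_zero]
  exact Equiv.sum_comp (h.permEquiv γ) w

end Hom

end IsHeckeSys

end

end Fermat.Agent.S41.Coh
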