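import Mathlib
import Fermat.Agent.S41.Coh.Sys
import Fermat.Agent.ESJ.ParHom.HeckeGamma0

/-!
# S41 / WP-A (HECKE-COH) : the degeneracy operators between levels `N` and `N q`

DEFINITIONS ONLY (plus the trivial facts), so that every file of WP-A can import this one.
`q` is a prime not dividing `N`; `t = bezT N q`, `y = bezY N q` are Bezout coefficients:
`q t - N y = gcd q N (= 1)`.

Matrices (in `GL(2, ℝ)`; `jSub Γ : Γ →* GL(2, ℝ)` is the embedding of ESJ/ParHom):
* `mRep N q j = [[1, j + y], [N, N j + q t]] ∈ Γ₀(N)` (`j : ℤ`);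
* `wMat N q = [[q, y], [N q, q t]]` (Atkin–Lehner, determinant `q`);
* `corRep N q : OnePoint (ZMod q) → GL(2, ℝ)`, `∞ ↦ 1`, `j ↦ mRep N q j.val`
  (representatives of `Γ₀(N q) \ Γ₀(N)`);
* `scalarGL c` (the scalar matrix `c`, central).
Key identities (to be proved in `LevelMat.lean`):
  `wMat * heckeMatrix q j = scalarGL q * mRep N q j`,
  `heckeDiagMatrix q * mRep N q j = γ₀ * heckeMatrix q j` (`γ₀ = [[q, y], [N, t]] ∈ Γ₀(N)`),
  `wMat = mRep N q 0 * heckeDiagMatrix q`,  `wMat * wMat = scalarGL q * γ₂` (`γ₂ ∈ Γ₀(N q)`).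

Operators on homomorphisms (any coefficient group `A`):
* `resCoh N q : Hom(Γ₀(N), A) → Hom(Γ₀(N q), A)`       (restriction),
* `wCoh N q   : Hom(Γ₀(N q), A) → Hom(Γ₀(N q), A)`     (`φ ↦ φ ∘ (conjugation by wMat)`),
* `corCoh N q : Hom(Γ₀(N q), A) → Hom(Γ₀(N), A)`       (corestriction = transfer).
`wCoh`, `corCoh` are defined through `WSys`, `CorSys` (the statements that the families above are
Hecke systems); they are `0` if those fail, and `wCoh_eq`, `corCoh_eq` unfold them.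
In Ribet's notation: `α₁ = resCoh`, `α₂ = wCoh ∘ resCoh`, `β₁ = corCoh`, `β₂ = corCoh ∘ wCoh`.
-/

set_option autoImplicit false

open scoped MatrixGroups
open CongruenceSubgroup ModularForm

namespace Fermat.Agent.S41.Coh

open Fermat.Agent.ESJ.ParHom

noncomputable section

/-! ### Bezout data and matrices -/

/-- Bezout coefficient `t`: `q * t - N * y = gcd q N`. -/
def bezT (N q : ℕ) : ℤ := Nat.gcdA q N

/-- Bezout coefficient `y`: `q * t - N * y = gcd q N`. -/
def bezY (N q : ℕ) : ℤ := - Nat.gcdB q N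

theorem bez_eq (N q : ℕ) : (q : ℤ) * bezT N q - (N : ℤ) * bezY N q = (Nat.gcd q N : ℤ) := by
  rw [bezT, bezY, Nat.gcd_eq_gcd_ab q N]
  ring

theorem bez_eq_one {N q : ℕ} (h : Nat.Coprime q N) :
    (q : ℤ) * bezT N q - (N : ℤ) * bezY N q = 1 := by
  rw [bez_eq, h]
  rfl

/-- The integral matrix `[[1, j + y], [N, N j + q t]]`. -/
def mMat (N q : ℕ) (j : ℤ) : Matrix (Fin 2) (Fin 2) ℤ :=
  !![1, j + bezY N q; (N : ℤ), (N : ℤ) * j + (q : ℤ) * bezT N q]

theorem det_mMat {N q : ℕ} (h : Nat.Coprime q N) (j : ℤ) : (mMat N q j).det = 1 := by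
  rw [mMat, Matrix.det_fin_two_of]
  linear_combination bez_eq_one h

/-- `mRep N q j = [[1, j + y], [N, N j + q t]]` as an element of `SL(2, ℤ)`
(`1` if `q`, `N` are not coprime). -/
def mRep (N q : ℕ) (j : ℤ) : SL(2, ℤ) :=
  if h : (mMat N q j).det = 1 then ⟨mMat N q j, h⟩ else 1

theorem coe_mRep {N q : ℕ} (h : Nat.Coprime q N) (j : ℤ) :
    ((mRep N q j : SL(2, ℤ)) : Matrix (Fin 2) (Fin 2) ℤ) = mMat N q j := by
  have hd := det_mMat h j
  have e : mRep N q j = ⟨mMat N q j, hd⟩ := dif_pos hd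
  rw [e]

/-- The real matrix `[[q, y], [N q, q t]]`. -/
def wMatR (N q : ℕ) : Matrix (Fin 2) (Fin 2) ℝ :=
  !![(q : ℝ), (bezY N q : ℝ); (N : ℝ) * q, (q : ℝ) * bezT N q]

/-- The Atkin–Lehner matrix `[[q, y], [N q, q t]]` in `GL(2, ℝ)` (`1` if its determinant is `0`). -/
def wMat (N q : ℕ) : GL (Fin 2) ℝ :=
  if h : (wMatR N q).det ≠ 0 then Matrix.GeneralLinearGroup.mkOfDetNeZero (wMatR N q) h else 1

theorem det_wMatR {N q : ℕ} (h : Nat.Coprime q N) : (wMatR N q).det = q := by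
  have e := bez_eq_one h
  have e' : (q : ℝ) * (bezT N q : ℝ) - (N : ℝ) * (bezY N q : ℝ) = 1 := by exact_mod_cast e
  rw [wMatR, Matrix.det_fin_two_of]
  linear_combination (q : ℝ) * e'

theorem coe_wMat {N q : ℕ} (h : Nat.Coprime q N) (hq : q ≠ 0) :
    ((wMat N q : GL (Fin 2) ℝ) : Matrix (Fin 2) (Fin 2) ℝ) = wMatR N q := by
  have hd : (wMatR N q).det ≠ 0 := by
    rw [det_wMatR h]
    exact_mod_cast hq
  rw [wMat, dif_pos hd]
  rfl

/-- The scalar matrix `c` in `GL(2, ℝ)` (`1` if `c = 0`). -/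
def scalarGL (c : ℝ) : GL (Fin 2) ℝ :=
  if h : c = 0 then 1 else
    Matrix.GeneralLinearGroup.mkOfDetNeZero (c • (1 : Matrix (Fin 2) (Fin 2) ℝ)) (by
      rw [Matrix.det_smul, Matrix.det_one, mul_one]
      exact pow_ne_zero _ h)

theorem coe_scalarGL {c : ℝ} (h : c ≠ 0) :
    ((scalarGL c : GL (Fin 2) ℝ) : Matrix (Fin 2) (Fin 2) ℝ) = c • 1 := by
  rw [scalarGL, dif_neg h]
  rfl

/-- Scalar matrices are central. -/
theorem scalarGL_comm (c : ℝ) (x : GL (Fin 2) ℝ) : scalarGL c * x = x * scalarGL c := by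
  by_cases h : c = 0
  · rw [scalarGL, dif_pos h, one_mul, mul_one]
  · apply Units.ext
    rw [Units.val_mul, Units.val_mul, coe_scalarGL h, Matrix.smul_mul, Matrix.mul_smul,
      Matrix.one_mul, Matrix.mul_one]

/-- Representatives of `Γ₀(N q) \ Γ₀(N)`: `∞ ↦ 1`, `j ↦ mRep N q j`. -/
def corRep (N q : ℕ) (x : OnePoint (ZMod q)) : GL (Fin 2) ℝ :=
  x.elim 1 (fun j => Matrix.SpecialLinearGroup.mapGL ℝ (mRep N q (j.val : ℤ)))

@[simp] theorem corRep_infty (N q : ℕ) : corRep N q OnePoint.infty = 1 := rfl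

@[simp] theorem corRep_coe (N q : ℕ) (j : ZMod q) :
    corRep N q (j : OnePoint (ZMod q))
      = Matrix.SpecialLinearGroup.mapGL ℝ (mRep N q (j.val : ℤ)) := rfl

/-! ### The three Hecke systems -/

theorem Gamma0_mul_le (N q : ℕ) : Gamma0 (N * q) ≤ Gamma0 N := by
  intro g hg
  have h1 : ((N * q : ℕ) : ℤ) ∣ g 1 0 := dvd_of_mem_Gamma0 hg
  exact mem_Gamma0_of_dvd ((Int.natCast_dvd_natCast.mpr (Dvd.intro q rfl)).trans h1)

/-- The inclusion `Γ₀(N q) → Γ₀(N)`. -/
def incl (N q : ℕ) : Gamma0 (N * q) →* Gamma0 N := Subgroup.inclusion (Gamma0_mul_le N q)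

@[simp] theorem coe_incl (N q : ℕ) (γ : Gamma0 (N * q)) :
    ((incl N q γ : Gamma0 N) : SL(2, ℤ)) = (γ : SL(2, ℤ)) := rfl

theorem jSub_incl (N q : ℕ) (γ : Gamma0 (N * q)) :
    jSub (Gamma0 N) (incl N q γ) = jSub (Gamma0 (N * q)) γ := rfl

/-- Restriction is a Hecke system (the one-element family `1`). -/
theorem resSys (N q : ℕ) :
    IsHeckeSys (jSub (Gamma0 (N * q))) (jSub (Gamma0 N)) (fun _ : Unit => (1 : GL (Fin 2) ℝ)) where
  inj := jSub_injective _
  sep _ _ _ _ := rfl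
  stab γ _ := ⟨(), incl N q γ, by rw [one_mul, mul_one, jSub_incl]⟩

/-- The statement that `wMat N q` normalises `Γ₀(N q)` (as a one-element Hecke system). -/
abbrev WSys (N q : ℕ) : Prop :=
  IsHeckeSys (jSub (Gamma0 (N * q))) (jSub (Gamma0 (N * q))) (fun _ : Unit => wMat N q)

/-- The statement that `corRep N q` is a system of representatives of `Γ₀(N q) \ Γ₀(N)`. -/
abbrev CorSys (N q : ℕ) [NeZero q] : Prop :=
  IsHeckeSys (jSub (Gamma0 N)) (jSub (Gamma0 (N * q))) (corRep N q)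

/-! ### The operators -/

section Operators

variable (N q : ℕ) {A : Type*} [AddCommGroup A]

/-- Restriction `Hom(Γ₀(N), A) → Hom(Γ₀(N q), A)`. -/
def resCoh (φ : Additive (Gamma0 N) →+ A) : Additive (Gamma0 (N * q)) →+ A :=
  (resSys N q).op φ

theorem resCoh_apply (φ : Additive (Gamma0 N) →+ A) (γ : Gamma0 (N * q)) :
    resCoh N q φ (Additive.ofMul γ) = φ (Additive.ofMul (incl N q γ)) := by
  have h := (resSys N q).op_apply_of φ γ id (fun _ => incl N q γ)
    (fun _ => by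
      show (1 : GL (Fin 2) ℝ) * _ = _ * 1
      rw [one_mul, mul_one, jSub_incl])
  rw [resCoh, h]
  simp

/-- The Atkin–Lehner operator on `Hom(Γ₀(N q), A)`: `φ ↦ φ ∘ (γ ↦ w γ w⁻¹)`
(`0` unless `WSys N q` holds). -/
def wCoh (ψ : Additive (Gamma0 (N * q)) →+ A) : Additive (Gamma0 (N * q)) →+ A := by
  classical
  exact if h : WSys N q then h.op ψ else 0

theorem wCoh_eq (h : WSys N q) (ψ : Additive (Gamma0 (N * q)) →+ A) : wCoh N q ψ = h.op ψ := by
  classical
  rw [wCoh, dif_pos h]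

/-- Corestriction (transfer) `Hom(Γ₀(N q), A) → Hom(Γ₀(N), A)` (`0` unless `CorSys N q` holds). -/
def corCoh [NeZero q] (ψ : Additive (Gamma0 (N * q)) →+ A) : Additive (Gamma0 N) →+ A := by
  classical
  exact if h : CorSys N q then h.op ψ else 0

theorem corCoh_eq [NeZero q] (h : CorSys N q) (ψ : Additive (Gamma0 (N * q)) →+ A) :
    corCoh N q ψ = h.op ψ := by
  classical
  rw [corCoh, dif_pos h]

/-! #### Additivity, scalars, change of coefficients -/

theorem resCoh_add (φ ψ : Additive (Gamma0 N) →+ A) :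
    resCoh N q (φ + ψ) = resCoh N q φ + resCoh N q ψ := (resSys N q).op_add φ ψ

theorem resCoh_smul {R : Type*} [Semiring R] [Module R A] (c : R) (φ : Additive (Gamma0 N) →+ A) :
    resCoh N q (c • φ) = c • resCoh N q φ := (resSys N q).op_smul c φ

theorem resCoh_comp {B : Type*} [AddCommGroup B] (u : A →+ B) (φ : Additive (Gamma0 N) →+ A) :
    resCoh N q (u.comp φ) = u.comp (resCoh N q φ) := (resSys N q).op_comp u φ

theorem wCoh_add (φ ψ : Additive (Gamma0 (N * q)) →+ A) :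
    wCoh N q (φ + ψ) = wCoh N q φ + wCoh N q ψ := by
  classical
  unfold wCoh
  split_ifs with h
  · exact h.op_add φ ψ
  · rw [add_zero]

theorem wCoh_smul {R : Type*} [Semiring R] [Module R A] (c : R)
    (φ : Additive (Gamma0 (N * q)) →+ A) : wCoh N q (c • φ) = c • wCoh N q φ := by
  classical
  unfold wCoh
  split_ifs with h
  · exact h.op_smul c φ
  · rw [smul_zero]

theorem wCoh_comp {B : Type*} [AddCommGroup B] (u : A →+ B)
    (φ : Additive (Gamma0 (N * q)) →+ A) : wCoh N q (u.comp φ) = u.comp (wCoh N q φ) := by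
  classical
  unfold wCoh
  split_ifs with h
  · exact h.op_comp u φ
  · rw [AddMonoidHom.comp_zero]

theorem corCoh_add [NeZero q] (φ ψ : Additive (Gamma0 (N * q)) →+ A) :
    corCoh N q (φ + ψ) = corCoh N q φ + corCoh N q ψ := by
  classical
  unfold corCoh
  split_ifs with h
  · exact h.op_add φ ψ
  · rw [add_zero]

theorem corCoh_smul [NeZero q] {R : Type*} [Semiring R] [Module R A] (c : R)
    (φ : Additive (Gamma0 (N * q)) →+ A) : corCoh N q (c • φ) = c • corCoh N q φ := by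
  classical
  unfold corCoh
  split_ifs with h
  · exact h.op_smul c φ
  · rw [smul_zero]

theorem corCoh_comp [NeZero q] {B : Type*} [AddCommGroup B] (u : A →+ B)
    (φ : Additive (Gamma0 (N * q)) →+ A) : corCoh N q (u.comp φ) = u.comp (corCoh N q φ) := by
  classical
  unfold corCoh
  split_ifs with h
  · exact h.op_comp u φ
  · rw [AddMonoidHom.comp_zero]

/-! #### Preservation of the parabolic-elliptic and of the parabolic homomorphisms -/

/-- A Hecke system between two subgroups of `SL(2, ℤ)` preserves the parabolic-elliptic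
homomorphisms. -/
theorem IsHeckeSys.isPEHom_op {Γ Γ' : Subgroup SL(2, ℤ)} {ι : Type*} [Fintype ι]
    {a : ι → GL (Fin 2) ℝ} (h : IsHeckeSys (jSub Γ) (jSub Γ') a)
    {φ : Additive Γ' →+ A} (hφ : IsPEHom Γ' φ) : IsPEHom Γ (h.op φ) := fun γ hγ =>
  h.op_apply_eq_zero (fun γ : Γ => ((γ : SL(2, ℤ)) : Matrix (Fin 2) (Fin 2) ℤ).trace ^ 2 ≤ 4)
    (fun γ' : Γ' => ((γ' : SL(2, ℤ)) : Matrix (Fin 2) (Fin 2) ℤ).trace ^ 2 ≤ 4)
    (fun γ hγ n g γ' e => by
      rw [← map_pow] at e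
      have e1 := trace_eq_of_conj (γ := ((γ ^ n : Γ) : SL(2, ℤ))) (γ' := (γ' : SL(2, ℤ))) g e
      rw [e1, Subgroup.coe_pow, Matrix.SpecialLinearGroup.coe_pow]
      exact trace_pow_sq_le _ hγ n) φ hφ γ hγ

/-- A Hecke system between two subgroups of `SL(2, ℤ)` preserves the parabolic homomorphisms. -/
theorem IsHeckeSys.isParabolicHom_op {Γ Γ' : Subgroup SL(2, ℤ)} {ι : Type*} [Fintype ι]
    {a : ι → GL (Fin 2) ℝ} (h : IsHeckeSys (jSub Γ) (jSub Γ') a)
    {φ : Additive Γ' →+ A} (hφ : ModularCurve.Period.IsParabolicHom Γ' φ) :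
    ModularCurve.Period.IsParabolicHom Γ (h.op φ) := fun γ hγ =>
  h.op_apply_eq_zero (fun γ : Γ => ((γ : SL(2, ℤ)) : Matrix (Fin 2) (Fin 2) ℤ).trace ^ 2 = 4)
    (fun γ' : Γ' => ((γ' : SL(2, ℤ)) : Matrix (Fin 2) (Fin 2) ℤ).trace ^ 2 = 4)
    (fun γ hγ n g γ' e => by
      rw [← map_pow] at e
      have e1 := trace_eq_of_conj (γ := ((γ ^ n : Γ) : SL(2, ℤ))) (γ' := (γ' : SL(2, ℤ))) g e
      rw [e1, Subgroup.coe_pow, Matrix.SpecialLinearGroup.coe_pow]
      exact trace_pow_sq_eq _ hγ n) φ hφ γ hγ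

theorem isPEHom_resCoh {φ : Additive (Gamma0 N) →+ A} (hφ : IsPEHom (Gamma0 N) φ) :
    IsPEHom (Gamma0 (N * q)) (resCoh N q φ) := IsHeckeSys.isPEHom_op (resSys N q) hφ

theorem isPEHom_wCoh {φ : Additive (Gamma0 (N * q)) →+ A} (hφ : IsPEHom (Gamma0 (N * q)) φ) :
    IsPEHom (Gamma0 (N * q)) (wCoh N q φ) := by
  classical
  unfold wCoh
  split_ifs with h
  · exact IsHeckeSys.isPEHom_op h hφ
  · exact fun _ _ => rfl

theorem isPEHom_corCoh [NeZero q] {φ : Additive (Gamma0 (N * q)) →+ A} (hφ : IsPEHom (Gamma0 (N * q)) φ) :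
    IsPEHom (Gamma0 N) (corCoh N q φ) := by
  classical
  unfold corCoh
  split_ifs with h
  · exact IsHeckeSys.isPEHom_op h hφ
  · exact fun _ _ => rfl

end Operators

/-! ### Bridge with the one-group systems of ESJ/ParHom -/

/-- A one-group Hecke system of ESJ/ParHom is a two-group Hecke system. -/
theorem _root_.Fermat.Agent.ESJ.ParHom.IsHeckeSystem.toSys {Γ G : Type*} [Group Γ] [Group G]
    {j : Γ →* G} {ι : Type*} {a : ι → G} (h : IsHeckeSystem j a) : IsHeckeSys j j a :=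
  ⟨h.inj, h.sep, h.stab⟩

theorem hecke_eq_op {Γ G : Type*} [Group Γ] [Group G] {j : Γ →* G} {ι : Type*} [Fintype ι]
    {a : ι → G} (h : IsHeckeSystem j a) {A : Type*} [AddCommGroup A] (φ : Additive Γ →+ A) :
    h.hecke φ = h.toSys.op φ := by
  refine AddMonoidHom.ext fun γ => ?_
  obtain ⟨γ, rfl⟩ := Additive.ofMul.surjective γ
  rw [h.hecke_apply, h.toSys.op_apply_of φ γ (h.perm γ) (h.coc γ) (fun i => h.spec γ i)]

end

end Fermat.Agent.S41.Coh
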