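import Mathlib
import Fermat.Agent.S41.Coh.Defs

/-!
# S41 / WP-A : the matrix identities between levels `N` and `N q`

All elements of `GL(2, ℝ)` used by WP-A are casts of integral matrices; `IsIntGL x X` says that
`x : GL(2, ℝ)` is the cast of `X : M₂(ℤ)`, and identities in `GL(2, ℝ)` are reduced to identities
of integral matrices (`IsIntGL.ext`).

Main results (`t = bezT N q`, `y = bezY N q`, `q t - N y = 1`):
* `mRep_mem_Gamma0`, `gam0_mem`, `gam2_mem`;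
* `wMat_mul_heckeMatrix`  : `w * [[1, j], [0, q]] = q • M_j`;
* `heckeDiag_mul_mRep`    : `[[q, 0], [0, 1]] * M_j = γ₀ * [[1, j], [0, q]]`;
* `wMat_eq`               : `w = M_0 * [[q, 0], [0, 1]]`;
* `wMat_mul_wMat`         : `w * w = q • γ₂`;
* `diagConj`, `heckeDiag_mul_mapGL` : `[[q,0],[0,1]] * γ = γ' * [[q,0],[0,1]]` if `q ∣ γ₂₁`;
* `wConj`, `wMat_mul_mapGL`, `wSys : WSys N q`.
-/

set_option autoImplicit false

open scoped MatrixGroups
open CongruenceSubgroup ModularForm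

namespace Fermat.Agent.S41.Coh

open Fermat.Agent.ESJ.ParHom

noncomputable section

/-! ### Integral elements of `GL(2, ℝ)` -/

/-- `x : GL(2, ℝ)` is the cast of the integral matrix `X`. -/
def IsIntGL (x : GL (Fin 2) ℝ) (X : Matrix (Fin 2) (Fin 2) ℤ) : Prop :=
  (x : Matrix (Fin 2) (Fin 2) ℝ) = X.map (Int.cast : ℤ → ℝ)

theorem IsIntGL.mul {x y : GL (Fin 2) ℝ} {X Y : Matrix (Fin 2) (Fin 2) ℤ}
    (hx : IsIntGL x X) (hy : IsIntGL y Y) : IsIntGL (x * y) (X * Y) := by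
  unfold IsIntGL at *
  rw [Units.val_mul, hx, hy, Matrix.map_mul_intCast]

theorem IsIntGL.ext {x y : GL (Fin 2) ℝ} {X Y : Matrix (Fin 2) (Fin 2) ℤ}
    (hx : IsIntGL x X) (hy : IsIntGL y Y) (h : X = Y) : x = y := by
  apply Units.ext
  rw [hx, hy, h]

theorem IsIntGL.eq {x y : GL (Fin 2) ℝ} {X Y : Matrix (Fin 2) (Fin 2) ℤ}
    (hx : IsIntGL x X) (hy : IsIntGL y Y) (h : x = y) : X = Y := by
  unfold IsIntGL at *
  rw [h, hy] at hx
  ext i k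
  have := congrFun (congrFun hx i) k
  simp only [Matrix.map_apply] at this
  exact_mod_cast this.symm

theorem isIntGL_mapGL (g : SL(2, ℤ)) :
    IsIntGL (Matrix.SpecialLinearGroup.mapGL ℝ g) (g : Matrix (Fin 2) (Fin 2) ℤ) := by
  unfold IsIntGL
  ext i k
  rw [coe_mapGL_apply, Matrix.map_apply]

theorem isIntGL_heckeMatrix {q : ℕ} (hq : q ≠ 0) (j : ℕ) :
    IsIntGL (heckeMatrix q j) !![1, (j : ℤ); 0, (q : ℤ)] := by
  unfold IsIntGL
  rw [val_heckeMatrix hq]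
  ext i k
  fin_cases i <;> fin_cases k <;> simp

theorem isIntGL_heckeDiagMatrix {q : ℕ} (hq : q ≠ 0) :
    IsIntGL (heckeDiagMatrix q) !![(q : ℤ), 0; 0, 1] := by
  unfold IsIntGL
  rw [val_heckeDiagMatrix hq]
  ext i k
  fin_cases i <;> fin_cases k <;> simp

/-- The integral Atkin–Lehner matrix. -/
def wInt (N q : ℕ) : Matrix (Fin 2) (Fin 2) ℤ :=
  !![(q : ℤ), bezY N q; (N : ℤ) * q, (q : ℤ) * bezT N q]

theorem isIntGL_wMat {N q : ℕ} (h : Nat.Coprime q N) (hq : q ≠ 0) :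
    IsIntGL (wMat N q) (wInt N q) := by
  unfold IsIntGL
  rw [coe_wMat h hq, wMatR, wInt]
  ext i k
  fin_cases i <;> fin_cases k <;> simp

theorem isIntGL_scalarGL {q : ℕ} (hq : q ≠ 0) :
    IsIntGL (scalarGL (q : ℝ)) !![(q : ℤ), 0; 0, (q : ℤ)] := by
  unfold IsIntGL
  rw [coe_scalarGL (by exact_mod_cast hq)]
  ext i k
  fin_cases i <;> fin_cases k <;> simp

theorem isIntGL_one : IsIntGL 1 1 := by
  unfold IsIntGL
  ext i k
  fin_cases i <;> fin_cases k <;> simp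

/-! ### Elements of `SL(2, ℤ)` -/

theorem mRep_apply {N q : ℕ} (h : Nat.Coprime q N) (j : ℤ) (i k : Fin 2) :
    (mRep N q j) i k = mMat N q j i k := by
  have e := coe_mRep h j
  exact congrFun (congrFun e i) k

theorem mRep_mem_Gamma0 {N q : ℕ} (h : Nat.Coprime q N) (j : ℤ) : mRep N q j ∈ Gamma0 N := by
  apply mem_Gamma0_of_dvd
  rw [mRep_apply h]
  simp [mMat]

/-- The integral matrix `[[q, y], [N, t]]`. -/
def gam0Mat (N q : ℕ) : Matrix (Fin 2) (Fin 2) ℤ :=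
  !![(q : ℤ), bezY N q; (N : ℤ), bezT N q]

theorem det_gam0Mat {N q : ℕ} (h : Nat.Coprime q N) : (gam0Mat N q).det = 1 := by
  rw [gam0Mat, Matrix.det_fin_two_of]
  linear_combination bez_eq_one h

/-- `γ₀ = [[q, y], [N, t]] ∈ Γ₀(N)`. -/
def gam0 (N q : ℕ) : SL(2, ℤ) :=
  if h : (gam0Mat N q).det = 1 then ⟨gam0Mat N q, h⟩ else 1

theorem coe_gam0 {N q : ℕ} (h : Nat.Coprime q N) :
    ((gam0 N q : SL(2, ℤ)) : Matrix (Fin 2) (Fin 2) ℤ) = gam0Mat N q := by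
  have hd := det_gam0Mat h
  have e : gam0 N q = ⟨gam0Mat N q, hd⟩ := dif_pos hd
  rw [e]

theorem gam0_mem {N q : ℕ} (h : Nat.Coprime q N) : gam0 N q ∈ Gamma0 N := by
  apply mem_Gamma0_of_dvd
  have e := congrFun (congrFun (coe_gam0 h) 1) 0
  rw [e]
  simp [gam0Mat]

/-- The integral matrix `w² / q`. -/
def gam2Mat (N q : ℕ) : Matrix (Fin 2) (Fin 2) ℤ :=
  !![(q : ℤ) + N * bezY N q, bezY N q * (1 + bezT N q);
     (N : ℤ) * q * (1 + bezT N q), N * bezY N q + q * bezT N q ^ 2]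

theorem det_gam2Mat {N q : ℕ} (h : Nat.Coprime q N) : (gam2Mat N q).det = 1 := by
  rw [gam2Mat, Matrix.det_fin_two_of]
  linear_combination ((q : ℤ) * bezT N q - (N : ℤ) * bezY N q + 1) * bez_eq_one h

/-- `γ₂ = w² / q ∈ Γ₀(N q)`. -/
def gam2 (N q : ℕ) : SL(2, ℤ) :=
  if h : (gam2Mat N q).det = 1 then ⟨gam2Mat N q, h⟩ else 1

theorem coe_gam2 {N q : ℕ} (h : Nat.Coprime q N) :
    ((gam2 N q : SL(2, ℤ)) : Matrix (Fin 2) (Fin 2) ℤ) = gam2Mat N q := by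
  have hd := det_gam2Mat h
  have e : gam2 N q = ⟨gam2Mat N q, hd⟩ := dif_pos hd
  rw [e]

theorem gam2_mem {N q : ℕ} (h : Nat.Coprime q N) : gam2 N q ∈ Gamma0 (N * q) := by
  apply mem_Gamma0_of_dvd
  have e := congrFun (congrFun (coe_gam2 h) 1) 0
  rw [e]
  simp only [gam2Mat, Matrix.of_apply, Matrix.cons_val', Matrix.cons_val_zero, Matrix.cons_val_one,
    Matrix.empty_val', Matrix.cons_val_fin_one, Matrix.head_cons]
  exact ⟨1 + bezT N q, by push_cast; ring⟩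

/-! ### The identities in `GL(2, ℝ)` -/

/-- `w * [[1, j], [0, q]] = q • M_j`. -/
theorem wMat_mul_heckeMatrix {N q : ℕ} (h : Nat.Coprime q N) (hq : q ≠ 0) (j : ℕ) :
    wMat N q * heckeMatrix q j
      = scalarGL (q : ℝ) * Matrix.SpecialLinearGroup.mapGL ℝ (mRep N q (j : ℤ)) := by
  refine IsIntGL.ext ((isIntGL_wMat h hq).mul (isIntGL_heckeMatrix hq j))
    ((isIntGL_scalarGL hq).mul (isIntGL_mapGL _)) ?_
  rw [coe_mRep h, wInt, mMat]
  ext i k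
  fin_cases i <;> fin_cases k <;> simp [Matrix.mul_apply, Fin.sum_univ_two] <;> ring

/-- `[[q, 0], [0, 1]] * M_j = γ₀ * [[1, j], [0, q]]`. -/
theorem heckeDiag_mul_mRep {N q : ℕ} (h : Nat.Coprime q N) (hq : q ≠ 0) (j : ℕ) :
    heckeDiagMatrix q * Matrix.SpecialLinearGroup.mapGL ℝ (mRep N q (j : ℤ))
      = Matrix.SpecialLinearGroup.mapGL ℝ (gam0 N q) * heckeMatrix q j := by
  refine IsIntGL.ext ((isIntGL_heckeDiagMatrix hq).mul (isIntGL_mapGL _))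
    ((isIntGL_mapGL _).mul (isIntGL_heckeMatrix hq j)) ?_
  rw [coe_mRep h, coe_gam0 h, gam0Mat, mMat]
  ext i k
  fin_cases i <;> fin_cases k <;> simp [Matrix.mul_apply, Fin.sum_univ_two] <;> ring

/-- `w = M_0 * [[q, 0], [0, 1]]`. -/
theorem wMat_eq {N q : ℕ} (h : Nat.Coprime q N) (hq : q ≠ 0) :
    wMat N q = Matrix.SpecialLinearGroup.mapGL ℝ (mRep N q 0) * heckeDiagMatrix q := by
  refine IsIntGL.ext (isIntGL_wMat h hq)
    ((isIntGL_mapGL _).mul (isIntGL_heckeDiagMatrix hq)) ?_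
  rw [coe_mRep h, wInt, mMat]
  ext i k
  fin_cases i <;> fin_cases k <;> simp [Matrix.mul_apply, Fin.sum_univ_two]

/-- `w * w = q • γ₂`. -/
theorem wMat_mul_wMat {N q : ℕ} (h : Nat.Coprime q N) (hq : q ≠ 0) :
    wMat N q * wMat N q
      = scalarGL (q : ℝ) * Matrix.SpecialLinearGroup.mapGL ℝ (gam2 N q) := by
  refine IsIntGL.ext ((isIntGL_wMat h hq).mul (isIntGL_wMat h hq))
    ((isIntGL_scalarGL hq).mul (isIntGL_mapGL _)) ?_
  rw [coe_gam2 h, wInt, gam2Mat]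
  ext i k
  fin_cases i <;> fin_cases k <;> simp [Matrix.mul_apply, Fin.sum_univ_two] <;> ring

/-! ### Conjugation by `[[q, 0], [0, 1]]` and by `w` -/

/-- The integral matrix `[[a, q b], [c / q, d]]`. -/
def diagConjMat (q : ℕ) (γ : SL(2, ℤ)) : Matrix (Fin 2) (Fin 2) ℤ :=
  !![γ 0 0, (q : ℤ) * γ 0 1; γ 1 0 / (q : ℤ), γ 1 1]

theorem det_diagConjMat {q : ℕ} {γ : SL(2, ℤ)} (hγ : (q : ℤ) ∣ γ 1 0) :
    (diagConjMat q γ).det = 1 := by
  obtain ⟨c, hc⟩ := hγ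
  have hd := γ.det_coe
  rw [Matrix.det_fin_two] at hd
  rw [diagConjMat, Matrix.det_fin_two_of]
  by_cases hq : (q : ℤ) = 0
  · rw [hq, zero_mul] at hc
    rw [hc, hq] at *
    simpa using hd
  · rw [hc, Int.mul_ediv_cancel_left _ hq]
    rw [hc] at hd
    linear_combination hd

/-- `diag(q, 1) γ diag(q, 1)⁻¹` for `γ` with `q ∣ γ₂₁` (`1` otherwise). -/
def diagConj (q : ℕ) (γ : SL(2, ℤ)) : SL(2, ℤ) :=
  if h : (diagConjMat q γ).det = 1 then ⟨diagConjMat q γ, h⟩ else 1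

theorem coe_diagConj {q : ℕ} {γ : SL(2, ℤ)} (hγ : (q : ℤ) ∣ γ 1 0) :
    ((diagConj q γ : SL(2, ℤ)) : Matrix (Fin 2) (Fin 2) ℤ) = diagConjMat q γ := by
  have hd := det_diagConjMat hγ
  have e : diagConj q γ = ⟨diagConjMat q γ, hd⟩ := dif_pos hd
  rw [e]

/-- `[[q, 0], [0, 1]] * γ = γ' * [[q, 0], [0, 1]]` if `q ∣ γ₂₁`. -/
theorem heckeDiag_mul_mapGL {q : ℕ} (hq : q ≠ 0) {γ : SL(2, ℤ)} (hγ : (q : ℤ) ∣ γ 1 0) :
    heckeDiagMatrix q * Matrix.SpecialLinearGroup.mapGL ℝ γ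
      = Matrix.SpecialLinearGroup.mapGL ℝ (diagConj q γ) * heckeDiagMatrix q := by
  refine IsIntGL.ext ((isIntGL_heckeDiagMatrix hq).mul (isIntGL_mapGL _))
    ((isIntGL_mapGL _).mul (isIntGL_heckeDiagMatrix hq)) ?_
  rw [coe_diagConj hγ, diagConjMat]
  obtain ⟨c, hc⟩ := hγ
  have hq' : (q : ℤ) ≠ 0 := by exact_mod_cast hq
  rw [hc, Int.mul_ediv_cancel_left _ hq']
  ext i k
  fin_cases i <;> fin_cases k <;> simp [Matrix.mul_apply, Fin.sum_univ_two, hc] <;> ring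

/-- `w γ w⁻¹` for `γ ∈ Γ₀(N q)`. -/
def wConj (N q : ℕ) (γ : SL(2, ℤ)) : SL(2, ℤ) :=
  mRep N q 0 * diagConj q γ * (mRep N q 0)⁻¹

/-- `w * γ = (w γ w⁻¹) * w` if `q ∣ γ₂₁`. -/
theorem wMat_mul_mapGL {N q : ℕ} (h : Nat.Coprime q N) (hq : q ≠ 0) {γ : SL(2, ℤ)}
    (hγ : (q : ℤ) ∣ γ 1 0) :
    wMat N q * Matrix.SpecialLinearGroup.mapGL ℝ γ
      = Matrix.SpecialLinearGroup.mapGL ℝ (wConj N q γ) * wMat N q := by
  rw [wMat_eq h hq, mul_assoc, heckeDiag_mul_mapGL hq hγ, wConj, map_mul, map_mul, map_inv]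
  group

theorem wConj_mem {N q : ℕ} (h : Nat.Coprime q N) (hq : q ≠ 0) {γ : SL(2, ℤ)}
    (hγ : γ ∈ Gamma0 (N * q)) : wConj N q γ ∈ Gamma0 (N * q) := by
  apply mem_Gamma0_of_dvd
  obtain ⟨c, hc⟩ := dvd_of_mem_Gamma0 hγ
  have hq' : (q : ℤ) ≠ 0 := by exact_mod_cast hq
  have hγq : (q : ℤ) ∣ γ 1 0 := ⟨N * c, by rw [hc]; push_cast; ring⟩
  have e1 : γ 1 0 / (q : ℤ) = N * c := by
    rw [hc]
    push_cast
    rw [show (N : ℤ) * q * c = q * (N * c) by ring, Int.mul_ediv_cancel_left _ hq']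
  have key : (wConj N q γ) 1 0
      = ((N * q : ℕ) : ℤ) * (γ 0 0 * bezT N q + q * bezT N q ^ 2 * c - N * γ 0 1
          - bezT N q * γ 1 1) := by
    rw [wConj]
    simp only [Matrix.SpecialLinearGroup.coe_mul, Matrix.SpecialLinearGroup.coe_inv,
      Matrix.adjugate_fin_two, coe_mRep h, coe_diagConj hγq, diagConjMat, mMat, e1,
      Matrix.mul_apply, Fin.sum_univ_two, Matrix.of_apply, Matrix.cons_val', Matrix.cons_val_zero,
      Matrix.cons_val_one, Matrix.empty_val', Matrix.cons_val_fin_one, Matrix.head_cons]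
    push_cast
    ring
  rw [key]
  exact dvd_mul_right _ _

/-- `w` normalises `Γ₀(N q)`. -/
theorem wSys {N q : ℕ} (h : Nat.Coprime q N) (hq : q ≠ 0) : WSys N q where
  inj := jSub_injective _
  sep _ _ _ _ := rfl
  stab γ _ := by
    have hγq : (q : ℤ) ∣ (γ : SL(2, ℤ)) 1 0 :=
      (Int.natCast_dvd_natCast.mpr (Dvd.intro_left N rfl)).trans (dvd_of_mem_Gamma0 γ.2)
    exact ⟨(), ⟨wConj N q γ, wConj_mem h hq γ.2⟩, wMat_mul_mapGL h hq hγq⟩

end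

end Fermat.Agent.S41.Coh
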