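import Mathlib
import Fermat.Agent.S41.Coh.LevelMat

/-!
# S41 / WP-A : the identities between the degeneracy operators of levels `N` and `N q`

For a prime `q ∤ N`, with `res = resCoh N q`, `w = wCoh N q`, `cor = corCoh N q`,
`T = heckeCoh N q` (level `N`), `U = heckeCoh (N q) q` (level `N q`), on homomorphisms with values
in ANY abelian group:

* `corCoh_resCoh`        : `cor (res φ) = (q + 1) • φ`;
* `wCoh_wCoh`            : `w (w ψ) = ψ`;
* `corCoh_wCoh_resCoh`   : `cor (w (res φ)) = T φ`;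
* `resCoh_corCoh`        : `res (cor ψ) = ψ + U (w ψ)`;
* `heckeCoh_heckeCoh_of_corCoh_eq_zero` : `cor ψ = 0 → cor (w ψ) = 0 → U (U ψ) = ψ`.

All of them take the hypothesis `hC : CorSys N q` (proved in `CorSys.lean`).
-/

set_option autoImplicit false

open scoped MatrixGroups
open CongruenceSubgroup ModularForm

namespace Fermat.Agent.S41.Coh

open Fermat.Agent.ESJ.ParHom

noncomputable section

/-! ### General lemmas on systems -/

namespace IsHeckeSys

variable {Γ Γ' G : Type*} [Group Γ] [Group Γ'] [Group G] {j : Γ →* G} {j' : Γ' →* G}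

/-- The identity system. -/
theorem one_sys (hj : Function.Injective j) : IsHeckeSys j j (fun _ : Unit => (1 : G)) where
  inj := hj
  sep _ _ _ _ := rfl
  stab γ _ := ⟨(), γ, by rw [one_mul, mul_one]⟩

theorem op_one_sys {A : Type*} [AddCommGroup A] (h : IsHeckeSys j j (fun _ : Unit => (1 : G)))
    (φ : Additive Γ →+ A) : h.op φ = φ := by
  refine AddMonoidHom.ext fun γ => ?_
  obtain ⟨γ, rfl⟩ := Additive.ofMul.surjective γ
  rw [h.op_apply_of φ γ id (fun _ => γ) (fun _ => by rw [one_mul, mul_one])]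
  simp

/-- Restriction of the source group. -/
theorem comp_left {Γ₀ : Type*} [Group Γ₀] {ι : Type*} {a : ι → G} (h : IsHeckeSys j j' a)
    (f : Γ₀ →* Γ) : IsHeckeSys (j.comp f) j' a where
  inj := h.inj
  sep := h.sep
  stab γ i := h.stab (f γ) i

theorem op_comp_left {Γ₀ : Type*} [Group Γ₀] {ι : Type*} [Fintype ι] {a : ι → G}
    (h : IsHeckeSys j j' a) (f : Γ₀ →* Γ) {A : Type*} [AddCommGroup A] (ψ : Additive Γ' →+ A)
    (γ : Γ₀) :
    (h.comp_left f).op ψ (Additive.ofMul γ) = h.op ψ (Additive.ofMul (f γ)) := by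
  rw [(h.comp_left f).op_apply_of ψ γ (h.perm (f γ)) (h.coc (f γ)) (fun i => h.spec (f γ) i),
    h.op_apply]

section OnePt

variable {κ : Type*} {a : OnePoint κ → G}

theorem perm_infty (h : IsHeckeSys j j a) (ha : a OnePoint.infty = 1) (γ : Γ) :
    h.perm γ OnePoint.infty = OnePoint.infty :=
  h.perm_eq (γ' := γ) (by rw [ha, one_mul, mul_one])

theorem coc_infty (h : IsHeckeSys j j a) (ha : a OnePoint.infty = 1) (γ : Γ) :
    h.coc γ OnePoint.infty = γ :=
  h.coc_eq (i' := OnePoint.infty) (by rw [ha, one_mul, mul_one])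

theorem exists_perm_coe (h : IsHeckeSys j j a) (ha : a OnePoint.infty = 1) (γ : Γ) (k : κ) :
    ∃ k' : κ, h.perm γ (k : OnePoint κ) = (k' : OnePoint κ) := by
  have hne : h.perm γ (k : OnePoint κ) ≠ OnePoint.infty := by
    intro e
    have e2 : h.permEquiv γ (k : OnePoint κ) = h.permEquiv γ OnePoint.infty := by
      rw [permEquiv_apply, permEquiv_apply, e, h.perm_infty ha]
    exact OnePoint.coe_ne_infty k ((h.permEquiv γ).injective e2)
  obtain ⟨k', hk'⟩ := OnePoint.ne_infty_iff_exists.mp hne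
  exact ⟨k', hk'.symm⟩

/-- If `a ∞ = 1`, the finite part of the system is a system. -/
theorem restrictCoe (h : IsHeckeSys j j a) (ha : a OnePoint.infty = 1) :
    IsHeckeSys j j (fun k : κ => a (k : OnePoint κ)) where
  inj := h.inj
  sep k k' γ e := OnePoint.coe_injective (h.sep _ _ γ e)
  stab γ k := by
    obtain ⟨k', hk'⟩ := h.exists_perm_coe ha γ k
    exact ⟨k', h.coc γ k, by rw [← hk']; exact h.spec γ k⟩

theorem op_eq_add_restrictCoe (h : IsHeckeSys j j a) (ha : a OnePoint.infty = 1) [Fintype κ]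
    {A : Type*} [AddCommGroup A] (ψ : Additive Γ →+ A) :
    h.op ψ = ψ + (h.restrictCoe ha).op ψ := by
  refine AddMonoidHom.ext fun γ => ?_
  obtain ⟨γ, rfl⟩ := Additive.ofMul.surjective γ
  rw [AddMonoidHom.add_apply, h.op_apply]
  have e1 : ∑ i : OnePoint κ, ψ (Additive.ofMul (h.coc γ i))
      = ψ (Additive.ofMul (h.coc γ OnePoint.infty))
        + ∑ k : κ, ψ (Additive.ofMul (h.coc γ (k : OnePoint κ))) :=
    Fintype.sum_option _
  rw [e1, h.coc_infty ha]
  congr 1
  rw [(h.restrictCoe ha).op_apply_of ψ γ (fun k => (h.exists_perm_coe ha γ k).choose)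
    (fun k => h.coc γ k)
    (fun k => by rw [← (h.exists_perm_coe ha γ k).choose_spec]; exact h.spec γ k)]

end OnePt

end IsHeckeSys

/-! ### Representatives in `SL(2, ℤ)` -/

/-- The representatives `corRep` as elements of `SL(2, ℤ)`. -/
def corRepSL (N q : ℕ) (x : OnePoint (ZMod q)) : SL(2, ℤ) :=
  x.elim 1 (fun j => mRep N q (j.val : ℤ))

theorem corRep_eq (N q : ℕ) (x : OnePoint (ZMod q)) :
    corRep N q x = Matrix.SpecialLinearGroup.mapGL ℝ (corRepSL N q x) := by
  induction x using OnePoint.rec with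
  | infty => exact (map_one _).symm
  | coe j => rfl

theorem corRepSL_mem {N q : ℕ} (h : Nat.Coprime q N) (x : OnePoint (ZMod q)) :
    corRepSL N q x ∈ Gamma0 N := by
  induction x using OnePoint.rec with
  | infty => exact one_mem _
  | coe j => exact mRep_mem_Gamma0 h _

/-! ### The identities -/

section Identities

variable {N q : ℕ} {A : Type*} [AddCommGroup A]

/-- `cor ∘ res = q + 1`. -/
theorem corCoh_resCoh [NeZero q] (hC : CorSys N q) (h : Nat.Coprime q N)
    (φ : Additive (Gamma0 N) →+ A) :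
    corCoh N q (resCoh N q φ) = (q + 1) • φ := by
  classical
  rw [corCoh_eq N q hC, resCoh]
  have hone : IsHeckeSys (jSub (Gamma0 N)) (jSub (Gamma0 N)) (fun _ : Unit => (1 : GL (Fin 2) ℝ)) :=
    IsHeckeSys.one_sys (jSub_injective (Gamma0 N))
  rw [hC.op_op_of_card_fiber (resSys N q) hone 1 (fun x => by rw [one_mul, mul_one])
    (fun _ => ()) (fun p => ⟨corRepSL N q p.1, corRepSL_mem h p.1⟩)
    (fun p => by rw [one_mul, one_mul, mul_one, corRep_eq]; rfl) (q + 1) (fun l => ?_) φ,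
    hone.op_one_sys]
  rw [Finset.filter_true_of_mem (fun _ _ => rfl), Finset.card_univ, Fintype.card_prod,
    Fintype.card_unit, mul_one]
  exact (Fintype.card_option).trans (by rw [ZMod.card])

/-- `w ∘ w = 1`. -/
theorem wCoh_wCoh (h : Nat.Coprime q N) (hq : q ≠ 0) (ψ : Additive (Gamma0 (N * q)) →+ A) :
    wCoh N q (wCoh N q ψ) = ψ := by
  have hW := wSys h hq
  rw [wCoh_eq N q hW, wCoh_eq N q hW]
  have hone : IsHeckeSys (jSub (Gamma0 (N * q))) (jSub (Gamma0 (N * q)))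
      (fun _ : Unit => (1 : GL (Fin 2) ℝ)) :=
    IsHeckeSys.one_sys (jSub_injective _)
  rw [hW.op_op_of_bijective hW hone (scalarGL (q : ℝ)) (scalarGL_comm _) (Equiv.prodPUnit Unit)
    (fun _ => ⟨gam2 N q, gam2_mem h⟩)
    (fun p => by rw [mul_one]; exact wMat_mul_wMat h hq) ψ, hone.op_one_sys]

/-- `w` followed by restriction, as a system from `Γ₀(N q)` to `Γ₀(N)`. -/
theorem wResSys (h : Nat.Coprime q N) (hq : q ≠ 0) :
    IsHeckeSys (jSub (Gamma0 (N * q))) (jSub (Gamma0 N)) (fun _ : Unit => wMat N q) where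
  inj := jSub_injective _
  sep _ _ _ _ := rfl
  stab γ _ := by
    obtain ⟨_, γ', e⟩ := (wSys h hq).stab γ ()
    exact ⟨(), incl N q γ', e⟩

theorem wCoh_resCoh_eq (h : Nat.Coprime q N) (hq : q ≠ 0) (φ : Additive (Gamma0 N) →+ A) :
    wCoh N q (resCoh N q φ) = (wResSys h hq).op φ := by
  have hW := wSys h hq
  rw [wCoh_eq N q hW, resCoh]
  exact hW.op_op_of_bijective (resSys N q) (wResSys h hq) 1 (fun x => by rw [one_mul, mul_one])
    (Equiv.prodPUnit Unit) (fun _ => 1) (fun p => by rw [one_mul, one_mul, map_one, one_mul]) φ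

/-- `cor ∘ w ∘ res = T_q` (level `N`). -/
theorem corCoh_wCoh_resCoh [Fact q.Prime] (hC : CorSys N q) (hqN : ¬ q ∣ N)
    (φ : Additive (Gamma0 N) →+ A) :
    corCoh N q (wCoh N q (resCoh N q φ)) = heckeCoh N ⟨q, Fact.out⟩ φ := by
  have hq : q ≠ 0 := (Fact.out : q.Prime).ne_zero
  have h : Nat.Coprime q N := ((Fact.out : q.Prime).coprime_iff_not_dvd).mpr hqN
  rw [wCoh_resCoh_eq h hq, corCoh_eq N q hC, heckeCoh_of_not_dvd N hqN, hecke_eq_op]
  refine hC.op_op_of_bijective (wResSys h hq) (isHeckeSystem_T N hqN).toSys 1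
    (fun x => by rw [one_mul, mul_one]) (Equiv.prodPUnit _)
    (fun p => p.1.elim ⟨mRep N q 0, mRep_mem_Gamma0 h 0⟩
      (fun _ => ⟨mRep N q 0 * gam0 N q, mul_mem (mRep_mem_Gamma0 h 0) (gam0_mem h)⟩)) ?_ φ
  rintro ⟨x, u⟩
  induction x using OnePoint.rec with
  | infty =>
    show wMat N q * corRep N q OnePoint.infty
      = 1 * Matrix.SpecialLinearGroup.mapGL ℝ (mRep N q 0) * tRep q OnePoint.infty
    rw [corRep_infty, mul_one, one_mul, tRep_infty, wMat_eq h hq]
  | coe j =>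
    show wMat N q * corRep N q (j : OnePoint (ZMod q))
      = 1 * Matrix.SpecialLinearGroup.mapGL ℝ (mRep N q 0 * gam0 N q)
        * tRep q (j : OnePoint (ZMod q))
    rw [corRep_coe, one_mul, tRep_coe, wMat_eq h hq, mul_assoc, heckeDiag_mul_mRep h hq, map_mul,
      mul_assoc]

/-- The representatives of `Γ₀(N q) \ Γ₀(N)` as a system for `Γ₀(N q)`. -/
theorem corResSys [NeZero q] (hC : CorSys N q) :
    IsHeckeSys (jSub (Gamma0 (N * q))) (jSub (Gamma0 (N * q))) (corRep N q) :=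
  hC.comp_left (incl N q)

theorem resCoh_corCoh_eq [NeZero q] (hC : CorSys N q) (ψ : Additive (Gamma0 (N * q)) →+ A) :
    resCoh N q (corCoh N q ψ) = (corResSys hC).op ψ := by
  refine AddMonoidHom.ext fun γ => ?_
  obtain ⟨γ, rfl⟩ := Additive.ofMul.surjective γ
  rw [resCoh_apply, corCoh_eq N q hC]
  exact (hC.op_comp_left (incl N q) ψ γ).symm

/-- `U_q ∘ w` is the operator of the finite part of `corRep`. -/
theorem heckeCoh_wCoh_eq [Fact q.Prime] (hC : CorSys N q) (hqN : ¬ q ∣ N)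
    (ψ : Additive (Gamma0 (N * q)) →+ A) :
    heckeCoh (N * q) ⟨q, Fact.out⟩ (wCoh N q ψ)
      = ((corResSys hC).restrictCoe (corRep_infty N q)).op ψ := by
  have hq : q ≠ 0 := (Fact.out : q.Prime).ne_zero
  have h : Nat.Coprime q N := ((Fact.out : q.Prime).coprime_iff_not_dvd).mpr hqN
  have hW := wSys h hq
  rw [heckeCoh_of_dvd (N * q) (Dvd.intro_left N rfl), hecke_eq_op, wCoh_eq N q hW]
  refine (isHeckeSystem_U (N * q) (Dvd.intro_left N rfl)).toSys.op_op_of_bijective hW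
    ((corResSys hC).restrictCoe (corRep_infty N q)) (scalarGL (q : ℝ)) (scalarGL_comm _)
    (Equiv.prodPUnit _) (fun _ => 1) ?_ ψ
  rintro ⟨x, u⟩
  show wMat N q * uRep q x = scalarGL (q : ℝ) * jSub (Gamma0 (N * q)) 1 * corRep N q (x : OnePoint (ZMod q))
  rw [map_one, mul_one, corRep_coe, uRep, wMat_mul_heckeMatrix h hq]

/-- `res ∘ cor = 1 + U_q ∘ w`. -/
theorem resCoh_corCoh [Fact q.Prime] (hC : CorSys N q) (hqN : ¬ q ∣ N)
    (ψ : Additive (Gamma0 (N * q)) →+ A) :
    resCoh N q (corCoh N q ψ) = ψ + heckeCoh (N * q) ⟨q, Fact.out⟩ (wCoh N q ψ) := by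
  rw [resCoh_corCoh_eq hC, heckeCoh_wCoh_eq hC hqN,
    (corResSys hC).op_eq_add_restrictCoe (corRep_infty N q)]

/-- On the common kernel of the two corestrictions, `U_q² = 1`. -/
theorem heckeCoh_heckeCoh_of_corCoh_eq_zero [Fact q.Prime] (hC : CorSys N q) (hqN : ¬ q ∣ N)
    (ψ : Additive (Gamma0 (N * q)) →+ A) (h1 : corCoh N q ψ = 0)
    (h2 : corCoh N q (wCoh N q ψ) = 0) :
    heckeCoh (N * q) ⟨q, Fact.out⟩ (heckeCoh (N * q) ⟨q, Fact.out⟩ ψ) = ψ := by
  have hq : q ≠ 0 := (Fact.out : q.Prime).ne_zero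
  have h : Nat.Coprime q N := ((Fact.out : q.Prime).coprime_iff_not_dvd).mpr hqN
  have e1 := resCoh_corCoh hC hqN ψ
  have e2 := resCoh_corCoh hC hqN (wCoh N q ψ)
  rw [h1] at e1
  rw [h2, wCoh_wCoh h hq] at e2
  have z : resCoh N q (0 : Additive (Gamma0 N) →+ A) = 0 := by
    rw [resCoh]
    exact IsHeckeSys.op_zero _
  rw [z] at e1 e2
  -- `U (w ψ) = -ψ`, `U ψ = - w ψ`
  have e3 : heckeCoh (N * q) ⟨q, Fact.out⟩ (wCoh N q ψ) = -ψ := by
    rw [eq_neg_iff_add_eq_zero, add_comm]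
    exact e1.symm
  have e4 : heckeCoh (N * q) ⟨q, Fact.out⟩ ψ = (-1 : ℤ) • wCoh N q ψ := by
    rw [neg_one_zsmul, eq_neg_iff_add_eq_zero, add_comm]
    exact e2.symm
  have e5 := heckeCoh_smul (N * q) (⟨q, Fact.out⟩ : Nat.Primes) (-1 : ℤ) (wCoh N q ψ)
  rw [e4, e5, e3]
  simp

end Identities

end

end Fermat.Agent.S41.Coh
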