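import Mathlib
import Fermat.Agent.S41.Coh.Level

/-!
# S41 / WP-A : `corRep N q` is a system of representatives of `Γ₀(N q) \ Γ₀(N)`

For a prime `q ∤ N`: `corSys : CorSys N q`, and the hypothesis-free forms of the identities of
`Level.lean`.
-/

set_option autoImplicit false

open scoped MatrixGroups
open CongruenceSubgroup ModularForm

namespace Fermat.Agent.S41.Coh

open Fermat.Agent.ESJ.ParHom

noncomputable section

theorem sl_mul_inv_apply_10 (X Y : SL(2, ℤ)) :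
    (X * Y⁻¹) 1 0 = X 1 0 * Y 1 1 - X 1 1 * Y 1 0 := by
  simp only [Matrix.SpecialLinearGroup.coe_mul, Matrix.SpecialLinearGroup.coe_inv,
    Matrix.adjugate_fin_two, Matrix.mul_apply, Fin.sum_univ_two, Matrix.of_apply,
    Matrix.cons_val', Matrix.cons_val_zero, Matrix.cons_val_one, Matrix.empty_val',
    Matrix.cons_val_fin_one]
  ring

theorem corRepSL_infty (N q : ℕ) : corRepSL N q OnePoint.infty = 1 := rfl

theorem corRepSL_coe (N q : ℕ) (j : ZMod q) :
    corRepSL N q (j : OnePoint (ZMod q)) = mRep N q (j.val : ℤ) := rfl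

theorem corRepSL_coe_apply_10 {N q : ℕ} (h : Nat.Coprime q N) (j : ZMod q) :
    (corRepSL N q (j : OnePoint (ZMod q))) 1 0 = N := by
  rw [corRepSL_coe, mRep_apply h]
  simp [mMat]

theorem corRepSL_coe_apply_11 {N q : ℕ} (h : Nat.Coprime q N) (j : ZMod q) :
    (corRepSL N q (j : OnePoint (ZMod q))) 1 1 = N * (j.val : ℤ) + q * bezT N q := by
  rw [corRepSL_coe, mRep_apply h]
  simp [mMat]

section

variable {N q : ℕ} [Fact q.Prime]

theorem natCast_ne_zero_of_not_dvd (hqN : ¬ q ∣ N) : ((N : ℤ) : ZMod q) ≠ 0 := by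
  rw [Ne, ZMod.intCast_zmod_eq_zero_iff_dvd]
  exact fun h => hqN (Int.natCast_dvd_natCast.mp h)

/-- Every element of `Γ₀(N)` lies in a coset `Γ₀(N q) * corRepSL x`. -/
theorem exists_corRepSL (hqN : ¬ q ∣ N) {g : SL(2, ℤ)} (hg : g ∈ Gamma0 N) :
    ∃ x : OnePoint (ZMod q), g * (corRepSL N q x)⁻¹ ∈ Gamma0 (N * q) := by
  have h : Nat.Coprime q N := ((Fact.out : q.Prime).coprime_iff_not_dvd).mpr hqN
  obtain ⟨c₀, hc₀⟩ := dvd_of_mem_Gamma0 hg
  by_cases hc : (q : ℤ) ∣ g 1 0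
  · refine ⟨OnePoint.infty, ?_⟩
    rw [corRepSL_infty, inv_one, mul_one]
    apply mem_Gamma0_of_dvd
    push_cast
    exact IsCoprime.mul_dvd (Nat.isCoprime_iff_coprime.mpr h.symm) (dvd_of_mem_Gamma0 hg) hc
  · have hcz : ((g 1 0 : ℤ) : ZMod q) ≠ 0 := by
      rwa [Ne, ZMod.intCast_zmod_eq_zero_iff_dvd]
    set j : ZMod q := ((g 1 1 : ℤ) : ZMod q) * ((g 1 0 : ℤ) : ZMod q)⁻¹ with hj
    refine ⟨(j : OnePoint (ZMod q)), ?_⟩
    apply mem_Gamma0_of_dvd
    rw [sl_mul_inv_apply_10, corRepSL_coe_apply_10 h, corRepSL_coe_apply_11 h]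
    -- `q ∣ c j - d`
    have hq : (q : ℤ) ∣ g 1 0 * (j.val : ℤ) - g 1 1 := by
      rw [← ZMod.intCast_zmod_eq_zero_iff_dvd]
      push_cast
      rw [ZMod.natCast_zmod_val, hj, mul_comm (((g 1 1 : ℤ) : ZMod q)), ← mul_assoc,
        mul_inv_cancel₀ hcz, one_mul, sub_self]
    obtain ⟨e, he⟩ := hq
    refine ⟨e + c₀ * bezT N q, ?_⟩
    have e1 : g 1 0 * ((N : ℤ) * (j.val : ℤ) + q * bezT N q) - g 1 1 * N
        = N * (g 1 0 * (j.val : ℤ) - g 1 1) + g 1 0 * q * bezT N q := by ring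
    rw [e1, he, hc₀]
    push_cast
    ring

/-- The cosets `Γ₀(N q) * corRepSL x` are distinct. -/
theorem corRepSL_sep (hqN : ¬ q ∣ N) (x x' : OnePoint (ZMod q))
    (hx : corRepSL N q x * (corRepSL N q x')⁻¹ ∈ Gamma0 (N * q)) : x = x' := by
  have h : Nat.Coprime q N := ((Fact.out : q.Prime).coprime_iff_not_dvd).mpr hqN
  have hd := dvd_of_mem_Gamma0 hx
  rw [sl_mul_inv_apply_10] at hd
  have hqd : (q : ℤ) ∣ _ := (Dvd.intro_left (N : ℤ) (by push_cast; rfl)).trans hd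
  have hNz := natCast_ne_zero_of_not_dvd hqN
  rw [← ZMod.intCast_zmod_eq_zero_iff_dvd] at hqd
  induction x using OnePoint.rec with
  | infty =>
    induction x' using OnePoint.rec with
    | infty => rfl
    | coe j' =>
      exfalso
      rw [corRepSL_infty, corRepSL_coe_apply_10 h] at hqd
      simp only [Matrix.SpecialLinearGroup.coe_one, Matrix.one_apply_ne (show (1 : Fin 2) ≠ 0 by decide),
        Matrix.one_apply_eq, zero_mul, one_mul, zero_sub, Int.cast_neg, neg_eq_zero] at hqd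
      exact hNz hqd
  | coe j =>
    induction x' using OnePoint.rec with
    | infty =>
      exfalso
      rw [corRepSL_infty, corRepSL_coe_apply_10 h] at hqd
      simp only [Matrix.SpecialLinearGroup.coe_one, Matrix.one_apply_ne (show (1 : Fin 2) ≠ 0 by decide),
        Matrix.one_apply_eq, mul_zero, mul_one, sub_zero] at hqd
      exact hNz hqd
    | coe j' =>
      rw [corRepSL_coe_apply_10 h, corRepSL_coe_apply_10 h, corRepSL_coe_apply_11 h,
        corRepSL_coe_apply_11 h] at hqd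
      have e1 : (N : ℤ) * ((N : ℤ) * (j'.val : ℤ) + q * bezT N q)
          - ((N : ℤ) * (j.val : ℤ) + q * bezT N q) * N
          = (N : ℤ) * N * ((j'.val : ℤ) - (j.val : ℤ)) := by ring
      rw [e1] at hqd
      push_cast at hqd
      rw [ZMod.natCast_zmod_val, ZMod.natCast_zmod_val] at hqd
      have hNz' : ((N : ℕ) : ZMod q) ≠ 0 := by exact_mod_cast hNz
      have e2 : j' - j = 0 := by
        rcases mul_eq_zero.mp hqd with h1 | h1
        · rcases mul_eq_zero.mp h1 with h2 | h2 <;> exact absurd h2 hNz'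
        · exact h1
      rw [(sub_eq_zero.mp e2)]

/-- `corRep N q` is a system of representatives of `Γ₀(N q) \ Γ₀(N)`. -/
theorem corSys (hqN : ¬ q ∣ N) : CorSys N q where
  inj := jSub_injective _
  sep x x' γ' e := by
    rw [corRep_eq, corRep_eq, jSub_apply, ← map_mul] at e
    have e' := Matrix.SpecialLinearGroup.mapGL_injective e
    refine corRepSL_sep hqN x x' ?_
    rw [e', mul_inv_cancel_right]
    exact γ'.2
  stab γ x := by
    have h : Nat.Coprime q N := ((Fact.out : q.Prime).coprime_iff_not_dvd).mpr hqN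
    obtain ⟨x', hx'⟩ := exists_corRepSL (q := q) hqN
      (mul_mem (corRepSL_mem h x) γ.2 : corRepSL N q x * (γ : SL(2, ℤ)) ∈ Gamma0 N)
    refine ⟨x', ⟨_, hx'⟩, ?_⟩
    rw [corRep_eq, corRep_eq, jSub_apply, jSub_apply, ← map_mul, ← map_mul, inv_mul_cancel_right]

/-! ### Hypothesis-free forms of the identities of `Level.lean` -/

variable {A : Type*} [AddCommGroup A]

theorem coprime_of_not_dvd (hqN : ¬ q ∣ N) : Nat.Coprime q N :=
  ((Fact.out : q.Prime).coprime_iff_not_dvd).mpr hqN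

/-- `cor ∘ res = q + 1`. -/
theorem corCoh_resCoh' (hqN : ¬ q ∣ N) (φ : Additive (Gamma0 N) →+ A) :
    corCoh N q (resCoh N q φ) = (q + 1) • φ :=
  corCoh_resCoh (corSys hqN) (coprime_of_not_dvd hqN) φ

/-- `w ∘ w = 1`. -/
theorem wCoh_wCoh' (hqN : ¬ q ∣ N) (ψ : Additive (Gamma0 (N * q)) →+ A) :
    wCoh N q (wCoh N q ψ) = ψ :=
  wCoh_wCoh (coprime_of_not_dvd hqN) (Fact.out : q.Prime).ne_zero ψ

/-- `cor ∘ w ∘ res = T_q` (level `N`). -/
theorem corCoh_wCoh_resCoh' (hqN : ¬ q ∣ N) (φ : Additive (Gamma0 N) →+ A) :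
    corCoh N q (wCoh N q (resCoh N q φ)) = heckeCoh N ⟨q, Fact.out⟩ φ :=
  corCoh_wCoh_resCoh (corSys hqN) hqN φ

/-- `res ∘ cor = 1 + U_q ∘ w`. -/
theorem resCoh_corCoh' (hqN : ¬ q ∣ N) (ψ : Additive (Gamma0 (N * q)) →+ A) :
    resCoh N q (corCoh N q ψ) = ψ + heckeCoh (N * q) ⟨q, Fact.out⟩ (wCoh N q ψ) :=
  resCoh_corCoh (corSys hqN) hqN ψ

/-- On the common kernel of `cor` and `cor ∘ w`, `U_q² = 1`. -/
theorem heckeCoh_heckeCoh_of_corCoh_eq_zero' (hqN : ¬ q ∣ N)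
    (ψ : Additive (Gamma0 (N * q)) →+ A) (h1 : corCoh N q ψ = 0)
    (h2 : corCoh N q (wCoh N q ψ) = 0) :
    heckeCoh (N * q) ⟨q, Fact.out⟩ (heckeCoh (N * q) ⟨q, Fact.out⟩ ψ) = ψ :=
  heckeCoh_heckeCoh_of_corCoh_eq_zero (corSys hqN) hqN ψ h1 h2

/-- `cor ∘ w ∘ w ∘ res = q + 1`. -/
theorem corCoh_wCoh_wCoh_resCoh' (hqN : ¬ q ∣ N) (φ : Additive (Gamma0 N) →+ A) :
    corCoh N q (wCoh N q (wCoh N q (resCoh N q φ))) = (q + 1) • φ := by
  rw [wCoh_wCoh' hqN, corCoh_resCoh' hqN]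

end

end

end Fermat.Agent.S41.Coh
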