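import Mathlib
import Fermat.Agent.S41.Coh.CorSys
import Fermat.Agent.ESJ.ParHom.Cmp
import Fermat.Agent.ESJ.Rep.EigChar

/-!
# S41 / WP-A (HECKE-COH), T-A4 : the `ℂ / ℤ / 𝔽_p` packaging of the degeneracy operators for Core

* `resPE`, `wPE`, `corPE` : the operators `resCoh`, `wCoh`, `corCoh` as linear maps between the
  modules `peHoms (Gamma0 ·) R A` of parabolic-elliptic homomorphisms (any coefficients), with
  the identities of `CorSys.lean` and the compatibility with change of coefficients (`castPE`).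
* `VC M = peHoms (Gamma0 M) ℂ ℂ`, `latC M = range (castPE M ℂ)` : the complex space and its
  lattice of integer-valued classes (finitely generated, spanning, stable under all operators).
* `redP M p : latC M →+ peHoms (Gamma0 M) (ZMod p) (ZMod p)` : reduction modulo `p`, surjective,
  with kernel `p • latC M`, compatible with all operators (the dictionary for `DualIhara`).
* `eigVec f = periodEquiv N (f, 0)` : the Hecke eigenvector of a normalised eigenform.
-/

set_option autoImplicit false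

open scoped MatrixGroups
open CongruenceSubgroup ModularForm

namespace Fermat.Agent.S41.Coh

open Fermat.Agent.ESJ.ParHom

noncomputable section

/-! ### The operators on parabolic-elliptic homomorphisms -/

section PE

variable (N q : ℕ) (R : Type*) [Semiring R] (A : Type*) [AddCommGroup A] [Module R A]

/-- Restriction `Hom_PE(Γ₀(N), A) → Hom_PE(Γ₀(N q), A)`. -/
def resPE : peHoms (Gamma0 N) R A →ₗ[R] peHoms (Gamma0 (N * q)) R A where
  toFun φ := ⟨resCoh N q (φ : Additive (Gamma0 N) →+ A), isPEHom_resCoh N q φ.2⟩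
  map_add' _ _ := Subtype.ext (resCoh_add N q _ _)
  map_smul' c _ := Subtype.ext (resCoh_smul N q c _)

/-- The Atkin–Lehner operator on `Hom_PE(Γ₀(N q), A)`. -/
def wPE : peHoms (Gamma0 (N * q)) R A →ₗ[R] peHoms (Gamma0 (N * q)) R A where
  toFun φ := ⟨wCoh N q (φ : Additive (Gamma0 (N * q)) →+ A), isPEHom_wCoh N q φ.2⟩
  map_add' _ _ := Subtype.ext (wCoh_add N q _ _)
  map_smul' c _ := Subtype.ext (wCoh_smul N q c _)

/-- Corestriction `Hom_PE(Γ₀(N q), A) → Hom_PE(Γ₀(N), A)`. -/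
def corPE [NeZero q] : peHoms (Gamma0 (N * q)) R A →ₗ[R] peHoms (Gamma0 N) R A where
  toFun φ := ⟨corCoh N q (φ : Additive (Gamma0 (N * q)) →+ A), isPEHom_corCoh N q φ.2⟩
  map_add' _ _ := Subtype.ext (corCoh_add N q _ _)
  map_smul' c _ := Subtype.ext (corCoh_smul N q c _)

@[simp] theorem coe_resPE (φ : peHoms (Gamma0 N) R A) :
    ((resPE N q R A φ : peHoms (Gamma0 (N * q)) R A) : Additive (Gamma0 (N * q)) →+ A)
      = resCoh N q (φ : Additive (Gamma0 N) →+ A) := rfl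

@[simp] theorem coe_wPE (φ : peHoms (Gamma0 (N * q)) R A) :
    ((wPE N q R A φ : peHoms (Gamma0 (N * q)) R A) : Additive (Gamma0 (N * q)) →+ A)
      = wCoh N q (φ : Additive (Gamma0 (N * q)) →+ A) := rfl

@[simp] theorem coe_corPE [NeZero q] (φ : peHoms (Gamma0 (N * q)) R A) :
    ((corPE N q R A φ : peHoms (Gamma0 N) R A) : Additive (Gamma0 N) →+ A)
      = corCoh N q (φ : Additive (Gamma0 (N * q)) →+ A) := rfl

end PE

section Identities

variable {N q : ℕ} [Fact q.Prime] (R : Type*) [Semiring R] (A : Type*) [AddCommGroup A]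
  [Module R A]

/-- `cor ∘ res = q + 1`. -/
theorem corPE_resPE (hqN : ¬ q ∣ N) (φ : peHoms (Gamma0 N) R A) :
    corPE N q R A (resPE N q R A φ) = (q + 1) • φ :=
  Subtype.ext (corCoh_resCoh' hqN _)

/-- `w ∘ w = 1`. -/
theorem wPE_wPE (hqN : ¬ q ∣ N) (ψ : peHoms (Gamma0 (N * q)) R A) :
    wPE N q R A (wPE N q R A ψ) = ψ :=
  Subtype.ext (wCoh_wCoh' hqN _)

/-- `cor ∘ w ∘ res = T_q` (level `N`). -/
theorem corPE_wPE_resPE (hqN : ¬ q ∣ N) (φ : peHoms (Gamma0 N) R A) :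
    corPE N q R A (wPE N q R A (resPE N q R A φ)) = heckePE N ⟨q, Fact.out⟩ R A φ :=
  Subtype.ext (corCoh_wCoh_resCoh' hqN _)

/-- `cor ∘ w ∘ w ∘ res = q + 1`. -/
theorem corPE_wPE_wPE_resPE (hqN : ¬ q ∣ N) (φ : peHoms (Gamma0 N) R A) :
    corPE N q R A (wPE N q R A (wPE N q R A (resPE N q R A φ))) = (q + 1) • φ := by
  rw [wPE_wPE R A hqN, corPE_resPE R A hqN]

/-- `res ∘ cor = 1 + U_q ∘ w`. -/
theorem resPE_corPE (hqN : ¬ q ∣ N) (ψ : peHoms (Gamma0 (N * q)) R A) :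
    resPE N q R A (corPE N q R A ψ)
      = ψ + heckePE (N * q) ⟨q, Fact.out⟩ R A (wPE N q R A ψ) :=
  Subtype.ext (resCoh_corCoh' hqN _)

/-- On the common kernel of `cor` and `cor ∘ w`, `U_q² = 1`. -/
theorem heckePE_heckePE_of_corPE_eq_zero (hqN : ¬ q ∣ N) (ψ : peHoms (Gamma0 (N * q)) R A)
    (h1 : corPE N q R A ψ = 0) (h2 : corPE N q R A (wPE N q R A ψ) = 0) :
    heckePE (N * q) ⟨q, Fact.out⟩ R A (heckePE (N * q) ⟨q, Fact.out⟩ R A ψ) = ψ :=
  Subtype.ext (heckeCoh_heckeCoh_of_corCoh_eq_zero' hqN _ (congrArg Subtype.val h1)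
    (congrArg Subtype.val h2))

end Identities

/-! ### Change of coefficients `ℤ → R` -/

section Cast

variable (N q : ℕ) (R : Type*) [Ring R]

theorem coe_castPE (M : ℕ) (φ : HPE M) :
    ((castPE M R φ : peHoms (Gamma0 M) R R) : Additive (Gamma0 M) →+ R)
      = (Int.castAddHom R).comp (φ : Additive (Gamma0 M) →+ ℤ) := rfl

theorem castPE_resPE (φ : HPE N) :
    castPE (N * q) R (resPE N q ℤ ℤ φ) = resPE N q R R (castPE N R φ) :=
  Subtype.ext (resCoh_comp N q (Int.castAddHom R) _).symm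

theorem castPE_wPE (φ : HPE (N * q)) :
    castPE (N * q) R (wPE N q ℤ ℤ φ) = wPE N q R R (castPE (N * q) R φ) :=
  Subtype.ext (wCoh_comp N q (Int.castAddHom R) _).symm

theorem castPE_corPE [NeZero q] (φ : HPE (N * q)) :
    castPE N R (corPE N q ℤ ℤ φ) = corPE N q R R (castPE (N * q) R φ) :=
  Subtype.ext (corCoh_comp N q (Int.castAddHom R) _).symm

end Cast

/-! ### The complex space and its integral lattice -/

/-- `V_M = Hom_PE(Γ₀(M), ℂ)` (`= parabolicHoms ℂ (Gamma0 M) ℂ` of the Prelude, by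
`peHoms_complex_eq`). -/
abbrev VC (M : ℕ) : Type := peHoms (Gamma0 M) ℂ ℂ

/-- The lattice of integer-valued classes in `V_M`. -/
def latC (M : ℕ) : Submodule ℤ (VC M) := LinearMap.range (castPE M ℂ)

theorem mem_latC {M : ℕ} {x : VC M} : x ∈ latC M ↔ ∃ φ : HPE M, castPE M ℂ φ = x :=
  LinearMap.mem_range

theorem castPE_mem_latC {M : ℕ} (φ : HPE M) : castPE M ℂ φ ∈ latC M :=
  LinearMap.mem_range_self _ φ

theorem latC_fg (M : ℕ) [NeZero M] : (latC M).FG := by
  rw [latC, LinearMap.range_eq_map]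
  exact Submodule.FG.map _ Module.Finite.fg_top

theorem span_latC (M : ℕ) [NeZero M] : Submodule.span ℂ (latC M : Set (VC M)) = ⊤ := by
  rw [eq_top_iff]
  intro x _
  obtain ⟨y, rfl⟩ := (baseChangePE M ℂ).surjective x
  clear * -
  induction y using TensorProduct.induction_on with
  | zero => rw [map_zero]; exact Submodule.zero_mem _
  | tmul r φ =>
    rw [baseChangePE_tmul]
    exact Submodule.smul_mem _ r (Submodule.subset_span (castPE_mem_latC φ))
  | add a b ha hb => rw [map_add]; exact Submodule.add_mem _ ha hb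

/-- An integral class which is divisible by `n` in the lattice is divisible by `n` as an
integer-valued homomorphism. -/
theorem castPE_eq_smul_iff {M : ℕ} (n : ℤ) (φ ψ : HPE M) :
    castPE M ℂ φ = n • castPE M ℂ ψ ↔ φ = n • ψ := by
  rw [← map_zsmul]
  exact (castPE_injective M ℂ).eq_iff

/-! #### The operators preserve the lattices -/

theorem resPE_mem_latC (N q : ℕ) {x : VC N} (hx : x ∈ latC N) :
    resPE N q ℂ ℂ x ∈ latC (N * q) := by
  obtain ⟨φ, rfl⟩ := mem_latC.mp hx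
  rw [← castPE_resPE]
  exact castPE_mem_latC _

theorem wPE_mem_latC (N q : ℕ) {x : VC (N * q)} (hx : x ∈ latC (N * q)) :
    wPE N q ℂ ℂ x ∈ latC (N * q) := by
  obtain ⟨φ, rfl⟩ := mem_latC.mp hx
  rw [← castPE_wPE]
  exact castPE_mem_latC _

theorem corPE_mem_latC (N q : ℕ) [NeZero q] {x : VC (N * q)} (hx : x ∈ latC (N * q)) :
    corPE N q ℂ ℂ x ∈ latC N := by
  obtain ⟨φ, rfl⟩ := mem_latC.mp hx
  rw [← castPE_corPE]
  exact castPE_mem_latC _

theorem heckePE_mem_latC (M : ℕ) (ℓ : Nat.Primes) {x : VC M} (hx : x ∈ latC M) :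
    heckePE M ℓ ℂ ℂ x ∈ latC M := by
  obtain ⟨φ, rfl⟩ := mem_latC.mp hx
  rw [← castPE_heckePE]
  exact castPE_mem_latC _

/-! ### Reduction modulo `p` -/

/-- The lattice is a copy of `Hom_PE(Γ₀(M), ℤ)`. -/
def latEquiv (M : ℕ) : HPE M ≃ₗ[ℤ] latC M :=
  LinearEquiv.ofInjective (castPE M ℂ) (castPE_injective M ℂ)

theorem coe_latEquiv {M : ℕ} (φ : HPE M) : ((latEquiv M φ : latC M) : VC M) = castPE M ℂ φ := rfl

theorem castPE_latEquiv_symm {M : ℕ} (x : latC M) :
    castPE M ℂ ((latEquiv M).symm x) = (x : VC M) := by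
  have h := (latEquiv M).apply_symm_apply x
  exact congrArg Subtype.val h

/-- Reduction modulo `p` of the integral classes. -/
def redP (M p : ℕ) : latC M →+ peHoms (Gamma0 M) (ZMod p) (ZMod p) :=
  ((castPE M (ZMod p)).comp (latEquiv M).symm.toLinearMap).toAddMonoidHom

theorem redP_apply {M p : ℕ} (x : latC M) :
    redP M p x = castPE M (ZMod p) ((latEquiv M).symm x) := rfl

theorem redP_castPE {M p : ℕ} (φ : HPE M) (h : castPE M ℂ φ ∈ latC M) :
    redP M p ⟨castPE M ℂ φ, h⟩ = castPE M (ZMod p) φ := by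
  rw [redP_apply]
  congr 1
  apply (latEquiv M).injective
  rw [LinearEquiv.apply_symm_apply]
  rfl

/-- `p • L` is killed by the reduction. -/
theorem redP_smul {M p : ℕ} (z : latC M) : redP M p ((p : ℤ) • z) = 0 := by
  rw [map_zsmul]
  apply Subtype.ext
  refine AddMonoidHom.ext fun γ => ?_
  show (p : ℤ) • ((redP M p z : peHoms (Gamma0 M) (ZMod p) (ZMod p)) :
    Additive (Gamma0 M) →+ ZMod p) γ = 0
  rw [zsmul_eq_mul]
  simp

theorem castPE_zmod_eq_zero_iff {M : ℕ} [NeZero M] (p : ℕ) (φ : HPE M) :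
    castPE M (ZMod p) φ = 0 ↔ ∃ ψ : HPE M, φ = (p : ℤ) • ψ := by
  constructor
  · intro h
    have h1 : ∀ l, ((evalEquiv M ℤ ℤ φ l : ℤ) : ZMod p) = 0 := by
      intro l
      rw [evalEquiv_apply, ← coe_castPE_apply, h]
      rfl
    have h2 : ∀ l, ∃ c : ℤ, evalEquiv M ℤ ℤ φ l = (p : ℤ) * c := fun l =>
      (ZMod.intCast_zmod_eq_zero_iff_dvd _ _).mp (h1 l)
    choose c hc using h2
    refine ⟨(evalEquiv M ℤ ℤ).symm c, ?_⟩
    apply (evalEquiv M ℤ ℤ).injective
    rw [map_zsmul, LinearEquiv.apply_symm_apply]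
    funext l
    rw [hc l, Pi.smul_apply, smul_eq_mul]
  · rintro ⟨ψ, rfl⟩
    rw [map_zsmul]
    apply Subtype.ext
    refine AddMonoidHom.ext fun γ => ?_
    show (p : ℤ) • ((castPE M (ZMod p) ψ : peHoms (Gamma0 M) (ZMod p) (ZMod p)) :
      Additive (Gamma0 M) →+ ZMod p) γ = 0
    rw [zsmul_eq_mul]
    simp

/-- The kernel of the reduction is `p • L`. -/
theorem exists_eq_smul_of_redP_eq_zero {M p : ℕ} [NeZero M] (x : latC M) (h : redP M p x = 0) :
    ∃ y ∈ latC M, (x : VC M) = (p : ℤ) • y := by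
  rw [redP_apply, castPE_zmod_eq_zero_iff] at h
  obtain ⟨ψ, hψ⟩ := h
  refine ⟨castPE M ℂ ψ, castPE_mem_latC ψ, ?_⟩
  rw [← castPE_latEquiv_symm x, hψ, map_zsmul]

/-- Integral classes lift every class modulo `p`. -/
theorem castPE_zmod_surjective (M : ℕ) [NeZero M] (p : ℕ) :
    Function.Surjective (castPE M (ZMod p)) := by
  intro χ
  have h : ∀ l, ∃ c : ℤ, (c : ZMod p) = evalEquiv M (ZMod p) (ZMod p) χ l := fun l =>
    ZMod.intCast_surjective _
  choose c hc using h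
  refine ⟨(evalEquiv M ℤ ℤ).symm c, ?_⟩
  apply (evalEquiv M (ZMod p) (ZMod p)).injective
  funext l
  rw [← hc l, evalEquiv_apply, coe_castPE_apply, ← evalEquiv_apply M ℤ ℤ,
    LinearEquiv.apply_symm_apply]

theorem redP_surjective (M : ℕ) [NeZero M] (p : ℕ) : Function.Surjective (redP M p) := by
  intro χ
  obtain ⟨φ, rfl⟩ := castPE_zmod_surjective M p χ
  exact ⟨latEquiv M φ, by rw [redP_apply, LinearEquiv.symm_apply_apply]⟩

/-! #### Reduction commutes with the operators -/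

theorem redP_eq_of_eq_castPE {M p : ℕ} (x : latC M) (φ : HPE M)
    (h : (x : VC M) = castPE M ℂ φ) : redP M p x = castPE M (ZMod p) φ := by
  have hx : x = ⟨castPE M ℂ φ, castPE_mem_latC φ⟩ := Subtype.ext h
  rw [hx, redP_castPE]

theorem redP_resPE (N q p : ℕ) (x : latC N) (h : resPE N q ℂ ℂ (x : VC N) ∈ latC (N * q)) :
    redP (N * q) p ⟨resPE N q ℂ ℂ (x : VC N), h⟩
      = resPE N q (ZMod p) (ZMod p) (redP N p x) := by
  obtain ⟨φ, hφ⟩ := mem_latC.mp x.2
  rw [redP_eq_of_eq_castPE x φ hφ.symm, ← castPE_resPE]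
  apply redP_eq_of_eq_castPE
  show resPE N q ℂ ℂ (x : VC N) = _
  rw [← hφ, castPE_resPE]

theorem redP_wPE (N q p : ℕ) (x : latC (N * q))
    (h : wPE N q ℂ ℂ (x : VC (N * q)) ∈ latC (N * q)) :
    redP (N * q) p ⟨wPE N q ℂ ℂ (x : VC (N * q)), h⟩
      = wPE N q (ZMod p) (ZMod p) (redP (N * q) p x) := by
  obtain ⟨φ, hφ⟩ := mem_latC.mp x.2
  rw [redP_eq_of_eq_castPE x φ hφ.symm, ← castPE_wPE]
  apply redP_eq_of_eq_castPE
  show wPE N q ℂ ℂ (x : VC (N * q)) = _
  rw [← hφ, castPE_wPE]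

theorem redP_corPE (N q p : ℕ) [NeZero q] (x : latC (N * q))
    (h : corPE N q ℂ ℂ (x : VC (N * q)) ∈ latC N) :
    redP N p ⟨corPE N q ℂ ℂ (x : VC (N * q)), h⟩
      = corPE N q (ZMod p) (ZMod p) (redP (N * q) p x) := by
  obtain ⟨φ, hφ⟩ := mem_latC.mp x.2
  rw [redP_eq_of_eq_castPE x φ hφ.symm, ← castPE_corPE]
  apply redP_eq_of_eq_castPE
  show corPE N q ℂ ℂ (x : VC (N * q)) = _
  rw [← hφ, castPE_corPE]

theorem redP_heckePE (M p : ℕ) (ℓ : Nat.Primes) (x : latC M)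
    (h : heckePE M ℓ ℂ ℂ (x : VC M) ∈ latC M) :
    redP M p ⟨heckePE M ℓ ℂ ℂ (x : VC M), h⟩
      = heckePE M ℓ (ZMod p) (ZMod p) (redP M p x) := by
  obtain ⟨φ, hφ⟩ := mem_latC.mp x.2
  rw [redP_eq_of_eq_castPE x φ hφ.symm, ← castPE_heckePE]
  apply redP_eq_of_eq_castPE
  show heckePE M ℓ ℂ ℂ (x : VC M) = _
  rw [← hφ, castPE_heckePE]

/-! ### The eigenvector of a normalised eigenform -/

/-- The class in `V_N` attached to a cusp form `f` (the period homomorphism of `(f, 0)`). -/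
def eigVec (N : ℕ) [NeZero N] (f : CuspForm (Gamma0 N) 2) : VC N := periodEquiv N (f, 0)

theorem eigVec_ne_zero {N : ℕ} [NeZero N] {f : CuspForm (Gamma0 N) 2} (hf : f ≠ 0) :
    eigVec N f ≠ 0 := by
  intro h
  apply hf
  have h1 : ((f, 0) : CuspForm (Gamma0 N) 2 × CuspForm (Gamma0 N) 2) = 0 :=
    (periodEquiv N).map_eq_zero_iff.mp h
  exact congrArg Prod.fst h1

/-- `T_ℓ` / `U_ℓ` acts on `eigVec f` as on `f`. -/
theorem heckePE_eigVec_of_apply_eq {N : ℕ} [NeZero N] {f : CuspForm (Gamma0 N) 2}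
    (ℓ : Nat.Primes) {a : ℂ} (h : heckeS2 N ℓ f = a • f) :
    heckePE N ℓ ℂ ℂ (eigVec N f) = a • eigVec N f := by
  rw [eigVec, ← periodEquiv_hecke, ← map_smul]
  congr 1
  show (heckeS2 N ℓ f, heckeS2 N ℓ 0) = (a • f, a • 0)
  rw [h, map_zero, smul_zero]

/-- **F1**: the class of a normalised eigenform is a simultaneous eigenvector of all `T_ℓ`, `U_ℓ`
with eigenvalues the `q`-expansion coefficients. -/
theorem heckePE_eigVec {N : ℕ} [NeZero N] {f : CuspForm (Gamma0 N) 2}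
    (hf : f.IsNormalizedEigenform) (ℓ : Nat.Primes) :
    heckePE N ℓ ℂ ℂ (eigVec N f) = ModularFormClass.qCoeff (⇑f) ℓ • eigVec N f := by
  apply heckePE_eigVec_of_apply_eq
  have h := Fermat.Agent.ESJ.Rep.EigChar.apply_eq_chiC_smul hf (CuspForm.heckeFormsGen N 2 ℓ)
  rw [Fermat.Agent.ESJ.Rep.EigChar.chiC_heckeFormsGen] at h
  exact h

end

end Fermat.Agent.S41.Coh
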