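import Mathlib
import Fermat.Agent.S41.Coh.CoreData
import Fermat.Agent.S49.Eigenform

/-!
# S41 / WP-F (F1) : normalised eigenform from an eigenvector of all `T_ℓ` / `U_ℓ`

* `exists_normalized_eigenform_of_gens` : a nonzero `v ∈ S₂(Γ₀(N))` which is an eigenvector of
  `T_ℓ` (`ℓ ∤ N`) and `U_ℓ` (`ℓ ∣ N`) for all primes `ℓ`, with eigenvalues `lam ℓ`, can be
  normalised to a normalised eigenform `g` with `a_ℓ(g) = lam ℓ` for EVERY prime `ℓ`
  (the proof of `S49.exists_normalized_eigenform`, stated on the generators);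
* `exists_normalizedEigenform_of_eigenvector` : the same starting from an eigenvector of all
  `heckePE M ℓ ℂ ℂ` in `VC M = Hom_PE(Γ₀(M), ℂ)`, through `periodEquiv`.
-/

set_option autoImplicit false

open CongruenceSubgroup ModularFormClass UpperHalfPlane

namespace Fermat.Agent.S41.Coh

open Fermat.Agent.S49 Fermat.Agent.ESJ.ParHom

variable {N : ℕ}

/-- A nonzero simultaneous eigenvector of all `T_ℓ`, `U_ℓ` can be normalised to a normalised
eigenform whose `ℓ`-th coefficient is the eigenvalue, for every prime `ℓ`. -/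
theorem exists_normalized_eigenform_of_gens [NeZero N] {v : CuspForm (Gamma0 N) 2} (hv : v ≠ 0)
    (lam : ℕ → ℂ)
    (hT : ∀ (ℓ : ℕ) (hℓ : ℓ.Prime) (hℓN : ¬ ℓ ∣ N), CuspForm.heckeTLin 2 hℓ hℓN v = lam ℓ • v)
    (hU : ∀ (ℓ : ℕ) (_ : ℓ.Prime) (hℓN : ℓ ∣ N), CuspForm.heckeULin 2 hℓN v = lam ℓ • v) :
    ∃ g : CuspForm (Gamma0 N) 2, g.IsNormalizedEigenform ∧
      ∀ ℓ : ℕ, ℓ.Prime → qCoeff (⇑g) ℓ = lam ℓ := by
  set e' : ℕ → ℂ := fun ℓ => if ℓ ∣ N then 0 else (ℓ : ℂ) with he'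
  -- the eigen-relations on the coefficients of `v`
  have hrel : ∀ ℓ : ℕ, ℓ.Prime →
      ∀ n : ℕ, qCoeff (⇑v) (ℓ * n) + e' ℓ * (if ℓ ∣ n then qCoeff (⇑v) (n / ℓ) else 0) =
        lam ℓ * qCoeff (⇑v) n := by
    intro ℓ hℓ
    by_cases hℓN : ℓ ∣ N
    · intro n
      have h1 := hU ℓ hℓ hℓN
      have h2 := congrArg (fun f : CuspForm (Gamma0 N) 2 => qCoeff (⇑f) n) h1
      simp only [Fermat.Agent.S49.qCoeff_heckeU hℓ, qCoeff_smul] at h2
      rw [he']
      simp only [if_pos hℓN, zero_mul, add_zero]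
      rw [mul_comm ℓ n]
      exact h2
    · intro n
      have h1 := hT ℓ hℓ hℓN
      have h2 := congrArg (fun f : CuspForm (Gamma0 N) 2 => qCoeff (⇑f) n) h1
      simp only [Fermat.Agent.S49.qCoeff_heckeT, qCoeff_smul] at h2
      have h21 : ((2 : ℤ) - 1) = 1 := by norm_num
      rw [h21, zpow_one] at h2
      rw [he']
      simp only [if_neg hℓN]
      rw [mul_comm ℓ n, ← h2]
      split_ifs <;> simp
  -- the first coefficient does not vanish
  have hb1 : qCoeff (⇑v) 1 ≠ 0 := by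
    intro hb1
    have hall : ∀ n : ℕ, qCoeff (⇑v) n = 0 := by
      intro n
      induction n using Nat.strong_induction_on with
      | _ n ih =>
        rcases Nat.lt_or_ge n 2 with hn | hn
        · interval_cases n
          · exact qCoeff_zero_eq v
          · exact hb1
        · have hp : (n.minFac).Prime := Nat.minFac_prime (by omega)
          have hlam := hrel n.minFac hp
          have hm : n = n.minFac * (n / n.minFac) :=
            (Nat.mul_div_cancel' (Nat.minFac_dvd n)).symm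
          have hlt : n / n.minFac < n := Nat.div_lt_self (by omega) hp.one_lt
          have h1 := hlam (n / n.minFac)
          rw [← hm, ih _ hlt, mul_zero] at h1
          have h2 : (if n.minFac ∣ n / n.minFac then
              qCoeff (⇑v) (n / n.minFac / n.minFac) else 0) = 0 := by
            split_ifs
            · exact ih _ (lt_of_le_of_lt (Nat.div_le_self _ _) hlt)
            · rfl
          rw [h2, mul_zero, add_zero] at h1
          exact h1
    apply hv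
    apply ext_qCoeff
    intro n
    have h0 : qCoeff (⇑(0 : CuspForm (Gamma0 N) 2)) n = 0 := by
      rw [← qLin_apply, map_zero]
    rw [h0, hall n]
  set b1 := qCoeff (⇑v) 1 with hb1def
  set g : CuspForm (Gamma0 N) 2 := b1⁻¹ • v with hg
  have hc : ∀ n, qCoeff (⇑g) n = b1⁻¹ * qCoeff (⇑v) n := fun n => qCoeff_smul _ _ _
  have hc1 : qCoeff (⇑g) 1 = 1 := by
    rw [hc, ← hb1def, inv_mul_cancel₀ hb1]
  have hrelg : ∀ ℓ : ℕ, ℓ.Prime →
      ∀ n : ℕ, qCoeff (⇑g) (ℓ * n) + e' ℓ * (if ℓ ∣ n then qCoeff (⇑g) (n / ℓ) else 0) =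
        lam ℓ * qCoeff (⇑g) n := by
    intro ℓ hℓ n
    have h1 := hrel ℓ hℓ n
    simp only [hc]
    split_ifs with hd
    · rw [if_pos hd] at h1
      linear_combination b1⁻¹ * h1
    · rw [if_neg hd] at h1
      linear_combination b1⁻¹ * h1
  have hlam_eq : ∀ ℓ : ℕ, ℓ.Prime → lam ℓ = qCoeff (⇑g) ℓ := by
    intro ℓ hℓ
    have h1 := hrelg ℓ hℓ 1
    rw [if_neg (Nat.Prime.not_dvd_one hℓ), mul_zero, add_zero, mul_one, hc1, mul_one] at h1
    exact h1.symm
  have hsys : FormalHecke.IsEigensystem e' (fun n => qCoeff (⇑g) n) := by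
    refine ⟨hc1, ?_⟩
    intro ℓ hℓ n
    have h1 := hrelg ℓ hℓ n
    rw [hlam_eq ℓ hℓ] at h1
    exact h1
  have hrec := isRecursive_of_isEigensystem hsys
  refine ⟨g, ⟨hc1, hrec.2.1, ?_, ?_⟩, fun ℓ hℓ => (hlam_eq ℓ hℓ).symm⟩
  · intro p r hp hpN
    have := hrec.2.2 p r hp
    rw [he'] at this
    simp only [if_neg hpN] at this
    exact this
  · intro p r hp hpN
    have := hrec.2.2 p r hp
    rw [he'] at this
    simp only [if_pos hpN, zero_mul, sub_zero] at this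
    exact this

/-- **F1.** A nonzero eigenvector of all `heckePE M ℓ ℂ ℂ` in `Hom_PE(Γ₀(M), ℂ)` gives a normalised
eigenform with `a_ℓ = eigenvalue` for every prime `ℓ`. -/
theorem exists_normalizedEigenform_of_eigenvector {M : ℕ} [NeZero M] {w : VC M} (hw : w ≠ 0)
    (lam : Nat.Primes → ℂ) (h : ∀ ℓ : Nat.Primes, heckePE M ℓ ℂ ℂ w = lam ℓ • w) :
    ∃ g : CuspForm (Gamma0 M) 2, g.IsNormalizedEigenform ∧
      ∀ ℓ : Nat.Primes, ModularFormClass.qCoeff (⇑g) ℓ = lam ℓ := by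
  classical
  set x := (periodEquiv M).symm w with hx
  have hxw : periodEquiv M x = w := LinearEquiv.apply_symm_apply _ _
  have hx0 : x ≠ 0 := by
    intro h0
    apply hw
    rw [← hxw, h0, map_zero]
  have key : ∀ ℓ : Nat.Primes, (heckeS2 M ℓ x.1, heckeS2 M ℓ x.2) = lam ℓ • x := by
    intro ℓ
    apply (periodEquiv M).injective
    rw [periodEquiv_hecke, hxw, h ℓ, map_smul, hxw]
  set lam' : ℕ → ℂ := fun n => if hn : n.Prime then lam ⟨n, hn⟩ else 0 with hlam'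
  have hlam'_eq : ∀ ℓ : Nat.Primes, lam' ℓ = lam ℓ := by
    intro ℓ
    simp only [hlam', dif_pos ℓ.2]
    rfl
  have main : ∀ v : CuspForm (Gamma0 M) 2, v ≠ 0 → (∀ ℓ : Nat.Primes, heckeS2 M ℓ v = lam ℓ • v) →
      ∃ g : CuspForm (Gamma0 M) 2, g.IsNormalizedEigenform ∧
        ∀ ℓ : Nat.Primes, ModularFormClass.qCoeff (⇑g) ℓ = lam ℓ := by
    intro v hv hv'
    obtain ⟨g, hg, hgl⟩ := exists_normalized_eigenform_of_gens hv lam'
      (fun ℓ hℓ hℓM => by
        have e : ((CuspForm.heckeFormsGen M 2 (⟨ℓ, hℓ⟩ : Nat.Primes) :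
            CuspForm.heckeAlgebra M 2 ∅) : Module.End ℂ (CuspForm (Gamma0 M) 2)) v
            = lam ⟨ℓ, hℓ⟩ • v := hv' ⟨ℓ, hℓ⟩
        rw [CuspForm.heckeFormsGen_of_not_dvd (ℓ := ⟨ℓ, hℓ⟩) hℓM,
          CuspForm.heckeAlgebra.coe_T] at e
        rw [e, ← hlam'_eq ⟨ℓ, hℓ⟩])
      (fun ℓ hℓ hℓM => by
        have e : ((CuspForm.heckeFormsGen M 2 (⟨ℓ, hℓ⟩ : Nat.Primes) :
            CuspForm.heckeAlgebra M 2 ∅) : Module.End ℂ (CuspForm (Gamma0 M) 2)) v
            = lam ⟨ℓ, hℓ⟩ • v := hv' ⟨ℓ, hℓ⟩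
        rw [CuspForm.heckeFormsGen_of_dvd (q := ⟨ℓ, hℓ⟩) hℓM,
          CuspForm.heckeAlgebra.coe_U] at e
        rw [e, ← hlam'_eq ⟨ℓ, hℓ⟩])
    exact ⟨g, hg, fun ℓ => by rw [hgl ℓ ℓ.2, hlam'_eq]⟩
  by_cases h1 : x.1 = 0
  · have h2 : x.2 ≠ 0 := fun h2 => hx0 (Prod.ext h1 h2)
    exact main x.2 h2 (fun ℓ => congrArg Prod.snd (key ℓ))
  · exact main x.1 h1 (fun ℓ => congrArg Prod.fst (key ℓ))

end Fermat.Agent.S41.Coh
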