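import Mathlib
import Fermat.Agent.S41.Coh.CorSys
import Fermat.Agent.ESJ.ParHom.Cmp

/-!
# S41 / WP-A : the degeneracy operators commute with `T_ℓ` (`ℓ ∤ N q`)

* `resCoh_heckeCoh`  : `res ∘ T_ℓ = T_ℓ ∘ res`  (any coefficient group);
* `wCoh_heckeCoh`    : `w ∘ T_ℓ = T_ℓ ∘ w`      (any coefficient group);
* `corCoh_heckeCoh`  : `cor ∘ T_ℓ = T_ℓ ∘ cor`  on parabolic-elliptic homomorphisms with values in a
  commutative ring without `(q+1)`-torsion (derived from `res ∘ cor = 1 + U_q w`, `cor ∘ res = q+1`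
  and the commutativity of the Hecke operators of level `N q`).
-/

set_option autoImplicit false

open scoped MatrixGroups
open CongruenceSubgroup ModularForm

namespace Fermat.Agent.S41.Coh

open Fermat.Agent.ESJ.ParHom

noncomputable section

/-! ### General: composing a system with a normalising element -/

namespace IsHeckeSys

variable {Γ Γ' Γ'' G : Type*} [Group Γ] [Group Γ'] [Group Γ''] [Group G] {j : Γ →* G}
  {j' : Γ' →* G} {j'' : Γ'' →* G}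

/-- If `w` carries `Γ` into `Γ'` and `b` is a system from `Γ'` to `Γ''`, then `b · w` is a system
from `Γ` to `Γ''`. -/
theorem mul_unit_sys {w : G} (hW : IsHeckeSys j j' (fun _ : Unit => w)) {κ : Type*} {b : κ → G}
    (hb : IsHeckeSys j' j'' b) : IsHeckeSys j j'' (fun k => b k * w) where
  inj := hb.inj
  sep k k' γ e := hb.sep k k' γ (mul_right_cancel (e.trans (mul_assoc _ _ _).symm))
  stab γ k := ⟨hb.perm (hW.coc γ ()) k, hb.coc (hW.coc γ ()) k, by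
    have e1 : w * j γ = j' (hW.coc γ ()) * w := hW.spec γ ()
    rw [mul_assoc, e1, ← mul_assoc, hb.spec, mul_assoc]⟩

theorem op_op_unit {w : G} (hW : IsHeckeSys j j' (fun _ : Unit => w)) {κ : Type*} [Fintype κ]
    {b : κ → G} (hb : IsHeckeSys j' j'' b) {A : Type*} [AddCommGroup A] (ψ : Additive Γ'' →+ A) :
    hW.op (hb.op ψ) = (hW.mul_unit_sys hb).op ψ :=
  hW.op_op_of_bijective hb (hW.mul_unit_sys hb) 1 (fun x => by rw [one_mul, mul_one])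
    (Equiv.punitProd κ) (fun _ => 1) (fun p => by rw [map_one, mul_one, one_mul]; rfl) ψ

end IsHeckeSys

/-! ### Restriction -/

section Res

variable {N q ℓ : ℕ} [Fact ℓ.Prime] {A : Type*} [AddCommGroup A]

/-- `res ∘ T_ℓ = T_ℓ ∘ res`. -/
theorem resCoh_heckeCoh (hℓ : ¬ ℓ ∣ N * q) (φ : Additive (Gamma0 N) →+ A) :
    resCoh N q (heckeCoh N ⟨ℓ, Fact.out⟩ φ) = heckeCoh (N * q) ⟨ℓ, Fact.out⟩ (resCoh N q φ) := by
  have hℓN : ¬ ℓ ∣ N := fun h => hℓ (h.mul_right q)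
  rw [heckeCoh_of_not_dvd N hℓN, heckeCoh_of_not_dvd (N * q) hℓ, hecke_eq_op, hecke_eq_op]
  refine AddMonoidHom.ext fun γ => ?_
  obtain ⟨γ, rfl⟩ := Additive.ofMul.surjective γ
  have hT := (isHeckeSystem_T N hℓN).toSys
  have hT' := (isHeckeSystem_T (N * q) hℓ).toSys
  rw [resCoh_apply, hT.op_apply_of φ (incl N q γ) (hT'.perm γ) (fun x => incl N q (hT'.coc γ x))
    (fun x => hT'.spec γ x), hT'.op_apply]
  simp only [resCoh_apply]

end Res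

/-! ### The Atkin–Lehner operator -/

/-- The integral matrix of `tRep ℓ x`. -/
def tInt (ℓ : ℕ) (x : OnePoint (ZMod ℓ)) : Matrix (Fin 2) (Fin 2) ℤ :=
  x.elim !![(ℓ : ℤ), 0; 0, 1] (fun j => !![1, (j.val : ℤ); 0, (ℓ : ℤ)])

theorem isIntGL_tRep {ℓ : ℕ} (hℓ : ℓ ≠ 0) (x : OnePoint (ZMod ℓ)) :
    IsIntGL (tRep ℓ x) (tInt ℓ x) := by
  induction x using OnePoint.rec with
  | infty => exact isIntGL_heckeDiagMatrix hℓ
  | coe j => exact isIntGL_heckeMatrix hℓ j.val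

theorem tInt_apply_10 (ℓ : ℕ) (x : OnePoint (ZMod ℓ)) : tInt ℓ x 1 0 = 0 := by
  induction x using OnePoint.rec with
  | infty => simp [tInt]
  | coe j => simp [tInt]

theorem tInt_apply_00_ne {ℓ q : ℕ} [Fact q.Prime] [Fact ℓ.Prime] (hℓq : ℓ ≠ q)
    (x : OnePoint (ZMod ℓ)) : ((tInt ℓ x 0 0 : ℤ) : ZMod q) ≠ 0 := by
  induction x using OnePoint.rec with
  | infty =>
    simp only [tInt, OnePoint.elim_infty, Matrix.of_apply, Matrix.cons_val', Matrix.cons_val_zero,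
      Matrix.empty_val', Matrix.cons_val_fin_one, Int.cast_natCast]
    rw [Ne, ZMod.natCast_eq_zero_iff]
    intro h
    exact hℓq ((Nat.prime_dvd_prime_iff_eq (Fact.out : q.Prime) (Fact.out : ℓ.Prime)).mp h).symm
  | coe j =>
    simp only [tInt, OnePoint.elim_some, Matrix.of_apply, Matrix.cons_val', Matrix.cons_val_zero,
      Matrix.empty_val', Matrix.cons_val_fin_one, Int.cast_one]
    exact one_ne_zero

theorem bezY_ne {N q : ℕ} [Fact q.Prime] (hqN : ¬ q ∣ N) : ((bezY N q : ℤ) : ZMod q) ≠ 0 := by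
  have e := congrArg (Int.cast : ℤ → ZMod q) (bez_eq_one (coprime_of_not_dvd hqN))
  push_cast at e
  rw [ZMod.natCast_self, zero_mul, zero_sub] at e
  intro h
  rw [h, mul_zero, neg_zero] at e
  exact zero_ne_one e

/-- Multiplication by `q` on `ℙ¹(𝔽_ℓ)`. -/
def mulQ (q ℓ : ℕ) (x : OnePoint (ZMod ℓ)) : OnePoint (ZMod ℓ) :=
  x.elim OnePoint.infty (fun j => (((q : ZMod ℓ) * j : ZMod ℓ) : OnePoint (ZMod ℓ)))

/-- The translation needed to renormalise `[[1, q j], [0, ℓ]]`. -/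
def shiftM (q ℓ : ℕ) (x : OnePoint (ZMod ℓ)) : ℤ :=
  x.elim 0 (fun j => ((q * j.val / ℓ : ℕ) : ℤ))

/-- Multiplication by `q` on `ℙ¹(𝔽_ℓ)` as a bijection. -/
def mulQEquiv {q ℓ : ℕ} [Fact ℓ.Prime] (h : (q : ZMod ℓ) ≠ 0) :
    OnePoint (ZMod ℓ) ≃ OnePoint (ZMod ℓ) where
  toFun := mulQ q ℓ
  invFun x := x.elim OnePoint.infty (fun j => (((q : ZMod ℓ)⁻¹ * j : ZMod ℓ) : OnePoint (ZMod ℓ)))
  left_inv x := by
    induction x using OnePoint.rec with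
    | infty => rfl
    | coe j =>
      simp only [mulQ, OnePoint.elim_some]
      rw [← mul_assoc, inv_mul_cancel₀ h, one_mul]
  right_inv x := by
    induction x using OnePoint.rec with
    | infty => rfl
    | coe j =>
      simp only [mulQ, OnePoint.elim_some]
      rw [← mul_assoc, mul_inv_cancel₀ h, one_mul]

@[simp] theorem mulQEquiv_apply {q ℓ : ℕ} [Fact ℓ.Prime] (h : (q : ZMod ℓ) ≠ 0)
    (x : OnePoint (ZMod ℓ)) : mulQEquiv h x = mulQ q ℓ x := rfl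

/-- `[[q, 0], [0, 1]] * tRep x = T^m * tRep (q x) * [[q, 0], [0, 1]]`. -/
theorem heckeDiag_mul_tRep {q ℓ : ℕ} (hq : q ≠ 0) [NeZero ℓ] (x : OnePoint (ZMod ℓ)) :
    heckeDiagMatrix q * tRep ℓ x
      = Matrix.SpecialLinearGroup.mapGL ℝ (ModularGroup.T ^ shiftM q ℓ x) * tRep ℓ (mulQ q ℓ x)
        * heckeDiagMatrix q := by
  have hℓ : ℓ ≠ 0 := NeZero.ne ℓ
  refine IsIntGL.ext ((isIntGL_heckeDiagMatrix hq).mul (isIntGL_tRep hℓ x))
    (((isIntGL_mapGL _).mul (isIntGL_tRep hℓ _)).mul (isIntGL_heckeDiagMatrix hq)) ?_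
  rw [ModularGroup.coe_T_zpow]
  induction x using OnePoint.rec with
  | infty =>
    simp only [tInt, mulQ, shiftM, OnePoint.elim_infty]
    ext i k
    fin_cases i <;> fin_cases k <;> simp [Matrix.mul_apply, Fin.sum_univ_two, mul_comm]
  | coe j =>
    simp only [tInt, mulQ, shiftM, OnePoint.elim_some]
    have hval : ((q : ZMod ℓ) * j).val = (q * j.val) % ℓ := by
      rw [← ZMod.val_natCast, Nat.cast_mul, ZMod.natCast_zmod_val]
    have hdiv : (q : ℤ) * ((j.val : ℕ) : ℤ)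
        = ((q * j.val % ℓ : ℕ) : ℤ) + ℓ * ((q * j.val / ℓ : ℕ) : ℤ) := by
      exact_mod_cast (Nat.mod_add_div (q * j.val) ℓ).symm
    rw [hval]
    generalize ((q * j.val % ℓ : ℕ) : ℤ) = a at hdiv ⊢
    generalize ((q * j.val / ℓ : ℕ) : ℤ) = b at hdiv ⊢
    generalize ((j.val : ℕ) : ℤ) = c at hdiv ⊢
    ext i k
    fin_cases i <;> fin_cases k <;> simp [Matrix.mul_apply, Fin.sum_univ_two]
    linear_combination hdiv

section W

variable {N q ℓ : ℕ} [Fact q.Prime] [Fact ℓ.Prime]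

/-- The criterion: if `w * tRep x = g * tRep x' * w` then `q ∣ g₂₁`. -/
theorem dvd_of_wMat_mul_tRep (hqN : ¬ q ∣ N) (hℓq : ℓ ≠ q) {g : SL(2, ℤ)}
    {x x' : OnePoint (ZMod ℓ)}
    (e : wMat N q * tRep ℓ x = Matrix.SpecialLinearGroup.mapGL ℝ g * tRep ℓ x' * wMat N q) :
    (q : ℤ) ∣ g 1 0 := by
  have hq : q ≠ 0 := (Fact.out : q.Prime).ne_zero
  have hℓ0 : ℓ ≠ 0 := (Fact.out : ℓ.Prime).ne_zero
  have h := coprime_of_not_dvd hqN
  have eI := IsIntGL.eq ((isIntGL_wMat h hq).mul (isIntGL_tRep hℓ0 x))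
    (((isIntGL_mapGL g).mul (isIntGL_tRep hℓ0 x')).mul (isIntGL_wMat h hq)) e
  have e11 := congrFun (congrFun eI 1) 1
  simp only [Matrix.mul_apply, Fin.sum_univ_two, wInt, tInt_apply_10, Matrix.of_apply,
    Matrix.cons_val', Matrix.cons_val_zero, Matrix.cons_val_one, Matrix.empty_val',
    Matrix.cons_val_fin_one, mul_zero, add_zero] at e11
  have hdvd : (q : ℤ) ∣ g 1 0 * tInt ℓ x' 0 0 * bezY N q :=
    ⟨N * tInt ℓ x 0 1 + bezT N q * tInt ℓ x 1 1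
      - (g 1 0 * tInt ℓ x' 0 1 + g 1 1 * tInt ℓ x' 1 1) * bezT N q, by linear_combination -e11⟩
  rw [← ZMod.intCast_zmod_eq_zero_iff_dvd] at hdvd ⊢
  push_cast at hdvd
  rcases mul_eq_zero.mp hdvd with h1 | h1
  · rcases mul_eq_zero.mp h1 with h2 | h2
    · exact h2
    · exact absurd h2 (tInt_apply_00_ne hℓq x')
  · exact absurd h1 (bezY_ne hqN)

/-- `w * tRep x = g_x * tRep (σ x) * w` with `g_x ∈ Γ₀(N q)` and `σ` a bijection. -/
theorem exists_wMat_mul_tRep (hqN : ¬ q ∣ N) (hℓ : ¬ ℓ ∣ N * q) :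
    ∃ σ : OnePoint (ZMod ℓ) ≃ OnePoint (ZMod ℓ), ∀ x, ∃ g : Gamma0 (N * q),
      wMat N q * tRep ℓ x = jSub (Gamma0 (N * q)) g * (tRep ℓ (σ x) * wMat N q) := by
  have hq : q ≠ 0 := (Fact.out : q.Prime).ne_zero
  have h := coprime_of_not_dvd hqN
  have hℓN : ¬ ℓ ∣ N := fun h => hℓ (h.mul_right q)
  have hℓq : ℓ ≠ q := fun e => hℓ (e ▸ Dvd.intro_left N rfl)
  have hqℓ : ((q : ℕ) : ZMod ℓ) ≠ 0 := by
    rw [Ne, ZMod.natCast_eq_zero_iff]
    intro hd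
    exact hℓq ((Nat.prime_dvd_prime_iff_eq (Fact.out : ℓ.Prime) (Fact.out : q.Prime)).mp hd)
  have hT := (isHeckeSystem_T N hℓN).toSys
  let m0 : Gamma0 N := ⟨mRep N q 0, mRep_mem_Gamma0 h 0⟩
  refine ⟨(mulQEquiv hqℓ).trans (hT.permEquiv m0⁻¹), fun x => ?_⟩
  set y := mulQ q ℓ x with hy
  set g : SL(2, ℤ) := mRep N q 0 * ModularGroup.T ^ shiftM q ℓ x * (hT.coc m0⁻¹ y : SL(2, ℤ))
    with hg
  have e1 := wMat_eq h hq
  have e2 : heckeDiagMatrix q * tRep ℓ x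
      = Matrix.SpecialLinearGroup.mapGL ℝ (ModularGroup.T ^ shiftM q ℓ x) * tRep ℓ y
        * heckeDiagMatrix q := heckeDiag_mul_tRep (ℓ := ℓ) hq x
  have e3 : tRep ℓ y * jSub (Gamma0 N) m0⁻¹ = jSub (Gamma0 N) (hT.coc m0⁻¹ y)
      * tRep ℓ (hT.perm m0⁻¹ y) := hT.spec m0⁻¹ y
  have e4 : jSub (Gamma0 N) m0⁻¹ = (Matrix.SpecialLinearGroup.mapGL ℝ (mRep N q 0))⁻¹ := by
    rw [map_inv]
    rfl
  have key : wMat N q * tRep ℓ x
      = Matrix.SpecialLinearGroup.mapGL ℝ g * tRep ℓ (hT.perm m0⁻¹ y) * wMat N q := by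
    calc wMat N q * tRep ℓ x
        = Matrix.SpecialLinearGroup.mapGL ℝ (mRep N q 0) * (heckeDiagMatrix q * tRep ℓ x) := by
          rw [e1, mul_assoc]
      _ = Matrix.SpecialLinearGroup.mapGL ℝ (mRep N q 0)
            * Matrix.SpecialLinearGroup.mapGL ℝ (ModularGroup.T ^ shiftM q ℓ x)
            * (tRep ℓ y * jSub (Gamma0 N) m0⁻¹)
            * (Matrix.SpecialLinearGroup.mapGL ℝ (mRep N q 0) * heckeDiagMatrix q) := by
          rw [e2, e4]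
          group
      _ = Matrix.SpecialLinearGroup.mapGL ℝ g * tRep ℓ (hT.perm m0⁻¹ y) * wMat N q := by
          rw [e3, ← e1, hg, map_mul, map_mul, jSub_apply]
          group
  have hgN : g ∈ Gamma0 N :=
    mul_mem (mul_mem (mRep_mem_Gamma0 h 0) (mem_Gamma0_of_dvd (by
      rw [ModularGroup.coe_T_zpow]
      simp))) (hT.coc m0⁻¹ y).2
  have hgq : (q : ℤ) ∣ g 1 0 := dvd_of_wMat_mul_tRep hqN hℓq key
  have hgNq : g ∈ Gamma0 (N * q) := by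
    apply mem_Gamma0_of_dvd
    push_cast
    exact IsCoprime.mul_dvd (Nat.isCoprime_iff_coprime.mpr h.symm) (dvd_of_mem_Gamma0 hgN) hgq
  refine ⟨⟨g, hgNq⟩, ?_⟩
  rw [← mul_assoc]
  exact key

variable {A : Type*} [AddCommGroup A]

/-- `w ∘ T_ℓ = T_ℓ ∘ w`. -/
theorem wCoh_heckeCoh (hqN : ¬ q ∣ N) (hℓ : ¬ ℓ ∣ N * q) (ψ : Additive (Gamma0 (N * q)) →+ A) :
    wCoh N q (heckeCoh (N * q) ⟨ℓ, Fact.out⟩ ψ)
      = heckeCoh (N * q) ⟨ℓ, Fact.out⟩ (wCoh N q ψ) := by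
  have hq : q ≠ 0 := (Fact.out : q.Prime).ne_zero
  have h := coprime_of_not_dvd hqN
  have hW := wSys h hq
  rw [heckeCoh_of_not_dvd (N * q) hℓ, heckeCoh_of_not_dvd (N * q) hℓ, hecke_eq_op, hecke_eq_op,
    wCoh_eq N q hW, wCoh_eq N q hW]
  have hT' := (isHeckeSystem_T (N * q) hℓ).toSys
  rw [hW.op_op_unit hT']
  obtain ⟨σ, hσ⟩ := exists_wMat_mul_tRep (N := N) (q := q) (ℓ := ℓ) hqN hℓ
  choose g hg using hσ
  exact (hT'.op_op_of_bijective hW (hW.mul_unit_sys hT') 1 (fun x => by rw [one_mul, mul_one])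
    ((Equiv.prodPUnit _).trans σ) (fun p => g p.1)
    (fun p => by rw [one_mul]; exact hg p.1) ψ).symm

end W

/-! ### Corestriction -/

section Cor

variable {N q ℓ : ℕ} [Fact q.Prime] [Fact ℓ.Prime] {R : Type*} [CommRing R]

/-- `cor ∘ T_ℓ = T_ℓ ∘ cor` on parabolic-elliptic homomorphisms with values in a commutative ring
without `(q+1)`-torsion. -/
theorem corCoh_heckeCoh (hqN : ¬ q ∣ N) (hℓ : ¬ ℓ ∣ N * q)
    (hR : ∀ x : R, (q + 1) • x = 0 → x = 0)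
    {ψ : Additive (Gamma0 (N * q)) →+ R} (hψ : IsPEHom (Gamma0 (N * q)) ψ) :
    corCoh N q (heckeCoh (N * q) ⟨ℓ, Fact.out⟩ ψ) = heckeCoh N ⟨ℓ, Fact.out⟩ (corCoh N q ψ) := by
  have hq : q ≠ 0 := (Fact.out : q.Prime).ne_zero
  have hN : N ≠ 0 := fun e => hqN (e ▸ dvd_zero q)
  have : NeZero (N * q) := ⟨mul_ne_zero hN hq⟩
  -- the two sides agree after restriction
  have key : resCoh N q (corCoh N q (heckeCoh (N * q) ⟨ℓ, Fact.out⟩ ψ))
      = resCoh N q (heckeCoh N ⟨ℓ, Fact.out⟩ (corCoh N q ψ)) := by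
    have ea := heckeCoh_add (N * q) (⟨ℓ, Fact.out⟩ : Nat.Primes) ψ
      (heckeCoh (N * q) ⟨q, Fact.out⟩ (wCoh N q ψ))
    rw [resCoh_corCoh' hqN, resCoh_heckeCoh hℓ, resCoh_corCoh' hqN, ea, wCoh_heckeCoh hqN hℓ]
    congr 1
    have hc := congrArg (fun T => T (⟨wCoh N q ψ, isPEHom_wCoh N q hψ⟩ : peHoms (Gamma0 (N * q)) R R))
      (heckePE_comm (N * q) R ⟨q, Fact.out⟩ ⟨ℓ, Fact.out⟩).eq
    exact congrArg Subtype.val hc
  have key2 := congrArg (corCoh N q) key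
  rw [corCoh_resCoh' hqN, corCoh_resCoh' hqN] at key2
  refine AddMonoidHom.ext fun γ => ?_
  have e := congrArg (fun f : Additive (Gamma0 N) →+ R => f γ) key2
  simp only [AddMonoidHom.nsmul_apply] at e
  have e' : (q + 1) • (corCoh N q (heckeCoh (N * q) ⟨ℓ, Fact.out⟩ ψ) γ
      - heckeCoh N ⟨ℓ, Fact.out⟩ (corCoh N q ψ) γ) = 0 := by
    rw [smul_sub, e, sub_self]
  exact sub_eq_zero.mp (hR _ e')

/-- `(cor ∘ w) ∘ T_ℓ = T_ℓ ∘ (cor ∘ w)`. -/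
theorem corCoh_wCoh_heckeCoh (hqN : ¬ q ∣ N) (hℓ : ¬ ℓ ∣ N * q)
    (hR : ∀ x : R, (q + 1) • x = 0 → x = 0)
    {ψ : Additive (Gamma0 (N * q)) →+ R} (hψ : IsPEHom (Gamma0 (N * q)) ψ) :
    corCoh N q (wCoh N q (heckeCoh (N * q) ⟨ℓ, Fact.out⟩ ψ))
      = heckeCoh N ⟨ℓ, Fact.out⟩ (corCoh N q (wCoh N q ψ)) := by
  rw [wCoh_heckeCoh hqN hℓ, corCoh_heckeCoh hqN hℓ hR (isPEHom_wCoh N q hψ)]

/-- `(w ∘ res) ∘ T_ℓ = T_ℓ ∘ (w ∘ res)`. -/
theorem wCoh_resCoh_heckeCoh {A : Type*} [AddCommGroup A] (hqN : ¬ q ∣ N) (hℓ : ¬ ℓ ∣ N * q)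
    (φ : Additive (Gamma0 N) →+ A) :
    wCoh N q (resCoh N q (heckeCoh N ⟨ℓ, Fact.out⟩ φ))
      = heckeCoh (N * q) ⟨ℓ, Fact.out⟩ (wCoh N q (resCoh N q φ)) := by
  rw [resCoh_heckeCoh hℓ, wCoh_heckeCoh hqN hℓ]

end Cor

end

end Fermat.Agent.S41.Coh
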