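import Mathlib
import Fermat.Agent.S41.Coh.CoreData
import Fermat.Agent.S41.Coh.Commute
import Fermat.Agent.S41.Core
import Fermat.Agent.S41.DualIhara
import Fermat.Prelude.Def_FLTPrelim_ModularRep

/-!
# S41 : the instantiation of `Core.exists_new_eigenvector` with the cohomological objects

* `resPE_heckePE`, `wPE_heckePE`, `corPE_heckePE` : `Commute.lean` in `peHoms` form;
* `rhoPE M : CuspForm.heckeAlgebra M 2 ∅ →+* Module.End ℂ (VC M)` : the action of the Prelude's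
  Hecke algebra on `V_M` through the Eichler–Shimura isomorphism, with
  `rhoPE M (heckeFormsGen M 2 ℓ) = heckePE M ℓ ℂ ℂ`;
* `T0 N q`, `jT0`, `rho1` : the abstract Hecke ring away from `N q` and its two actions;
* `exists_new_eigenvector_lat` / `exists_new_eigenvector_modp` : Core instantiated.
-/

set_option autoImplicit false

open scoped MatrixGroups
open CongruenceSubgroup ModularForm

namespace Fermat.Agent.S41.Coh

open Fermat.Agent.ESJ.ParHom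

noncomputable section

/-! ### `Commute.lean` in `peHoms` form -/

section CommutePE

variable {N q : ℕ} [Fact q.Prime]

omit [Fact q.Prime] in
theorem resPE_heckePE (R : Type*) [Semiring R] (A : Type*) [AddCommGroup A] [Module R A]
    (ℓ : Nat.Primes) (hℓ : ¬ (ℓ : ℕ) ∣ N * q) (φ : peHoms (Gamma0 N) R A) :
    resPE N q R A (heckePE N ℓ R A φ) = heckePE (N * q) ℓ R A (resPE N q R A φ) := by
  have : Fact (ℓ : ℕ).Prime := ⟨ℓ.2⟩
  exact Subtype.ext (resCoh_heckeCoh (ℓ := (ℓ : ℕ)) hℓ _)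

theorem wPE_heckePE (R : Type*) [Semiring R] (A : Type*) [AddCommGroup A] [Module R A]
    (hqN : ¬ q ∣ N) (ℓ : Nat.Primes) (hℓ : ¬ (ℓ : ℕ) ∣ N * q) (ψ : peHoms (Gamma0 (N * q)) R A) :
    wPE N q R A (heckePE (N * q) ℓ R A ψ) = heckePE (N * q) ℓ R A (wPE N q R A ψ) := by
  have : Fact (ℓ : ℕ).Prime := ⟨ℓ.2⟩
  exact Subtype.ext (wCoh_heckeCoh (ℓ := (ℓ : ℕ)) hqN hℓ _)

theorem corPE_heckePE (R : Type*) [CommRing R] (hR : ∀ x : R, (q + 1) • x = 0 → x = 0)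
    (hqN : ¬ q ∣ N) (ℓ : Nat.Primes) (hℓ : ¬ (ℓ : ℕ) ∣ N * q) (ψ : peHoms (Gamma0 (N * q)) R R) :
    corPE N q R R (heckePE (N * q) ℓ R R ψ) = heckePE N ℓ R R (corPE N q R R ψ) := by
  have : Fact (ℓ : ℕ).Prime := ⟨ℓ.2⟩
  exact Subtype.ext (corCoh_heckeCoh (ℓ := (ℓ : ℕ)) hqN hℓ hR ψ.2)

end CommutePE

/-! ### The action of the Hecke algebra of forms on `V_M` -/

section Rho

variable (M : ℕ) [NeZero M]

/-- Transport of endomorphisms of `S₂(Γ₀(M))` to `V_M` through Eichler–Shimura: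
`e ↦ periodEquiv ∘ (e × e) ∘ periodEquiv⁻¹`. -/
def rhoEnd : Module.End ℂ (CuspForm (Gamma0 M) 2) →+* Module.End ℂ (VC M) :=
  ((periodEquiv M).conjRingEquiv.toRingHom).comp
    ((LinearMap.prodMapRingHom ℂ (CuspForm (Gamma0 M) 2) (CuspForm (Gamma0 M) 2)).comp
      ((RingHom.id _).prod (RingHom.id _)))

theorem rhoEnd_apply (e : Module.End ℂ (CuspForm (Gamma0 M) 2))
    (x : CuspForm (Gamma0 M) 2 × CuspForm (Gamma0 M) 2) :
    rhoEnd M e (periodEquiv M x) = periodEquiv M (e x.1, e x.2) := by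
  simp [rhoEnd]

/-- The action of the Prelude's Hecke algebra on `V_M`. -/
def rhoPE : CuspForm.heckeAlgebra M 2 (∅ : Set ℕ) →+* Module.End ℂ (VC M) :=
  (rhoEnd M).comp (CuspForm.heckeAlgebra M 2 (∅ : Set ℕ)).val.toRingHom

theorem rhoPE_apply (t : CuspForm.heckeAlgebra M 2 (∅ : Set ℕ))
    (x : CuspForm (Gamma0 M) 2 × CuspForm (Gamma0 M) 2) :
    rhoPE M t (periodEquiv M x)
      = periodEquiv M ((t : Module.End ℂ (CuspForm (Gamma0 M) 2)) x.1,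
          (t : Module.End ℂ (CuspForm (Gamma0 M) 2)) x.2) :=
  rhoEnd_apply M _ x

theorem rhoEnd_heckeS2 (ℓ : Nat.Primes) : rhoEnd M (heckeS2 M ℓ) = heckePE M ℓ ℂ ℂ := by
  refine LinearMap.ext fun ψ => ?_
  obtain ⟨x, rfl⟩ := (periodEquiv M).surjective ψ
  rw [rhoEnd_apply]
  exact periodEquiv_hecke M ℓ x

theorem rhoPE_heckeFormsGen (ℓ : Nat.Primes) :
    rhoPE M (CuspForm.heckeFormsGen M 2 ℓ) = heckePE M ℓ ℂ ℂ :=
  rhoEnd_heckeS2 M ℓ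

/-- The Hecke algebra preserves the lattice of integral classes. -/
theorem rhoPE_mem_latC (t : CuspForm.heckeAlgebra M 2 (∅ : Set ℕ)) {x : VC M}
    (hx : x ∈ latC M) : rhoPE M t x ∈ latC M := by
  have key : ∀ e ∈ CuspForm.heckeAlgebra M 2 (∅ : Set ℕ), ∀ x ∈ latC M,
      rhoEnd M e x ∈ latC M := by
    intro e he
    unfold CuspForm.heckeAlgebra at he
    induction he using Algebra.adjoin_induction with
    | mem e he =>
      intro x hx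
      rcases he with ⟨ℓ, hℓ, hℓN, -, rfl⟩ | ⟨ℓ, hℓN, hℓ, -, rfl⟩
      · let ℓ' : Nat.Primes := ⟨ℓ, hℓ⟩
        have h0 : heckeS2 M ℓ' = CuspForm.heckeTLin 2 hℓ hℓN := by
          have hnd : ¬ (ℓ' : ℕ) ∣ M := hℓN
          show ((CuspForm.heckeFormsGen M 2 ℓ' : CuspForm.heckeAlgebra M 2 (∅ : Set ℕ)) :
            Module.End ℂ (CuspForm (Gamma0 M) 2)) = _
          rw [CuspForm.heckeFormsGen_of_not_dvd hnd, CuspForm.heckeAlgebra.coe_T]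
        rw [← h0, rhoEnd_heckeS2]
        exact heckePE_mem_latC M _ hx
      · let ℓ' : Nat.Primes := ⟨ℓ, hℓ⟩
        have h0 : heckeS2 M ℓ' = CuspForm.heckeULin 2 hℓN := by
          have hd : (ℓ' : ℕ) ∣ M := hℓN
          show ((CuspForm.heckeFormsGen M 2 ℓ' : CuspForm.heckeAlgebra M 2 (∅ : Set ℕ)) :
            Module.End ℂ (CuspForm (Gamma0 M) 2)) = _
          rw [CuspForm.heckeFormsGen_of_dvd hd, CuspForm.heckeAlgebra.coe_U]
        rw [← h0, rhoEnd_heckeS2]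
        exact heckePE_mem_latC M _ hx
    | algebraMap n =>
      intro x hx
      rw [eq_intCast, map_intCast, Module.End.intCast_apply]
      exact (latC M).smul_mem n hx
    | add a b _ _ ha hb =>
      intro x hx
      rw [map_add, LinearMap.add_apply]
      exact (latC M).add_mem (ha x hx) (hb x hx)
    | mul a b _ _ ha hb =>
      intro x hx
      rw [map_mul, Module.End.mul_apply]
      exact ha _ (hb x hx)
  exact key _ t.2 x hx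

end Rho

/-! ### The abstract Hecke ring away from `N q` -/

/-- A linear map intertwining the generators of two actions of a polynomial ring intertwines
the actions. -/
theorem intertwine_mvPolynomial {σ : Type*} {V V' : Type*} [AddCommGroup V] [Module ℂ V]
    [AddCommGroup V'] [Module ℂ V'] (r₁ : MvPolynomial σ ℤ →+* Module.End ℂ V)
    (r₂ : MvPolynomial σ ℤ →+* Module.End ℂ V') (α : V →ₗ[ℂ] V')
    (h : ∀ (i : σ) (x : V), α (r₁ (MvPolynomial.X i) x) = r₂ (MvPolynomial.X i) (α x))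
    (t : MvPolynomial σ ℤ) (x : V) : α (r₁ t x) = r₂ t (α x) := by
  induction t using MvPolynomial.induction_on generalizing x with
  | C a =>
    have e1 : r₁ (MvPolynomial.C a) = (a : Module.End ℂ V) := eq_intCast (r₁.comp MvPolynomial.C) a
    have e2 : r₂ (MvPolynomial.C a) = (a : Module.End ℂ V') :=
      eq_intCast (r₂.comp MvPolynomial.C) a
    rw [e1, e2, Module.End.intCast_apply, Module.End.intCast_apply, map_zsmul]
  | add p q hp hq =>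
    rw [map_add, map_add, LinearMap.add_apply, LinearMap.add_apply, map_add, hp, hq]
  | mul_X p i hp =>
    rw [map_mul, map_mul, Module.End.mul_apply, Module.End.mul_apply, hp, h]

/-- The abstract Hecke ring generated by the `T_ℓ`, `ℓ ∤ N q`. -/
abbrev T0 (N q : ℕ) : Type := MvPolynomial {ℓ : Nat.Primes // ¬ (ℓ : ℕ) ∣ N * q} ℤ

/-- `T0 N q → 𝕋(M)`, `X_ℓ ↦ T_ℓ` (for any level `M`). -/
def jT0 (N q M : ℕ) [NeZero M] : T0 N q →+* CuspForm.heckeAlgebra M 2 (∅ : Set ℕ) :=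
  (MvPolynomial.aeval fun ℓ : {ℓ : Nat.Primes // ¬ (ℓ : ℕ) ∣ N * q} =>
    CuspForm.heckeFormsGen M 2 ℓ.1).toRingHom

theorem jT0_X (N q M : ℕ) [NeZero M] (ℓ : {ℓ : Nat.Primes // ¬ (ℓ : ℕ) ∣ N * q}) :
    jT0 N q M (MvPolynomial.X ℓ) = CuspForm.heckeFormsGen M 2 ℓ.1 :=
  MvPolynomial.aeval_X _ ℓ

theorem jT0_C (N q M : ℕ) [NeZero M] (a : ℤ) :
    jT0 N q M (MvPolynomial.C a) = (a : CuspForm.heckeAlgebra M 2 (∅ : Set ℕ)) := by
  have h : jT0 N q M (MvPolynomial.C a) = algebraMap ℤ _ a := MvPolynomial.aeval_C _ a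
  rw [h, eq_intCast]

/-- The action of `T0 N q` on `V_M`. -/
def rhoT0 (N q M : ℕ) [NeZero M] : T0 N q →+* Module.End ℂ (VC M) := (rhoPE M).comp (jT0 N q M)

theorem rhoT0_X (N q M : ℕ) [NeZero M] (ℓ : {ℓ : Nat.Primes // ¬ (ℓ : ℕ) ∣ N * q}) :
    rhoT0 N q M (MvPolynomial.X ℓ) = heckePE M ℓ.1 ℂ ℂ := by
  show rhoPE M (jT0 N q M (MvPolynomial.X ℓ)) = _
  rw [jT0_X, rhoPE_heckeFormsGen]

theorem rhoT0_mem_latC (N q M : ℕ) [NeZero M] (t : T0 N q) {x : VC M} (hx : x ∈ latC M) :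
    rhoT0 N q M t x ∈ latC M :=
  rhoPE_mem_latC M _ hx

/-- `e_ℓ = T_ℓ - (ℓ + 1)` in the abstract Hecke ring. -/
def eisT0 (N q : ℕ) (ℓ : {ℓ : Nat.Primes // ¬ (ℓ : ℕ) ∣ N * q}) : T0 N q :=
  MvPolynomial.X ℓ - MvPolynomial.C (((ℓ.1 : ℕ) : ℤ) + 1)

theorem rhoT0_eisT0 (N q M : ℕ) [NeZero M] (ℓ : {ℓ : Nat.Primes // ¬ (ℓ : ℕ) ∣ N * q})
    (x : VC M) :
    rhoT0 N q M (eisT0 N q ℓ) x = heckePE M ℓ.1 ℂ ℂ x - (((ℓ.1 : ℕ) : ℤ) + 1) • x := by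
  have e2 : rhoT0 N q M (MvPolynomial.C (((ℓ.1 : ℕ) : ℤ) + 1))
      = ((((ℓ.1 : ℕ) : ℤ) + 1 : ℤ) : Module.End ℂ (VC M)) :=
    eq_intCast ((rhoT0 N q M).comp MvPolynomial.C) _
  rw [eisT0, map_sub, LinearMap.sub_apply, rhoT0_X, e2, Module.End.intCast_apply]

/-! ### Core, instantiated -/

section Main

open Fermat.Agent.ESJ.Rep

variable {N q : ℕ} [NeZero N] [Fact q.Prime]

/-- **Ribet's level raising for the cohomology of `Γ₀(N) ⊃ Γ₀(N q)`** (`Core.exists_new_eigenvector`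
with the concrete objects), Ihara's lemma and its dual in lattice form. -/
theorem exists_new_eigenvector_lat (hqN : ¬ q ∣ N) {p : ℕ} (hp0 : p ≠ 0)
    {f : CuspForm (Gamma0 N) 2} (hf : f.IsNormalizedEigenform)
    (𝔪 : Ideal (integralClosure ℤ ℂ)) [𝔪.IsMaximal] (hp𝔪 : (p : integralClosure ℤ ℂ) ∈ 𝔪)
    (hLR : ∃ a : integralClosure ℤ ℂ, (a : ℂ) = ModularFormClass.qCoeff (⇑f) q ∧
      a ^ 2 - ((q : integralClosure ℤ ℂ) + 1) ^ 2 ∈ 𝔪)
    (ℓ₁ ℓ₂ : {ℓ : Nat.Primes // ¬ (ℓ : ℕ) ∣ N * q})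
    (h₁ : ∀ a : integralClosure ℤ ℂ, (a : ℂ) = ModularFormClass.qCoeff (⇑f) (ℓ₁.1 : ℕ) →
      a - (((ℓ₁.1 : ℕ) : integralClosure ℤ ℂ) + 1) ∉ 𝔪)
    (h₂ : ∀ a : integralClosure ℤ ℂ, (a : ℂ) = ModularFormClass.qCoeff (⇑f) (ℓ₂.1 : ℕ) →
      a - (((ℓ₂.1 : ℕ) : integralClosure ℤ ℂ) + 1) ∉ 𝔪)
    (ihara : ∀ x ∈ latC N, ∀ y ∈ latC N,
      (∃ z ∈ latC (N * q), resPE N q ℂ ℂ x + wPE N q ℂ ℂ (resPE N q ℂ ℂ y) = (p : ℤ) • z) →
      (∃ x' ∈ latC N, heckePE N ℓ₁.1 ℂ ℂ x - (((ℓ₁.1 : ℕ) : ℤ) + 1) • x = (p : ℤ) • x') ∧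
        ∃ y' ∈ latC N, heckePE N ℓ₁.1 ℂ ℂ y - (((ℓ₁.1 : ℕ) : ℤ) + 1) • y = (p : ℤ) • y')
    (dual : ∀ x ∈ latC N, ∀ y ∈ latC N, ∃ z ∈ latC (N * q), ∃ x' ∈ latC N, ∃ y' ∈ latC N,
      heckePE N ℓ₂.1 ℂ ℂ x - (((ℓ₂.1 : ℕ) : ℤ) + 1) • x = corPE N q ℂ ℂ z + (p : ℤ) • x' ∧
      heckePE N ℓ₂.1 ℂ ℂ y - (((ℓ₂.1 : ℕ) : ℤ) + 1) • y
        = corPE N q ℂ ℂ (wPE N q ℂ ℂ z) + (p : ℤ) • y') :
    ∃ (w : VC (N * q))
      (θ' : CuspForm.heckeAlgebra (N * q) 2 (∅ : Set ℕ) →+* integralClosure ℤ ℂ)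
      (𝔪' : Ideal (integralClosure ℤ ℂ)),
      w ≠ 0 ∧ (∀ t, rhoPE (N * q) t w = ((θ' t : integralClosure ℤ ℂ) : ℂ) • w) ∧
      𝔪'.IsMaximal ∧ (p : integralClosure ℤ ℂ) ∈ 𝔪' ∧
      (∀ t : T0 N q, EigChar.chi hf (jT0 N q N t) ∈ 𝔪 → θ' (jT0 N q (N * q) t) ∈ 𝔪') ∧
      θ' (CuspForm.heckeFormsGen (N * q) 2 ⟨q, Fact.out⟩) ^ 2 = 1 := by
  classical
  set Q : Nat.Primes := ⟨q, Fact.out⟩ with hQ
  obtain ⟨a, ha, haLR⟩ := hLR
  have hchiQ : ((EigChar.chi hf (CuspForm.heckeFormsGen N 2 Q) : integralClosure ℤ ℂ) : ℂ)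
      = ModularFormClass.qCoeff (⇑f) q := by
    rw [EigChar.coe_chi, EigChar.chiC_heckeFormsGen]
  have hsa : EigChar.chi hf (CuspForm.heckeFormsGen N 2 Q) = a :=
    Subtype.ext (hchiQ.trans ha.symm)
  have hR : ∀ x : ℂ, (q + 1) • x = 0 → x = 0 := by
    intro x hx
    rw [nsmul_eq_mul] at hx
    rcases mul_eq_zero.mp hx with h | h
    · exact absurd h (by exact_mod_cast Nat.succ_ne_zero q)
    · exact h
  have hc1 : ∀ x : VC N, ((q : ℤ) + 1) • x = (q + 1) • x := by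
    intro x
    rw [← natCast_zsmul]
    push_cast
    rfl
  have hS : ∀ t, Commute (rhoT0 N q N t) (heckePE N Q ℂ ℂ) := by
    intro t
    rw [← rhoPE_heckeFormsGen N Q]
    exact (Commute.all (jT0 N q N t) _).map (rhoPE N)
  have hα₁ρ : ∀ (t : T0 N q) (x : VC N),
      resPE N q ℂ ℂ (rhoT0 N q N t x) = rhoT0 N q (N * q) t (resPE N q ℂ ℂ x) :=
    intertwine_mvPolynomial (rhoT0 N q N) (rhoT0 N q (N * q)) (resPE N q ℂ ℂ) (fun ℓ x => by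
      rw [rhoT0_X, rhoT0_X]
      exact resPE_heckePE ℂ ℂ ℓ.1 ℓ.2 x)
  have hwρ : ∀ (t : T0 N q) (x : VC (N * q)),
      wPE N q ℂ ℂ (rhoT0 N q (N * q) t x) = rhoT0 N q (N * q) t (wPE N q ℂ ℂ x) :=
    intertwine_mvPolynomial (rhoT0 N q (N * q)) (rhoT0 N q (N * q)) (wPE N q ℂ ℂ) (fun ℓ x => by
      rw [rhoT0_X]
      exact wPE_heckePE ℂ ℂ hqN ℓ.1 ℓ.2 x)
  have hβ₁ρ : ∀ (t : T0 N q) (z : VC (N * q)),
      corPE N q ℂ ℂ (rhoT0 N q (N * q) t z) = rhoT0 N q N t (corPE N q ℂ ℂ z) :=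
    intertwine_mvPolynomial (rhoT0 N q (N * q)) (rhoT0 N q N) (corPE N q ℂ ℂ) (fun ℓ x => by
      rw [rhoT0_X, rhoT0_X]
      exact corPE_heckePE ℂ hR hqN ℓ.1 ℓ.2 x)
  have hθ : ∀ t : T0 N q, rhoT0 N q N t (eigVec N f)
      = ((((EigChar.chi hf).comp (jT0 N q N)) t : integralClosure ℤ ℂ) : ℂ) • eigVec N f := by
    intro t
    show rhoPE N (jT0 N q N t) (periodEquiv N (f, 0)) = _
    rw [rhoPE_apply]
    simp only [map_zero]
    rw [EigChar.apply_eq_chiC_smul hf, eigVec, ← map_smul, Prod.smul_mk, smul_zero]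
    rfl
  have hs : heckePE N Q ℂ ℂ (eigVec N f)
      = ((EigChar.chi hf (CuspForm.heckeFormsGen N 2 Q) : integralClosure ℤ ℂ) : ℂ)
        • eigVec N f := by
    rw [hchiQ]
    exact heckePE_eigVec hf Q
  have hLR' : EigChar.chi hf (CuspForm.heckeFormsGen N 2 Q) ^ 2
      - ((((q : ℤ) + 1 : ℤ)) : integralClosure ℤ ℂ) ^ 2 ∈ 𝔪 := by
    rw [hsa]
    have e : ((((q : ℤ) + 1 : ℤ)) : integralClosure ℤ ℂ) = (q : integralClosure ℤ ℂ) + 1 := by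
      push_cast
      rfl
    rw [e]
    exact haLR
  have he : ∀ ℓ : {ℓ : Nat.Primes // ¬ (ℓ : ℕ) ∣ N * q},
      (∀ a : integralClosure ℤ ℂ, (a : ℂ) = ModularFormClass.qCoeff (⇑f) (ℓ.1 : ℕ) →
        a - (((ℓ.1 : ℕ) : integralClosure ℤ ℂ) + 1) ∉ 𝔪) →
      ((EigChar.chi hf).comp (jT0 N q N)) (eisT0 N q ℓ) ∉ 𝔪 := by
    intro ℓ h
    have e : ((EigChar.chi hf).comp (jT0 N q N)) (eisT0 N q ℓ)
        = EigChar.chi hf (CuspForm.heckeFormsGen N 2 ℓ.1)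
          - (((ℓ.1 : ℕ) : integralClosure ℤ ℂ) + 1) := by
      rw [RingHom.comp_apply, eisT0, map_sub, jT0_X, jT0_C, map_sub, map_intCast]
      push_cast
      rfl
    rw [e]
    exact h _ (by rw [EigChar.coe_chi, EigChar.chiC_heckeFormsGen])
  exact Fermat.Agent.S41.Core.exists_new_eigenvector (jT0 N q (N * q)) (rhoT0 N q N)
    (rhoPE (N * q)) (heckePE N Q ℂ ℂ) hS (latC N) (latC_fg N) (span_latC N)
    (fun t x hx => rhoT0_mem_latC N q N t hx) (fun x hx => heckePE_mem_latC N Q hx)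
    (latC (N * q)) (latC_fg (N * q)) (fun t z hz => rhoPE_mem_latC (N * q) t hz)
    (resPE N q ℂ ℂ) ((wPE N q ℂ ℂ).comp (resPE N q ℂ ℂ)) (corPE N q ℂ ℂ)
    ((corPE N q ℂ ℂ).comp (wPE N q ℂ ℂ))
    (fun x hx => resPE_mem_latC N q hx) (fun x hx => wPE_mem_latC N q (resPE_mem_latC N q hx))
    (fun z hz => corPE_mem_latC N q hz) (fun z hz => corPE_mem_latC N q (wPE_mem_latC N q hz))
    (fun t x _ => hα₁ρ t x)
    (fun t x _ => by
      show wPE N q ℂ ℂ (resPE N q ℂ ℂ (rhoT0 N q N t x)) = _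
      rw [hα₁ρ, hwρ]
      rfl)
    (fun t z _ => hβ₁ρ t z)
    (fun t z _ => by
      show corPE N q ℂ ℂ (wPE N q ℂ ℂ (rhoT0 N q (N * q) t z)) = _
      rw [hwρ, hβ₁ρ]
      rfl)
    ((q : ℤ) + 1)
    (fun x _ => by rw [hc1]; exact corPE_resPE ℂ ℂ hqN x)
    (fun x _ => by rw [hc1]; exact corPE_wPE_wPE_resPE ℂ ℂ hqN x)
    (fun x _ => corPE_wPE_resPE ℂ ℂ hqN x)
    (fun x _ => corPE_wPE_resPE ℂ ℂ hqN x)
    (CuspForm.heckeFormsGen (N * q) 2 Q)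
    (fun z _ h1 h2 => by
      rw [rhoPE_heckeFormsGen]
      exact heckePE_heckePE_of_corPE_eq_zero ℂ ℂ hqN z h1 h2)
    p hp0 (eigVec N f) (eigVec_ne_zero hf.ne_zero) ((EigChar.chi hf).comp (jT0 N q N)) hθ
    (EigChar.chi hf (CuspForm.heckeFormsGen N 2 Q)) hs 𝔪 hp𝔪 hLR'
    (eisT0 N q ℓ₁) (eisT0 N q ℓ₂) (he ℓ₁ h₁) (he ℓ₂ h₂)
    (fun x hx y hy hz => by
      rw [rhoT0_eisT0, rhoT0_eisT0]
      exact ihara x hx y hy hz)
    (fun x hx y hy => by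
      rw [rhoT0_eisT0, rhoT0_eisT0]
      exact dual x hx y hy)

/-! ### Ihara's lemma and its dual: from the forms modulo `p` to the lattice forms -/

omit [NeZero N] [Fact q.Prime] in
theorem redP_eis (p : ℕ) (ℓ : Nat.Primes) (x : latC N)
    (h : heckePE N ℓ ℂ ℂ (x : VC N) - (((ℓ : ℕ) : ℤ) + 1) • (x : VC N) ∈ latC N) :
    redP N p ⟨heckePE N ℓ ℂ ℂ (x : VC N) - (((ℓ : ℕ) : ℤ) + 1) • (x : VC N), h⟩
      = heckePE N ℓ (ZMod p) (ZMod p) (redP N p x) - ((ℓ : ℕ) + 1) • redP N p x := by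
  have hh : heckePE N ℓ ℂ ℂ (x : VC N) ∈ latC N := heckePE_mem_latC N ℓ x.2
  have e : (⟨heckePE N ℓ ℂ ℂ (x : VC N) - (((ℓ : ℕ) : ℤ) + 1) • (x : VC N), h⟩ : latC N)
      = ⟨heckePE N ℓ ℂ ℂ (x : VC N), hh⟩ - (((ℓ : ℕ) : ℤ) + 1) • x := Subtype.ext rfl
  rw [e, map_sub, map_zsmul, redP_heckePE]
  congr 1
  rw [← natCast_zsmul]
  push_cast
  rfl

omit [Fact q.Prime] in
/-- **Ihara's lemma**: from the form modulo `p` (e.g. `Ihara.Eis.ihara_modp_sub`) to the lattice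
form consumed by `exists_new_eigenvector_lat`. -/
theorem ihara_lat_of_modp (p : ℕ) (ℓ : Nat.Primes)
    (h : ∀ a b : peHoms (Gamma0 N) (ZMod p) (ZMod p),
      resPE N q (ZMod p) (ZMod p) a
        + wPE N q (ZMod p) (ZMod p) (resPE N q (ZMod p) (ZMod p) b) = 0 →
      heckePE N ℓ (ZMod p) (ZMod p) a - ((ℓ : ℕ) + 1) • a = 0 ∧
        heckePE N ℓ (ZMod p) (ZMod p) b - ((ℓ : ℕ) + 1) • b = 0) :
    ∀ x ∈ latC N, ∀ y ∈ latC N,
      (∃ z ∈ latC (N * q), resPE N q ℂ ℂ x + wPE N q ℂ ℂ (resPE N q ℂ ℂ y) = (p : ℤ) • z) →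
      (∃ x' ∈ latC N, heckePE N ℓ ℂ ℂ x - (((ℓ : ℕ) : ℤ) + 1) • x = (p : ℤ) • x') ∧
        ∃ y' ∈ latC N, heckePE N ℓ ℂ ℂ y - (((ℓ : ℕ) : ℤ) + 1) • y = (p : ℤ) • y' :=
  Fermat.Agent.S41.DualIhara.ihara_of_reduction (latC N) (latC (N * q)) p
    (fun x => resPE N q ℂ ℂ x) (fun x => wPE N q ℂ ℂ (resPE N q ℂ ℂ x))
    (fun x => heckePE N ℓ ℂ ℂ x - (((ℓ : ℕ) : ℤ) + 1) • x)
    (fun x hx => (latC N).sub_mem (heckePE_mem_latC N ℓ hx) ((latC N).smul_mem _ hx))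
    (redP N p) (redP (N * q) p) (fun x hx => exists_eq_smul_of_redP_eq_zero x hx)
    (fun z => redP_smul z)
    (fun a => resPE N q (ZMod p) (ZMod p) a)
    (fun a => wPE N q (ZMod p) (ZMod p) (resPE N q (ZMod p) (ZMod p) a))
    (fun a => heckePE N ℓ (ZMod p) (ZMod p) a - ((ℓ : ℕ) + 1) • a)
    (fun x hx => resPE_mem_latC N q hx) (fun x hx => wPE_mem_latC N q (resPE_mem_latC N q hx))
    (fun x hmem => redP_resPE N q p x hmem)
    (fun x hmem => by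
      have h1 : resPE N q ℂ ℂ (x : VC N) ∈ latC (N * q) := resPE_mem_latC N q x.2
      have h2 := redP_wPE N q p ⟨resPE N q ℂ ℂ (x : VC N), h1⟩ hmem
      rw [redP_resPE] at h2
      exact h2)
    (fun x hmem => redP_eis p ℓ x hmem) h

/-- **Dual Ihara**: from the form modulo `p` to the lattice form consumed by
`exists_new_eigenvector_lat`. -/
theorem dual_lat_of_modp (p : ℕ) (ℓ : Nat.Primes)
    (h : ∀ a b : peHoms (Gamma0 N) (ZMod p) (ZMod p),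
      ∃ z : peHoms (Gamma0 (N * q)) (ZMod p) (ZMod p),
        heckePE N ℓ (ZMod p) (ZMod p) a - ((ℓ : ℕ) + 1) • a = corPE N q (ZMod p) (ZMod p) z ∧
        heckePE N ℓ (ZMod p) (ZMod p) b - ((ℓ : ℕ) + 1) • b
          = corPE N q (ZMod p) (ZMod p) (wPE N q (ZMod p) (ZMod p) z)) :
    ∀ x ∈ latC N, ∀ y ∈ latC N, ∃ z ∈ latC (N * q), ∃ x' ∈ latC N, ∃ y' ∈ latC N,
      heckePE N ℓ ℂ ℂ x - (((ℓ : ℕ) : ℤ) + 1) • x = corPE N q ℂ ℂ z + (p : ℤ) • x' ∧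
      heckePE N ℓ ℂ ℂ y - (((ℓ : ℕ) : ℤ) + 1) • y
        = corPE N q ℂ ℂ (wPE N q ℂ ℂ z) + (p : ℤ) • y' :=
  Fermat.Agent.S41.DualIhara.dual_of_reduction (latC N) (latC (N * q)) p
    (fun z => corPE N q ℂ ℂ z) (fun z => corPE N q ℂ ℂ (wPE N q ℂ ℂ z))
    (fun x => heckePE N ℓ ℂ ℂ x - (((ℓ : ℕ) : ℤ) + 1) • x)
    (fun x hx => (latC N).sub_mem (heckePE_mem_latC N ℓ hx) ((latC N).smul_mem _ hx))
    (redP N p) (redP (N * q) p) (fun x hx => exists_eq_smul_of_redP_eq_zero x hx)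
    (redP_surjective (N * q) p)
    (fun z => corPE N q (ZMod p) (ZMod p) z)
    (fun z => corPE N q (ZMod p) (ZMod p) (wPE N q (ZMod p) (ZMod p) z))
    (fun a => heckePE N ℓ (ZMod p) (ZMod p) a - ((ℓ : ℕ) + 1) • a)
    (fun z hz => corPE_mem_latC N q hz) (fun z hz => corPE_mem_latC N q (wPE_mem_latC N q hz))
    (fun z hmem => redP_corPE N q p z hmem)
    (fun z hmem => by
      have h1 : wPE N q ℂ ℂ (z : VC (N * q)) ∈ latC (N * q) := wPE_mem_latC N q z.2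
      have h2 := redP_corPE N q p ⟨wPE N q ℂ ℂ (z : VC (N * q)), h1⟩ hmem
      rw [redP_wPE] at h2
      exact h2)
    (fun x hmem => redP_eis p ℓ x hmem) h

end Main

end

end Fermat.Agent.S41.Coh
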