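import Mathlib
import Fermat.Agent.S49.Eigenform

/-!
# S41 / WP-F : normalised eigenform from a Hecke eigenvector, with the `U_ℓ`-eigenvalues

`exists_normalized_eigenform_full` : the theorem `S49.exists_normalized_eigenform` with the extra
conclusion `qCoeff g ℓ = θ (U_ℓ)` for the primes `ℓ ∣ N` (needed for `IsNewAt`).
The proof is the proof of S49 (helper's `S49/Eigenform.lean`) with the `U`-eigenvalue recorded.
-/

set_option autoImplicit false

open CongruenceSubgroup ModularFormClass UpperHalfPlane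

namespace Fermat.Agent.S41.Coh

open Fermat.Agent.S49

variable {N : ℕ}

/-- A nonzero simultaneous eigenvector of the full Hecke algebra can be normalised to a
normalised eigenform whose `ℓ`-th coefficient is the `T_ℓ`-eigenvalue. -/
theorem exists_normalized_eigenform_full [NeZero N] {v : CuspForm (Gamma0 N) 2} (hv : v ≠ 0)
    {θ : CuspForm.heckeAlgebra N 2 ∅ →+* ℂ}
    (heig : ∀ t : CuspForm.heckeAlgebra N 2 ∅,
      (t : Module.End ℂ (CuspForm (Gamma0 N) 2)) v = θ t • v) :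
    ∃ g : CuspForm (Gamma0 N) 2, g.IsNormalizedEigenform ∧
      (∀ (ℓ : ℕ) (hℓ : ℓ.Prime) (hℓN : ¬ ℓ ∣ N),
        qCoeff (⇑g) ℓ = θ (CuspForm.heckeAlgebra.T hℓ hℓN (Set.notMem_empty ℓ))) ∧
      ∀ (ℓ : ℕ) (hℓ : ℓ.Prime) (hℓN : ℓ ∣ N),
        qCoeff (⇑g) ℓ = θ (CuspForm.heckeAlgebra.U hℓ hℓN (Set.notMem_empty ℓ)) := by
  set e' : ℕ → ℂ := fun ℓ => if ℓ ∣ N then 0 else (ℓ : ℂ) with he'
  -- the eigen-relations on the coefficients of `v`
  have hrel : ∀ ℓ : ℕ, ℓ.Prime → ∃ lam : ℂ,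
      (∀ n : ℕ, qCoeff (⇑v) (ℓ * n) + e' ℓ * (if ℓ ∣ n then qCoeff (⇑v) (n / ℓ) else 0) =
        lam * qCoeff (⇑v) n) ∧
      (∀ (hℓ : ℓ.Prime) (hℓN : ¬ ℓ ∣ N),
        lam = θ (CuspForm.heckeAlgebra.T hℓ hℓN (Set.notMem_empty ℓ))) ∧
      ∀ (hℓ : ℓ.Prime) (hℓN : ℓ ∣ N),
        lam = θ (CuspForm.heckeAlgebra.U hℓ hℓN (Set.notMem_empty ℓ)) := by
    intro ℓ hℓ
    by_cases hℓN : ℓ ∣ N
    · refine ⟨θ (CuspForm.heckeAlgebra.U hℓ hℓN (Set.notMem_empty ℓ)), ?_, ?_, ?_⟩
      · intro n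
        have h1 := heig (CuspForm.heckeAlgebra.U hℓ hℓN (Set.notMem_empty ℓ))
        rw [CuspForm.heckeAlgebra.coe_U] at h1
        have h2 := congrArg (fun f : CuspForm (Gamma0 N) 2 => qCoeff (⇑f) n) h1
        simp only [Fermat.Agent.S49.qCoeff_heckeU hℓ, qCoeff_smul] at h2
        rw [he']
        simp only [if_pos hℓN, zero_mul, add_zero]
        rw [mul_comm ℓ n]
        exact h2
      · intro _ hℓN'
        exact absurd hℓN hℓN'
      · intro _ _
        rfl
    · refine ⟨θ (CuspForm.heckeAlgebra.T hℓ hℓN (Set.notMem_empty ℓ)), ?_, ?_, ?_⟩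
      · intro n
        have h1 := heig (CuspForm.heckeAlgebra.T hℓ hℓN (Set.notMem_empty ℓ))
        rw [CuspForm.heckeAlgebra.coe_T] at h1
        have h2 := congrArg (fun f : CuspForm (Gamma0 N) 2 => qCoeff (⇑f) n) h1
        simp only [Fermat.Agent.S49.qCoeff_heckeT, qCoeff_smul] at h2
        have h21 : ((2 : ℤ) - 1) = 1 := by norm_num
        rw [h21, zpow_one] at h2
        rw [he']
        simp only [if_neg hℓN]
        rw [mul_comm ℓ n, ← h2]
        split_ifs <;> simp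
      · intro _ _
        rfl
      · intro _ hℓN'
        exact absurd hℓN' hℓN
  -- the first coefficient does not vanish
  have hb1 : qCoeff (⇑v) 1 ≠ 0 := by
    intro hb1
    have hall : ∀ n : ℕ, qCoeff (⇑v) n = 0 := by
      intro n
      induction n using Nat.strong_induction_on with
      | _ n ih =>
        rcases Nat.lt_or_ge n 2 with hn | hn
        · interval_cases n
          · exact qCoeff_zero_eq v
          · exact hb1
        · have hp : (n.minFac).Prime := Nat.minFac_prime (by omega)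
          obtain ⟨lam, hlam, -, -⟩ := hrel n.minFac hp
          have hm : n = n.minFac * (n / n.minFac) :=
            (Nat.mul_div_cancel' (Nat.minFac_dvd n)).symm
          have hlt : n / n.minFac < n := Nat.div_lt_self (by omega) hp.one_lt
          have h1 := hlam (n / n.minFac)
          rw [← hm, ih _ hlt, mul_zero] at h1
          have h2 : (if n.minFac ∣ n / n.minFac then
              qCoeff (⇑v) (n / n.minFac / n.minFac) else 0) = 0 := by
            split_ifs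
            · exact ih _ (lt_of_le_of_lt (Nat.div_le_self _ _) hlt)
            · rfl
          rw [h2, mul_zero, add_zero] at h1
          exact h1
    apply hv
    apply ext_qCoeff
    intro n
    have h0 : qCoeff (⇑(0 : CuspForm (Gamma0 N) 2)) n = 0 := by
      rw [← qLin_apply, map_zero]
    rw [h0, hall n]
  set b1 := qCoeff (⇑v) 1 with hb1def
  set g : CuspForm (Gamma0 N) 2 := b1⁻¹ • v with hg
  have hc : ∀ n, qCoeff (⇑g) n = b1⁻¹ * qCoeff (⇑v) n := fun n => qCoeff_smul _ _ _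
  have hc1 : qCoeff (⇑g) 1 = 1 := by
    rw [hc, ← hb1def, inv_mul_cancel₀ hb1]
  have hrelg : ∀ ℓ : ℕ, ℓ.Prime → ∃ lam : ℂ,
      (∀ n : ℕ, qCoeff (⇑g) (ℓ * n) + e' ℓ * (if ℓ ∣ n then qCoeff (⇑g) (n / ℓ) else 0) =
        lam * qCoeff (⇑g) n) ∧
      (∀ (hℓ : ℓ.Prime) (hℓN : ¬ ℓ ∣ N),
        lam = θ (CuspForm.heckeAlgebra.T hℓ hℓN (Set.notMem_empty ℓ))) ∧
      ∀ (hℓ : ℓ.Prime) (hℓN : ℓ ∣ N),
        lam = θ (CuspForm.heckeAlgebra.U hℓ hℓN (Set.notMem_empty ℓ)) := by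
    intro ℓ hℓ
    obtain ⟨lam, hlam, hlam', hlam''⟩ := hrel ℓ hℓ
    refine ⟨lam, ?_, hlam', hlam''⟩
    intro n
    have h1 := hlam n
    simp only [hc]
    split_ifs with hd
    · rw [if_pos hd] at h1
      linear_combination b1⁻¹ * h1
    · rw [if_neg hd] at h1
      linear_combination b1⁻¹ * h1
  have hlam_eq : ∀ ℓ : ℕ, ℓ.Prime → ∀ lam : ℂ,
      (∀ n : ℕ, qCoeff (⇑g) (ℓ * n) + e' ℓ * (if ℓ ∣ n then qCoeff (⇑g) (n / ℓ) else 0) =
        lam * qCoeff (⇑g) n) → lam = qCoeff (⇑g) ℓ := by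
    intro ℓ hℓ lam hlam
    have h1 := hlam 1
    rw [if_neg (Nat.Prime.not_dvd_one hℓ), mul_zero, add_zero, mul_one, hc1, mul_one] at h1
    exact h1.symm
  have hsys : FormalHecke.IsEigensystem e' (fun n => qCoeff (⇑g) n) := by
    refine ⟨hc1, ?_⟩
    intro ℓ hℓ n
    obtain ⟨lam, hlam, -, -⟩ := hrelg ℓ hℓ
    have := hlam_eq ℓ hℓ lam hlam
    subst this
    exact hlam n
  have hrec := isRecursive_of_isEigensystem hsys
  refine ⟨g, ⟨hc1, hrec.2.1, ?_, ?_⟩, ?_, ?_⟩
  · intro p r hp hpN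
    have := hrec.2.2 p r hp
    rw [he'] at this
    simp only [if_neg hpN] at this
    exact this
  · intro p r hp hpN
    have := hrec.2.2 p r hp
    rw [he'] at this
    simp only [if_pos hpN, zero_mul, sub_zero] at this
    exact this
  · intro ℓ hℓ hℓN
    obtain ⟨lam, hlam, hlam', -⟩ := hrelg ℓ hℓ
    rw [← hlam' hℓ hℓN]
    exact (hlam_eq ℓ hℓ lam hlam).symm
  · intro ℓ hℓ hℓN
    obtain ⟨lam, hlam, -, hlam''⟩ := hrelg ℓ hℓ
    rw [← hlam'' hℓ hℓN]
    exact (hlam_eq ℓ hℓ lam hlam).symm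

end Fermat.Agent.S41.Coh
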