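import Mathlib
import Fermat.Agent.S41.Coh.CoreInst
import Fermat.Agent.S41.Final
import Fermat.Agent.S41.Ihara.EisFinal
import Fermat.Agent.EC.FrobFixed.NonEisensteinFinal
import Fermat.Prelude.Def_FLTPrelim_ModularRep
import Fermat.Prelude.Def_FreyPackage_LevelRaising

/-!
# S41 : the frozen statement from dual Ihara alone

`frozen_of_dual` : the conclusion of the frozen statement S41 (level raising) from its hypotheses
and ONE extra hypothesis `hD`, the dual of Ihara's lemma modulo `p` for the operators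
`T_ℓ - (ℓ + 1)`:

  `∀ ℓ ∤ N q'`, `∀ a b ∈ Hom_PE(Γ₀(N), 𝔽_p)`, `∃ z ∈ Hom_PE(Γ₀(N q'), 𝔽_p)`,
    `(T_ℓ - (ℓ + 1)) a = cor z` and `(T_ℓ - (ℓ + 1)) b = cor (w z)`.

Everything else is supplied: the non-Eisenstein prime (`EC.FrobFixed.exists_good_prime_not_dvd`),
Ihara's lemma (`Ihara.Eis.ihara_modp_sub`), Ribet's algebra instantiated
(`exists_new_eigenvector_lat`), and the passage from the eigenvector to a normalised eigenform
(`Final.exists_eigenform_of_eigenvector`).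
-/

set_option autoImplicit false

open scoped MatrixGroups
open CongruenceSubgroup ModularForm
open WeierstrassCurve WeierstrassCurve.Affine WeierstrassCurve.Affine.Point

namespace Fermat.Agent.S41.Coh

open Fermat.Agent.ESJ.ParHom Fermat.Agent.ESJ.Rep

/-- A maximal ideal of the algebraic integers containing `p` contains no integer prime to `p`. -/
theorem intCast_notMem_of_not_dvd {p : ℕ} (hp : p.Prime) (𝔪 : Ideal (integralClosure ℤ ℂ))
    (hmax : 𝔪.IsMaximal) (hpm : (p : integralClosure ℤ ℂ) ∈ 𝔪) {n : ℤ} (hn : ¬ (p : ℤ) ∣ n) :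
    (n : integralClosure ℤ ℂ) ∉ 𝔪 := by
  intro hmem
  have hcop : IsCoprime (p : ℤ) n := (Nat.prime_iff_prime_int.mp hp).coprime_iff_not_dvd.mpr hn
  obtain ⟨u, v, huv⟩ := hcop
  have h1 : (1 : integralClosure ℤ ℂ) ∈ 𝔪 := by
    have e : (1 : integralClosure ℤ ℂ)
        = (u : integralClosure ℤ ℂ) * (p : integralClosure ℤ ℂ) + (v : integralClosure ℤ ℂ) * n := by
      have := congrArg (fun z : ℤ => (z : integralClosure ℤ ℂ)) huv
      simp only [Int.cast_add, Int.cast_mul, Int.cast_natCast, Int.cast_one] at this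
      exact this.symm
    rw [e]
    exact 𝔪.add_mem (𝔪.mul_mem_left _ hpm) (𝔪.mul_mem_left _ hmem)
  exact hmax.ne_top ((Ideal.eq_top_iff_one _).mpr h1)

/-- **The frozen statement S41 from dual Ihara.** -/
theorem frozen_of_dual
    (E : WeierstrassCurve ℚ) [E.IsElliptic] {W : WeierstrassCurve ℤ} (hW : W.IsIntegralModelOf E)
    {p N q' : ℕ} [NeZero N] [Fact q'.Prime] (hp : p.Prime) (hp2 : p ≠ 2) (hq'N : ¬ q' ∣ N)
    (hirr : GaloisRepIsIrreducible (K := AlgebraicClosure ℚ) ℚ E p)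
    (f : CuspForm (CongruenceSubgroup.Gamma0 N) 2) (𝔪 : Ideal (integralClosure ℤ ℂ))
    (hf : f.IsNormalizedEigenform) (hmax : 𝔪.IsMaximal) (hpm : (p : integralClosure ℤ ℂ) ∈ 𝔪)
    (hcong : ∀ ℓ : ℕ, ℓ.Prime → W.IsGoodPrimeFor ℓ → ¬ ℓ ∣ N → ℓ ≠ p →
      ∃ a : integralClosure ℤ ℂ, (a : ℂ) = ModularFormClass.qCoeff f ℓ ∧
        a - ((W.apOfModel ℓ : ℤ) : integralClosure ℤ ℂ) ∈ 𝔪)
    (hLR : ∃ a : integralClosure ℤ ℂ, (a : ℂ) = ModularFormClass.qCoeff f q' ∧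
      a ^ 2 - ((q' : integralClosure ℤ ℂ) + 1) ^ 2 ∈ 𝔪)
    (hD : ∀ ℓ : Nat.Primes, ¬ (ℓ : ℕ) ∣ N * q' →
      ∀ a b : peHoms (Gamma0 N) (ZMod p) (ZMod p),
        ∃ z : peHoms (Gamma0 (N * q')) (ZMod p) (ZMod p),
          heckePE N ℓ (ZMod p) (ZMod p) a - ((ℓ : ℕ) + 1) • a
            = corPE N q' (ZMod p) (ZMod p) z ∧
          heckePE N ℓ (ZMod p) (ZMod p) b - ((ℓ : ℕ) + 1) • b
            = corPE N q' (ZMod p) (ZMod p) (wPE N q' (ZMod p) (ZMod p) z)) :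
    ∃ (g : CuspForm (CongruenceSubgroup.Gamma0 (N * q')) 2) (𝔪' : Ideal (integralClosure ℤ ℂ)),
      g.IsNormalizedEigenform ∧ 𝔪'.IsMaximal ∧ (p : integralClosure ℤ ℂ) ∈ 𝔪' ∧
      (∀ ℓ : ℕ, ℓ.Prime → W.IsGoodPrimeFor ℓ → ¬ ℓ ∣ N * q' → ℓ ≠ p →
        ∃ a : integralClosure ℤ ℂ, (a : ℂ) = ModularFormClass.qCoeff g ℓ ∧
          a - ((W.apOfModel ℓ : ℤ) : integralClosure ℤ ℂ) ∈ 𝔪') ∧
      g.IsNewAt q' := by
  classical
  have hq' : q'.Prime := Fact.out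
  have hN : 0 < N := Nat.pos_of_ne_zero (NeZero.ne N)
  have hNq : N * q' ≠ 0 := mul_ne_zero (NeZero.ne N) hq'.ne_zero
  -- the non-Eisenstein prime
  obtain ⟨ℓ, hℓ, hℓS, hℓp, hgood, hnd⟩ :=
    Fermat.Agent.EC.FrobFixed.exists_good_prime_not_dvd E hW hp hirr (N * q').primeFactors
  have hℓNq : ¬ ℓ ∣ N * q' := fun h => hℓS (Nat.mem_primeFactors.mpr ⟨hℓ, h, hNq⟩)
  have hℓN : ¬ ℓ ∣ N := fun h => hℓNq (h.mul_right q')
  let L : {ℓ : Nat.Primes // ¬ (ℓ : ℕ) ∣ N * q'} := ⟨⟨ℓ, hℓ⟩, hℓNq⟩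
  have h₁ : ∀ a : integralClosure ℤ ℂ, (a : ℂ) = ModularFormClass.qCoeff (⇑f) ((L.1 : Nat.Primes) : ℕ) →
      a - ((((L.1 : Nat.Primes) : ℕ) : integralClosure ℤ ℂ) + 1) ∉ 𝔪 := by
    intro a ha hmem
    obtain ⟨a₀, ha₀, ha₀m⟩ := hcong ℓ hℓ hgood hℓN hℓp
    have haa : a = a₀ := Subtype.ext (ha.trans ha₀.symm)
    subst haa
    refine intCast_notMem_of_not_dvd hp 𝔪 hmax hpm hnd ?_
    have e : (((ℓ : ℤ) + 1 - W.apOfModel ℓ : ℤ) : integralClosure ℤ ℂ)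
        = (a - ((W.apOfModel ℓ : ℤ) : integralClosure ℤ ℂ))
          - (a - ((ℓ : integralClosure ℤ ℂ) + 1)) := by
      push_cast
      ring
    rw [e]
    exact 𝔪.sub_mem ha₀m hmem
  have hI := ihara_lat_of_modp (N := N) (q := q') p (⟨ℓ, hℓ⟩ : Nat.Primes) (by
    have : Fact ℓ.Prime := ⟨hℓ⟩
    exact Fermat.Agent.S41.Ihara.Eis.ihara_modp_sub hN hq'N hp hp2 (ℓ := ℓ) hℓN)
  have hDu := dual_lat_of_modp (N := N) (q := q') p (⟨ℓ, hℓ⟩ : Nat.Primes) (hD ⟨ℓ, hℓ⟩ hℓNq)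
  have := hmax
  obtain ⟨w, θ', 𝔪', hw, heig, hmax', hp', hc, hu⟩ :=
    exists_new_eigenvector_lat hq'N hp.ne_zero hf 𝔪 hpm hLR L L h₁ h₁ hI hDu
  -- the eigenform
  set θc : CuspForm.heckeAlgebra (N * q') 2 (∅ : Set ℕ) →+* ℂ :=
    ((integralClosure ℤ ℂ).val : integralClosure ℤ ℂ →+* ℂ).comp θ' with hθc
  have hθc_apply : ∀ t, θc t = ((θ' t : integralClosure ℤ ℂ) : ℂ) := fun _ => rfl
  have heig' : ∀ t : CuspForm.heckeAlgebra (N * q') 2 (∅ : Set ℕ),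
      periodEquiv (N * q')
        ((t : Module.End ℂ (CuspForm (Gamma0 (N * q')) 2)) ((periodEquiv (N * q')).symm w).1,
         (t : Module.End ℂ (CuspForm (Gamma0 (N * q')) 2)) ((periodEquiv (N * q')).symm w).2)
        = θc t • w := by
    intro t
    rw [← rhoPE_apply, LinearEquiv.apply_symm_apply]
    exact heig t
  obtain ⟨g, hg, hT, hU⟩ :=
    Fermat.Agent.S41.Final.exists_eigenform_of_eigenvector w hw θc heig'
  refine ⟨g, 𝔪', hg, hmax', hp', ?_, ?_⟩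
  · intro ℓ' hℓ' hgood' hℓ'M hℓ'p
    obtain ⟨a₀, ha₀, ha₀m⟩ := hcong ℓ' hℓ' hgood' (fun h => hℓ'M (h.mul_right q')) hℓ'p
    let P : Nat.Primes := ⟨ℓ', hℓ'⟩
    have hPM : ¬ (P : ℕ) ∣ N * q' := hℓ'M
    refine ⟨θ' (CuspForm.heckeFormsGen (N * q') 2 P), ?_, ?_⟩
    · rw [hT ℓ' hℓ' hℓ'M, hθc_apply, CuspForm.heckeFormsGen_of_not_dvd hPM]
    · have hchi : EigChar.chi hf (CuspForm.heckeFormsGen N 2 P) = a₀ := by
        apply Subtype.ext
        rw [EigChar.coe_chi, EigChar.chiC_heckeFormsGen]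
        exact ha₀.symm
      have h := hc (MvPolynomial.X ⟨P, hPM⟩ - MvPolynomial.C (W.apOfModel ℓ')) (by
        rw [map_sub, jT0_X, jT0_C, map_sub, map_intCast, hchi]
        exact ha₀m)
      rw [map_sub, jT0_X, jT0_C, map_sub, map_intCast] at h
      exact h
  · show ModularFormClass.qCoeff g q' ^ 2 = 1
    have hd : q' ∣ N * q' := Dvd.intro_left N rfl
    rw [hU q' hq' hd, hθc_apply]
    have e : CuspForm.heckeFormsGen (N * q') 2 (⟨q', hq'⟩ : Nat.Primes)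
        = CuspForm.heckeAlgebra.U hq' hd (Set.notMem_empty _) :=
      CuspForm.heckeFormsGen_of_dvd (q := ⟨q', hq'⟩) hd
    rw [e] at hu
    have h2 := congrArg (fun z : integralClosure ℤ ℂ => (z : ℂ)) hu
    simpa using h2

end Fermat.Agent.S41.Coh
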