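import Mathlib
import Fermat.Agent.S41.Coh.Commute

/-!
# S41 / WP-A : explicit formulas for the degeneracy operators

* `diagConjG N q γ ∈ Γ₀(N)` for `γ ∈ Γ₀(N q)`: the matrix `η γ η⁻¹ = [[a, q b], [c / q, d]]`
  (`η = diag(q, 1)`), characterised by `diagConjG_apply_*`;
* `wCoh_resCoh_apply` : `(w ∘ res) φ (γ) = φ (η γ η⁻¹)` — the second degeneracy map
  `α₂ = wCoh ∘ resCoh` is `φ ↦ φ ∘ (conjugation by diag(q, 1))`;
* `resCoh_add_wCoh_resCoh_eq_zero_iff` : `res φ₂ + (w ∘ res) φ₁' = 0` in the form used by Ihara's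
  lemma.
-/

set_option autoImplicit false

open scoped MatrixGroups
open CongruenceSubgroup ModularForm

namespace Fermat.Agent.S41.Coh

open Fermat.Agent.ESJ.ParHom

noncomputable section

variable {N q : ℕ}

theorem diagConj_mem_Gamma0 (hq : q ≠ 0) {γ : SL(2, ℤ)} (hγ : γ ∈ Gamma0 (N * q)) :
    diagConj q γ ∈ Gamma0 N := by
  apply mem_Gamma0_of_dvd
  obtain ⟨c, hc⟩ := dvd_of_mem_Gamma0 hγ
  have hq' : (q : ℤ) ≠ 0 := by exact_mod_cast hq
  have hγq : (q : ℤ) ∣ γ 1 0 := ⟨N * c, by rw [hc]; push_cast; ring⟩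
  have e1 : γ 1 0 / (q : ℤ) = N * c := by
    rw [hc]
    push_cast
    rw [show (N : ℤ) * q * c = q * (N * c) by ring, Int.mul_ediv_cancel_left _ hq']
  have e2 := congrFun (congrFun (coe_diagConj hγq) 1) 0
  rw [e2]
  simp only [diagConjMat, Matrix.of_apply, Matrix.cons_val', Matrix.cons_val_zero,
    Matrix.cons_val_one, Matrix.empty_val', Matrix.cons_val_fin_one, e1]
  exact dvd_mul_right _ _

/-- `η γ η⁻¹` as an element of `Γ₀(N)`, for `γ ∈ Γ₀(N q)` (`η = diag(q, 1)`). -/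
def diagConjG (N q : ℕ) (γ : Gamma0 (N * q)) : Gamma0 N :=
  if hq : q = 0 then 1 else ⟨diagConj q γ, diagConj_mem_Gamma0 hq γ.2⟩

theorem coe_diagConjG (hq : q ≠ 0) (γ : Gamma0 (N * q)) :
    ((diagConjG N q γ : Gamma0 N) : SL(2, ℤ)) = diagConj q γ := by
  rw [diagConjG, dif_neg hq]

theorem dvd_apply_10 (γ : Gamma0 (N * q)) : (q : ℤ) ∣ (γ : SL(2, ℤ)) 1 0 :=
  (Int.natCast_dvd_natCast.mpr (Dvd.intro_left N rfl)).trans (dvd_of_mem_Gamma0 γ.2)

theorem diagConjG_apply_00 (hq : q ≠ 0) (γ : Gamma0 (N * q)) :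
    ((diagConjG N q γ : Gamma0 N) : SL(2, ℤ)) 0 0 = (γ : SL(2, ℤ)) 0 0 := by
  rw [coe_diagConjG hq]
  have e := congrFun (congrFun (coe_diagConj (dvd_apply_10 γ)) 0) 0
  rw [e]
  simp [diagConjMat]

theorem diagConjG_apply_01 (hq : q ≠ 0) (γ : Gamma0 (N * q)) :
    ((diagConjG N q γ : Gamma0 N) : SL(2, ℤ)) 0 1 = q * (γ : SL(2, ℤ)) 0 1 := by
  rw [coe_diagConjG hq]
  have e := congrFun (congrFun (coe_diagConj (dvd_apply_10 γ)) 0) 1
  rw [e]
  simp [diagConjMat]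

theorem diagConjG_apply_10 (hq : q ≠ 0) (γ : Gamma0 (N * q)) :
    q * ((diagConjG N q γ : Gamma0 N) : SL(2, ℤ)) 1 0 = (γ : SL(2, ℤ)) 1 0 := by
  rw [coe_diagConjG hq]
  have e := congrFun (congrFun (coe_diagConj (dvd_apply_10 γ)) 1) 0
  rw [e]
  simp only [diagConjMat, Matrix.of_apply, Matrix.cons_val', Matrix.cons_val_zero,
    Matrix.cons_val_one, Matrix.empty_val', Matrix.cons_val_fin_one]
  exact Int.mul_ediv_cancel' (dvd_apply_10 γ)

theorem diagConjG_apply_11 (hq : q ≠ 0) (γ : Gamma0 (N * q)) :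
    ((diagConjG N q γ : Gamma0 N) : SL(2, ℤ)) 1 1 = (γ : SL(2, ℤ)) 1 1 := by
  rw [coe_diagConjG hq]
  have e := congrFun (congrFun (coe_diagConj (dvd_apply_10 γ)) 1) 1
  rw [e]
  simp [diagConjMat]

variable {A : Type*} [AddCommGroup A]

/-- The second degeneracy map `w ∘ res` is `φ ↦ φ ∘ (conjugation by diag(q, 1))`. -/
theorem wCoh_resCoh_apply (h : Nat.Coprime q N) (hq : q ≠ 0) (φ : Additive (Gamma0 N) →+ A)
    (γ : Gamma0 (N * q)) :
    wCoh N q (resCoh N q φ) (Additive.ofMul γ) = φ (Additive.ofMul (diagConjG N q γ)) := by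
  rw [wCoh_resCoh_eq h hq]
  let m0 : Gamma0 N := ⟨mRep N q 0, mRep_mem_Gamma0 h 0⟩
  have e : (fun _ : Unit => wMat N q) () * jSub (Gamma0 (N * q)) γ
      = jSub (Gamma0 N) (m0 * diagConjG N q γ * m0⁻¹) * (fun _ : Unit => wMat N q) () := by
    show wMat N q * Matrix.SpecialLinearGroup.mapGL ℝ (γ : SL(2, ℤ))
      = Matrix.SpecialLinearGroup.mapGL ℝ
          (((m0 * diagConjG N q γ * m0⁻¹ : Gamma0 N) : SL(2, ℤ))) * wMat N q
    rw [wMat_mul_mapGL h hq (dvd_apply_10 γ), wConj]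
    simp only [Subgroup.coe_mul, Subgroup.coe_inv, coe_diagConjG hq]
    rfl
  rw [(wResSys h hq).op_apply_of φ γ id (fun _ => m0 * diagConjG N q γ * m0⁻¹) (fun _ => e)]
  simp only [Finset.univ_unique, Finset.sum_singleton, ofMul_mul, ofMul_inv, map_add, map_neg]
  abel

end

end Fermat.Agent.S41.Coh
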